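import Fermat.Agent.Curves.Affine

set_option autoImplicit false
set_option maxHeartbeats 400000

/-!
# Curves in the sense of the prelude are function fields of one variable
-/

noncomputable section

namespace Fermat.Agent.Tor27

open AlgebraicCurve Fermat.Agent.Curves IntermediateField

section

variable {K F : Type*} [Field K] [Field F] [Algebra K F]

lemma finite_of_algebraic [Algebra.EssFiniteType K F] (L : IntermediateField K F)
    [Algebra.IsAlgebraic L F] : FiniteDimensional L F := by
  haveI : Algebra.EssFiniteType L F := Algebra.EssFiniteType.of_comp K L F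
  obtain ⟨s, hs⟩ := IntermediateField.fg_top L F
  have : FiniteDimensional L (IntermediateField.adjoin L (s : Set F)) :=
    IntermediateField.finiteDimensional_adjoin fun y _ =>
      (Algebra.IsAlgebraic.isAlgebraic y).isIntegral
  rw [hs] at this
  exact (IntermediateField.topEquiv (F := L) (E := F)).toLinearEquiv.finiteDimensional

lemma algebraic_of_hom {A B : Type*} [Field A] [Field B] [Algebra A F] [Algebra B F]
    [Algebra.IsAlgebraic A F] (φ : A →+* B) (h : ∀ a, algebraMap B F (φ a) = algebraMap A F a) :
    Algebra.IsAlgebraic B F := by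
  refine ⟨fun x => ?_⟩
  obtain ⟨p, hp0, hp⟩ := Algebra.IsAlgebraic.isAlgebraic (R := A) x
  refine ⟨p.map φ, (Polynomial.map_ne_zero_iff φ.injective).2 hp0, ?_⟩
  rw [Polynomial.aeval_def, Polynomial.eval₂_map]
  have : (algebraMap B F).comp φ = algebraMap A F := RingHom.ext h
  rw [this]
  exact hp

variable [IsAlgClosed K]

lemma const_of_place (E : IntermediateField K F) (w : Place E F)
    (hfin : ∀ v : Place K F, Module.Finite K v.ResidueField) (e : E) :
    ∃ c : K, (e : F) = algebraMap K F c := by
  let v : Place K F := ⟨w.toValuationSubring, fun a => w.algebraMap_mem' (algebraMap K E a),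
    w.ne_top', w.isPrincipalIdealRing'⟩
  haveI := hfin v
  haveI : Algebra.IsIntegral K v.ResidueField := Algebra.IsIntegral.of_finite K v.ResidueField
  have hbij : Function.Bijective (algebraMap K v.ResidueField) :=
    IsAlgClosed.algebraMap_bijective_of_isIntegral
  have hmem (e : E) : (e : F) ∈ v.toValuationSubring := w.algebraMap_mem' e
  obtain ⟨c, hc⟩ := hbij.2 (IsLocalRing.residue _ (⟨(e : F), hmem e⟩ : v.toValuationSubring))
  refine ⟨c, ?_⟩
  by_contra hne
  have h1 : (⟨(e : F), hmem e⟩ : v.toValuationSubring) - algebraMap K v.toValuationSubring c ∈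
      IsLocalRing.maximalIdeal v.toValuationSubring := by
    rw [← IsLocalRing.residue_eq_zero_iff, map_sub, ← hc, sub_eq_zero]
    rfl
  have h2 : e - algebraMap K E c ≠ 0 := by
    intro h0
    apply hne
    have := congrArg (algebraMap E F) (sub_eq_zero.1 h0)
    exact this
  rw [IsLocalRing.mem_maximalIdeal, mem_nonunits_iff] at h1
  apply h1
  refine IsUnit.of_mul_eq_one (⟨((e - algebraMap K E c)⁻¹ : E), hmem _⟩ : v.toValuationSubring) ?_
  apply Subtype.ext
  have := congrArg (algebraMap E F) (mul_inv_cancel₀ h2)
  rw [map_mul, map_one] at this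
  exact this

end

/-- a curve is a function field of one variable -/
theorem isFunctionField_of_isCurveOver (K F : Type*) [Field K] [Field F] [Algebra K F]
    [IsAlgClosed K] [IsCurveOver K F] [Algebra.EssFiniteType K F] : IsFunctionField K F := by
  obtain ⟨s, hs⟩ := exists_isTranscendenceBasis K F
  have halg := hs.isAlgebraic_field
  rw [Subtype.range_coe] at halg
  have hne : s.Nonempty := by
    by_contra h0
    rw [Set.not_nonempty_iff_eq_empty] at h0
    subst h0
    have h0 : Algebra.IsAlgebraic K (adjoin K (∅ : Set F)) := by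
      refine ⟨fun a => ?_⟩
      obtain ⟨b, hb⟩ : ∃ b : K, algebraMap K _ b = a := by
        have ha : (a : F) ∈ (⊥ : IntermediateField K F) :=
          (adjoin_empty K F).le a.2
        obtain ⟨b, hb⟩ := IntermediateField.mem_bot.1 ha
        exact ⟨b, Subtype.ext hb⟩
      subst hb
      exact isAlgebraic_algebraMap b
    have h1 : Algebra.IsAlgebraic K F := Algebra.IsAlgebraic.trans K (adjoin K (∅ : Set F)) F
    haveI : Algebra.IsIntegral K F := Algebra.isAlgebraic_iff_isIntegral.1 h1
    have hsurj : Function.Surjective (algebraMap K F) :=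
      (IsAlgClosed.algebraMap_bijective_of_isIntegral (k := K) (K := F)).2
    haveI : Subsingleton (Ω[F⁄K]) := KaehlerDifferential.subsingleton_of_surjective K F hsurj
    have h2 := IsCurveOver.finrank_kaehler (K := K) (F := F)
    rw [Module.finrank_zero_of_subsingleton] at h2
    exact zero_ne_one h2
  obtain ⟨t, ht⟩ := hne
  -- the constants
  let E : IntermediateField K F := adjoin K (s \ {t})
  haveI : Algebra.EssFiniteType E F := Algebra.EssFiniteType.of_comp K E F
  have htE : Transcendental E t := by
    have h1 := hs.1.transcendental_adjoin (s := {i : s | (i : F) ≠ t}) (i := ⟨t, ht⟩)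
      (by simp)
    have h2 : (Subtype.val '' {i : s | (i : F) ≠ t}) = s \ {t} := by
      ext x
      simp only [Set.mem_image, Set.mem_setOf_eq, Subtype.exists, exists_and_left, exists_prop,
        exists_eq_right_right, Set.mem_diff, Set.mem_singleton_iff]
      tauto
    rw [h2] at h1
    open scoped algebraAdjoinAdjoin in
    intro h3
    apply h1
    exact (IsFractionRing.isAlgebraic_iff (Algebra.adjoin K (s \ {t})) E F).2 h3
  have hsub1 : s ⊆ (E⟮t⟯ : Set F) := by
    intro x hx
    by_cases hxt : x = t
    · subst hxt; exact mem_adjoin_simple_self E x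
    · exact (E⟮t⟯).algebraMap_mem ⟨x, subset_adjoin K _ ⟨hx, hxt⟩⟩
  haveI hfun : IsFunctionField E F := by
    refine ⟨t, htE, ?_⟩
    have hle : adjoin K s ≤ (E⟮t⟯).restrictScalars K := by
      rw [adjoin_le_iff]; exact hsub1
    have h3 : Algebra.IsAlgebraic ((E⟮t⟯).restrictScalars K) F := by
      refine algebraic_of_hom (A := adjoin K s) (B := (E⟮t⟯).restrictScalars K)
        (IntermediateField.inclusion hle).toRingHom ?_
      intro a
      rfl
    haveI : Algebra.IsAlgebraic E⟮t⟯ F := h3
    exact finite_of_algebraic E⟮t⟯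
  obtain ⟨w, -⟩ := exists_ord_pos_of_transcendental (k := E) (F := F) htE
  have hconst := const_of_place E w (fun v => IsCurveOver.finiteResidue v)
  -- conclusion
  refine ⟨t, ?_, ?_⟩
  · exact htE.restrictScalars (FaithfulSMul.algebraMap_injective K E)
  · have hle : adjoin K s ≤ K⟮t⟯ := by
      rw [adjoin_le_iff]
      intro x hx
      by_cases hxt : x = t
      · subst hxt; exact mem_adjoin_simple_self K x
      · obtain ⟨c, hc⟩ := hconst ⟨x, subset_adjoin K _ ⟨hx, hxt⟩⟩
        change x = _ at hc
        rw [hc]
        exact (K⟮t⟯).algebraMap_mem c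
    haveI : Algebra.IsAlgebraic K⟮t⟯ F := by
      refine algebraic_of_hom (A := adjoin K s) (B := K⟮t⟯)
        ((IntermediateField.inclusion hle : _ →ₐ[K] _) : adjoin K s →+* K⟮t⟯) ?_
      intro a
      rfl
    exact finite_of_algebraic K⟮t⟯

end Fermat.Agent.Tor27
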