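import Fermat.Agent.Tor27.Choice

/-!
# The genus via repartitions
-/

set_option autoImplicit false
set_option linter.unusedSectionVars false

noncomputable section

namespace Fermat.Agent.Tor27

open AlgebraicCurve Fermat.Agent.Curves Fermat.Agent.PicFlat Fermat.Agent.GoodRed

variable {K F : Type*} [Field K] [Field F] [Algebra K F] [IsFunctionField K F] [IsAlgClosed K]

/-- `A(D) + F` -/
def SS (D : Divisor K F) : Submodule K ↥(repartitions K F) :=
  repartitionsOf D ⊔ principalRepartitions K F

theorem finite_poles {α : Place K F → F} (hα : α ∈ repartitions K F) :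
    {v : Place K F | ¬v.adicValuation (α v) ≤ 1}.Finite := by
  induction hα using Algebra.adjoin_induction with
  | mem x hx => exact hx
  | algebraMap f =>
    refine (finite_support (k := K) f).subset fun v hv => ?_
    rw [Function.mem_support]
    intro h0
    have h1 : ¬ v.adicValuation f ≤ 1 := hv
    rw [Place.not_adicValuation_le_one_iff] at h1
    omega
  | add x y _ _ hx hy =>
    refine (hx.union hy).subset fun v hv => ?_
    by_contra hcon
    simp only [Set.mem_union, Set.mem_ofPred_eq, not_or, not_not] at hcon
    exact hv ((Valuation.map_add _ _ _).trans (max_le hcon.1 hcon.2))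
  | mul x y _ _ hx hy =>
    refine (hx.union hy).subset fun v hv => ?_
    by_contra hcon
    simp only [Set.mem_union, Set.mem_ofPred_eq, not_or, not_not] at hcon
    refine hv ?_
    change v.adicValuation (x v * y v) ≤ 1
    rw [map_mul]
    exact mul_le_one' hcon.1 hcon.2

theorem exists_mem_repartitionsOf (α : ↥(repartitions K F)) (D : Divisor K F) :
    ∃ E : Divisor K F, D ≤ E ∧ α ∈ repartitionsOf E := by
  classical
  have hfin := finite_poles α.2
  set T : Finset (Place K F) := hfin.toFinset ∪ D.support with hT
  let E : Divisor K F := Finsupp.onFinset T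
    (fun v => if v ∈ T then max (D v) (-v.ord ((α : Place K F → F) v)) else 0)
    (fun v hv => by
      by_contra h
      exact hv (if_neg h))
  have hE : ∀ v, E v = if v ∈ T then max (D v) (-v.ord ((α : Place K F → F) v)) else 0 :=
    fun v => rfl
  refine ⟨E, fun v => ?_, ?_⟩
  · rw [hE]
    by_cases hv : v ∈ T
    · rw [if_pos hv]; exact le_max_left _ _
    · rw [if_neg hv]
      have : v ∉ D.support := fun h => hv (Finset.mem_union_right _ h)
      rw [Finsupp.notMem_support_iff.1 this]
  · rw [mem_repartitionsOf_iff]
    intro v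
    rw [hE]
    by_cases hv : v ∈ T
    · rw [if_pos hv]
      right
      have := le_max_right (D v) (-v.ord ((α : Place K F → F) v))
      omega
    · rw [if_neg hv, neg_zero]
      have : ¬ ¬ v.adicValuation ((α : Place K F → F) v) ≤ 1 := fun h =>
        hv (Finset.mem_union_left _ (by rw [Set.Finite.mem_toFinset]; exact h))
      rw [not_not, Place.adicValuation_le_one_iff] at this
      exact this

theorem eq_zero_of_degree' {N : Divisor K F} (hN : 0 ≤ N) (h : Divisor.degree N = 0) : N = 0 := by
  classical
  rw [degree_eq_sum, Finsupp.sum] at h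
  rw [Finset.sum_eq_zero_iff_of_nonneg fun i _ => hN i] at h
  ext v
  by_cases hv : v ∈ N.support
  · exact h v hv
  · exact Finsupp.notMem_support_iff.1 hv

theorem div_induction {p : Divisor K F → Prop} (D : Divisor K F) (h0 : p D)
    (hs : ∀ E (P : Place K F), D ≤ E → p E → p (E + Finsupp.single P 1)) (E : Divisor K F)
    (hE : D ≤ E) : p E := by
  classical
  have main : ∀ (n : ℕ) (E : Divisor K F), D ≤ E → Divisor.degree (E - D) = n → p E := by
    intro n
    induction n with
    | zero =>
      intro E hE hd
      have := eq_zero_of_degree' (sub_nonneg.2 hE) (by rw [hd]; rfl)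
      rw [sub_eq_zero] at this
      rwa [this]
    | succ n ih =>
      intro E hE hd
      obtain ⟨P, hP⟩ : ∃ P, D P < E P := by
        by_contra hcon
        push Not at hcon
        have : E = D := le_antisymm (fun v => hcon v) hE
        rw [this, sub_self, map_zero] at hd
        push_cast at hd
        omega
      have hE' : D ≤ E - Finsupp.single P 1 := by
        intro v
        rw [Finsupp.sub_apply]
        by_cases hv : v = P
        · subst hv
          rw [Finsupp.single_eq_same]
          omega
        · rw [Finsupp.single_eq_of_ne hv, sub_zero]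
          exact hE v
      have h1 := hs (E - Finsupp.single P 1) P hE' (ih _ hE' (by
        rw [map_sub, map_sub, degree_single_one]
        rw [map_sub] at hd
        push_cast at hd
        omega))
      rwa [sub_add_cancel] at h1
  have h1 := pos_of_nonneg_degree _ (sub_nonneg.2 hE)
  exact main _ E hE (Int.toNat_of_nonneg h1).symm

theorem SS_mono {D E : Divisor K F} (h : D ≤ E) : SS D ≤ SS E :=
  sup_le_sup_right (repartitionsOf_mono h) _

theorem le_add_single (D : Divisor K F) (P : Place K F) : D ≤ D + Finsupp.single P 1 := by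
  rw [le_add_iff_nonneg_right, Finsupp.single_nonneg]
  norm_num

theorem exp_add_one_le {x : WithZero (Multiplicative ℤ)} {n : ℤ}
    (h : x < WithZero.exp (n + 1)) : x ≤ WithZero.exp n := by
  rcases eq_or_ne x 0 with rfl | hx
  · exact zero_le
  rw [← WithZero.exp_log hx, WithZero.exp_lt_exp] at h
  rw [← WithZero.exp_log hx, WithZero.exp_le_exp]
  omega

/-- killing the leading coefficient -/
theorem exists_kill (P : Place K F) {n : ℤ} {a f : F} (hf0 : f ≠ 0) (hf : P.ord f = -(n + 1))
    (ha : P.adicValuation a ≤ WithZero.exp (n + 1)) : ∃ c : K,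
      P.adicValuation (a - c • f) ≤ WithZero.exp n := by
  have hfv : P.adicValuation f = WithZero.exp (n + 1) := by
    rw [P.adicValuation_eq_exp_neg_ord hf0, hf, neg_neg]
  have h1 : a / f ∈ P.toValuationSubring := by
    rw [mem_iff_val, map_div₀, hfv]
    exact div_le_one_of_le₀ ha (zero_le)
  have h2 := value_spec P h1
  refine ⟨value P (a / f), exp_add_one_le ?_⟩
  have h3 : a - value P (a / f) • f = (a / f - algebraMap K F (value P (a / f))) * f := by
    rw [sub_mul, div_mul_cancel₀ _ hf0, Algebra.smul_def]
  rw [h3, map_mul, hfv]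
  exact mul_lt_of_lt_one_left (by simp) h2

theorem SS_step_eq {D : Divisor K F} {P : Place K F}
    (h : ell (D + Finsupp.single P 1) ≠ ell D) : SS (D + Finsupp.single P 1) = SS D := by
  classical
  refine le_antisymm ?_ (SS_mono (le_add_single D P))
  refine sup_le ?_ le_sup_right
  intro α hα
  obtain ⟨f, hf, hf0, hfP⟩ := exists_of_ell_ne h
  have hαP := hα P
  rw [Finsupp.add_apply, Finsupp.single_eq_same] at hαP
  obtain ⟨c, hc⟩ := exists_kill P hf0 hfP hαP
  let γ : ↥(repartitions K F) := algebraMap F _ (c • f)
  have hγ : ∀ v, (γ : Place K F → F) v = c • f := fun v => rfl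
  have e : α = (α - γ) + γ := by abel
  rw [e]
  refine Submodule.add_mem_sup ?_ ?_
  · intro v
    change v.adicValuation ((α : Place K F → F) v - (γ : Place K F → F) v) ≤ _
    rw [hγ]
    by_cases hv : v = P
    · subst hv; exact hc
    · have h1 := hα v
      have h2 := (Submodule.smul_mem _ c hf) v
      rw [Finsupp.add_apply, Finsupp.single_eq_of_ne hv, add_zero] at h1 h2
      exact (Valuation.map_sub _ _ _).trans (max_le h1 h2)
  · rw [mem_principalRepartitions_iff]
    exact ⟨c • f, rfl⟩

theorem SS_step_succ {D : Divisor K F} {P : Place K F}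
    (h : ell (D + Finsupp.single P 1) = ell D) : ∃ β, β ∉ SS D ∧
      SS (D + Finsupp.single P 1) = SS D ⊔ Submodule.span K {β} := by
  classical
  obtain ⟨f₀, hf₀, hf₀P⟩ := exists_ord_eq P (-(D P + 1))
  have hf₀v : P.adicValuation f₀ = WithZero.exp (D P + 1) := by
    rw [P.adicValuation_eq_exp_neg_ord hf₀, hf₀P, neg_neg]
  let b : Place K F → F := fun v => if v = P then f₀ else 0
  have hb : ∀ v : Place K F, v.adicValuation (b v) ≤
      WithZero.exp ((D + Finsupp.single P 1 : Divisor K F) v) := by
    intro v
    by_cases hv : v = P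
    · subst hv
      simp only [b, if_true]
      rw [hf₀v, Finsupp.add_apply, Finsupp.single_eq_same]
    · simp only [b, if_neg hv, map_zero]
      exact zero_le
  let β : ↥(repartitions K F) := ⟨b, mem_repartitions_of_forall_le_exp _ b hb⟩
  have hβv : ∀ v, (β : Place K F → F) v = if v = P then f₀ else 0 := fun v => rfl
  have hβ : β ∈ repartitionsOf (D + Finsupp.single P 1) := hb
  refine ⟨β, ?_, ?_⟩
  · intro hmem
    obtain ⟨α, hα, φ, hφ, hsum⟩ := Submodule.mem_sup.1 hmem
    obtain ⟨f, hf⟩ := mem_principalRepartitions_iff.1 hφ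
    have hv : ∀ v, (α : Place K F → F) v + f = (β : Place K F → F) v := by
      intro v
      rw [← hsum]
      change _ = (α : Place K F → F) v + (φ : Place K F → F) v
      rw [hf]
    have hfL : f ∈ riemannRochSpace (D + Finsupp.single P 1) := by
      intro v
      have : f = (β : Place K F → F) v - (α : Place K F → F) v := by rw [← hv]; ring
      rw [this]
      refine (Valuation.map_sub _ _ _).trans (max_le (hβ v) ?_)
      exact repartitionsOf_mono (le_add_single D P) hα v
    have hEq : riemannRochSpace D = riemannRochSpace (D + Finsupp.single P 1) :=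
      Submodule.eq_of_le_of_finrank_eq (riemannRochSpace_mono (le_add_single D P)) h.symm
    rw [← hEq] at hfL
    have h1 : P.adicValuation f₀ ≤ WithZero.exp (D P) := by
      have : f₀ = (α : Place K F → F) P + f := by rw [hv, hβv, if_pos rfl]
      rw [this]
      exact (Valuation.map_add _ _ _).trans (max_le (hα P) (hfL P))
    rw [hf₀v, WithZero.exp_le_exp] at h1
    omega
  · refine le_antisymm ?_ ?_
    · refine sup_le ?_ (le_sup_right.trans le_sup_left)
      intro α hα
      have hαP := hα P
      rw [Finsupp.add_apply, Finsupp.single_eq_same] at hαP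
      obtain ⟨c, hc⟩ := exists_kill P hf₀ hf₀P hαP
      have e : α = (α - c • β) + c • β := by abel
      rw [e]
      refine Submodule.add_mem_sup (Submodule.mem_sup_left ?_)
        (Submodule.smul_mem _ _ (Submodule.mem_span_singleton_self _))
      intro v
      change v.adicValuation ((α : Place K F → F) v - c • (β : Place K F → F) v) ≤ _
      rw [hβv]
      by_cases hv : v = P
      · subst hv
        rw [if_pos rfl]
        exact hc
      · rw [if_neg hv, smul_zero, sub_zero]
        have h1 := hα v
        rwa [Finsupp.add_apply, Finsupp.single_eq_of_ne hv, add_zero] at h1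
    · refine sup_le (SS_mono (le_add_single D P)) ?_
      rw [Submodule.span_singleton_le_iff_mem]
      exact Submodule.mem_sup_left hβ

theorem finrank_quot_step {V : Type*} [AddCommGroup V] [Module K V] {S S' : Submodule K V} {β : V}
    (hβ : β ∉ S) (h : S' = S ⊔ Submodule.span K {β}) [Module.Finite K (V ⧸ S')] :
    Module.Finite K (V ⧸ S) ∧ Module.finrank K (V ⧸ S) = Module.finrank K (V ⧸ S') + 1 := by
  have hle : S ≤ S' := h ▸ le_sup_left
  have hmap : S'.map S.mkQ = Submodule.span K {S.mkQ β} := by
    rw [h, Submodule.map_sup, Submodule.map_span, Set.image_singleton]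
    have : S.map S.mkQ = ⊥ := by
      rw [Submodule.mkQ_map_self]
    rw [this, bot_sup_eq]
  have hne : S.mkQ β ≠ 0 := by
    rw [Submodule.mkQ_apply, ne_eq, Submodule.Quotient.mk_eq_zero]
    exact hβ
  let e := Submodule.quotientQuotientEquivQuotient S S' hle
  have hf1 : Module.Finite K (S'.map S.mkQ) := by
    rw [hmap]; infer_instance
  have hf2 : Module.Finite K ((V ⧸ S) ⧸ S'.map S.mkQ) := Module.Finite.equiv e.symm
  have hf3 : Module.Finite K (V ⧸ S) := Module.Finite.of_submodule_quotient (S'.map S.mkQ)
  refine ⟨hf3, ?_⟩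
  rw [← Submodule.finrank_quotient_add_finrank (S'.map S.mkQ), e.finrank_eq, hmap,
    finrank_span_singleton hne]

theorem RR.SS_eq_top {g c : ℤ} (h : RR K F g c) {D : Divisor K F} (hD : c ≤ Divisor.degree D) :
    SS D = ⊤ := by
  rw [eq_top_iff]
  intro α _
  obtain ⟨E, hE, hα⟩ := exists_mem_repartitionsOf α D
  have h1 : SS E = SS D := by
    refine div_induction (p := fun E => SS E = SS D) D rfl ?_ E hE
    intro E P hDE ih
    rw [← ih]
    refine SS_step_eq ?_
    have h3 := pos_of_nonneg_degree _ (sub_nonneg.2 hDE)
    rw [map_sub] at h3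
    have h4 := h.eq E (by omega)
    have h5 := h.eq (E + Finsupp.single P 1) (by rw [map_add, degree_single_one]; omega)
    rw [map_add, degree_single_one] at h5
    omega
  rw [← h1]
  exact Submodule.mem_sup_left hα

/-- **Riemann–Roch with repartitions** -/
theorem RR.finrank_H1 {g c : ℤ} (h : RR K F g c) (D : Divisor K F) :
    Module.Finite K (H1 D) ∧
      (Module.finrank K (H1 D) : ℤ) = ell D - Divisor.degree D - 1 + g := by
  obtain ⟨P₀, -⟩ := (infinite_places_c (k := K) (F := F)).nonempty
  set E : Divisor K F := D + Finsupp.single P₀ (max 0 (c - Divisor.degree D)) with hE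
  have hDE : D ≤ E := by
    rw [hE, le_add_iff_nonneg_right, Finsupp.single_nonneg]
    exact le_max_left _ _
  have hdeg : c ≤ Divisor.degree E := by
    rw [hE, map_add, degree_single_one]
    have := le_max_right 0 (c - Divisor.degree D)
    omega
  have hp : ∀ E : Divisor K F, D ≤ E → (Module.Finite K (↥(repartitions K F) ⧸ SS E) ∧
      (Module.finrank K (↥(repartitions K F) ⧸ SS E) : ℤ) = ell E - Divisor.degree E - 1 + g) →
      (Module.Finite K (↥(repartitions K F) ⧸ SS D) ∧
      (Module.finrank K (↥(repartitions K F) ⧸ SS D) : ℤ) = ell D - Divisor.degree D - 1 + g) := by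
    refine div_induction D (fun h => h) ?_
    intro E P _ ih hEP
    obtain ⟨h1, h2⟩ := hEP
    refine ih ?_
    rw [map_add, degree_single_one] at h2
    by_cases hell : ell (E + Finsupp.single P 1) = ell E
    · obtain ⟨β, hβ, hSS⟩ := SS_step_succ hell
      obtain ⟨k1, k2⟩ := finrank_quot_step hβ hSS
      refine ⟨k1, ?_⟩
      rw [k2]
      rw [hell] at h2
      push_cast
      omega
    · rw [SS_step_eq hell] at h1 h2
      refine ⟨h1, ?_⟩
      obtain ⟨f, hf, hf0, hfP⟩ := exists_of_ell_ne hell
      have h3 := ell_sub_single hf0 hf (by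
        rw [hfP, Finsupp.add_apply, Finsupp.single_eq_same])
      rw [add_sub_cancel_right] at h3
      omega
  refine hp E hDE ?_
  have htop := RR.SS_eq_top h hdeg
  have hsub : Subsingleton (↥(repartitions K F) ⧸ SS E) := by
    rw [htop]
    infer_instance
  refine ⟨Module.Finite.of_finite, ?_⟩
  rw [Module.finrank_zero_of_subsingleton, h.eq E hdeg]
  push_cast
  ring

/-- **(G7)** -/
theorem RR.genusFF_eq {g c : ℤ} (h : RR K F g c) : (genusFF K F : ℤ) = g := by
  have := (RR.finrank_H1 h 0).2
  rw [ell_zero_c, map_zero] at this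
  rw [genusFF, this]
  push_cast
  ring

end Fermat.Agent.Tor27
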