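import Fermat.Agent.Tor27.Defs

/-!
# Tracking of zeros
-/

set_option autoImplicit false

noncomputable section

namespace Fermat.Agent.Tor27

open scoped Topology

theorem contDiffAt_of_ball {h : ℂ → ℂ} {δ : ℝ} (hδ : 0 < δ)
    (hh : DifferentiableOn ℂ h (Metric.ball 0 δ)) : ContDiffAt ℂ 2 h 0 :=
  (hh.analyticAt (Metric.ball_mem_nhds 0 hδ)).contDiffAt

theorem an1 : AN1St := by
  intro κ _ H δ hδ hH
  classical
  set f : (κ → ℂ) × ℂ → ℂ := fun p => p.2 + ∑ k, p.1 k * H k p.2 with hf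
  have hHc : ∀ k, ContDiffAt ℂ 2 (H k) 0 := fun k => contDiffAt_of_ball hδ (hH k)
  have h0 : ((0 : (κ → ℂ) × ℂ)).2 = 0 := rfl
  have hsnd : ContDiffAt ℂ 2 (fun p : (κ → ℂ) × ℂ => p.2) 0 := contDiffAt_snd
  have hfc : ContDiffAt ℂ 2 f 0 := by
    refine hsnd.add (ContDiffAt.sum fun k _ => ?_)
    refine ContDiffAt.mul ?_ ?_
    · exact (contDiff_apply ℂ ℂ k).contDiffAt.comp (0 : (κ → ℂ) × ℂ) contDiffAt_fst
    · exact ContDiffAt.comp (0 : (κ → ℂ) × ℂ) (hHc k) hsnd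
  set f' : (κ → ℂ) × ℂ →L[ℂ] ℂ := ContinuousLinearMap.snd ℂ (κ → ℂ) ℂ +
    ∑ k, H k 0 • (ContinuousLinearMap.proj (R := ℂ) (φ := fun _ : κ => ℂ) k).comp
      (ContinuousLinearMap.fst ℂ (κ → ℂ) ℂ) with hf'
  have hfd : HasFDerivAt f f' 0 := by
    refine HasFDerivAt.add hasFDerivAt_snd (HasFDerivAt.fun_sum fun k _ => ?_)
    have h1 : HasFDerivAt (fun p : (κ → ℂ) × ℂ => p.1 k)
        ((ContinuousLinearMap.proj (R := ℂ) (φ := fun _ : κ => ℂ) k).comp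
          (ContinuousLinearMap.fst ℂ (κ → ℂ) ℂ)) 0 :=
      ((ContinuousLinearMap.proj (R := ℂ) (φ := fun _ : κ => ℂ) k).comp
        (ContinuousLinearMap.fst ℂ (κ → ℂ) ℂ)).hasFDerivAt
    have h2 : DifferentiableAt ℂ (fun p : (κ → ℂ) × ℂ => H k p.2) 0 := by
      have : ContDiffAt ℂ 2 (fun p : (κ → ℂ) × ℂ => H k p.2) 0 :=
        ContDiffAt.comp (0 : (κ → ℂ) × ℂ) (hHc k) hsnd
      exact this.differentiableAt (by norm_num)
    refine (h1.mul h2.hasFDerivAt).congr_fderiv ?_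
    ext
    all_goals simp
  have hfd' : fderiv ℂ f 0 = f' := hfd.fderiv
  have hinr : fderiv ℂ f 0 ∘L .inr ℂ (κ → ℂ) ℂ = ContinuousLinearMap.id ℂ ℂ := by
    rw [hfd']
    ext
    simp [hf']
  have hinv : (fderiv ℂ f 0 ∘L .inr ℂ (κ → ℂ) ℂ).IsInvertible := by
    rw [hinr]
    exact ⟨ContinuousLinearEquiv.refl ℂ ℂ, rfl⟩
  have hn : (2 : WithTop ℕ∞) ≠ 0 := by norm_num
  have hf0 : f 0 = 0 := by simp [hf]
  refine ⟨hfc.implicitFunction hn hinv, hfc.implicitFunction_apply_self hn hinv,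
    hfc.contDiffAt_implicitFunction hn hinv, ?_, ?_, ?_⟩
  · have h1 := (hfc.hasStrictFDerivAt_implicitFunction hn hinv).hasFDerivAt
    refine h1.congr_fderiv ?_
    rw [hinr, ContinuousLinearMap.inverse_id, hfd']
    ext
    simp [hf']
  · have h1 := hfc.eventually_apply_implicitFunction hn hinv
    obtain ⟨ρ, hρ, h2⟩ := Metric.eventually_nhds_iff.1 h1
    refine ⟨ρ, hρ, fun c hc => ?_⟩
    have h3 := h2 (y := c) (by rwa [dist_eq_norm, Prod.fst_zero, sub_zero])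
    rw [hf0] at h3
    exact h3
  · have h1 := hfc.eventually_apply_eq_iff_implicitFunction hn hinv
    obtain ⟨ρ, hρ, h2⟩ := Metric.eventually_nhds_iff.1 h1
    refine ⟨ρ, hρ, fun c t hc ht h => ?_⟩
    have h3 := h2 (y := (c, t)) (by
      rw [dist_eq_norm, sub_zero, Prod.norm_def]
      exact max_lt hc ht)
    rw [hf0] at h3
    exact (h3.1 h).symm

end Fermat.Agent.Tor27
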