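import Fermat.Agent.GoodRed.Red

/-!
# The topology on the places of a function field over the complex numbers
-/

set_option autoImplicit false
set_option linter.unusedSectionVars false
set_option linter.style.haveILetI false

noncomputable section

namespace Fermat.Agent.Tor27

open AlgebraicCurve Fermat.Agent.Curves Topology Filter OnePoint

variable {F : Type*} [Field F] [Algebra ℂ F] [IsFunctionField ℂ F]

/-- the value of a function at a place -/
def ev (P : Place ℂ F) (f : F) : OnePoint ℂ :=
  open Classical in if f ∈ P.toValuationSubring then ((value P f : ℂ) : OnePoint ℂ) else ∞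

theorem ev_of_mem {P : Place ℂ F} {f : F} (h : f ∈ P.toValuationSubring) :
    ev P f = ((value P f : ℂ) : OnePoint ℂ) := by
  classical
  exact if_pos h

theorem ev_of_not_mem {P : Place ℂ F} {f : F} (h : f ∉ P.toValuationSubring) : ev P f = ∞ := by
  classical
  exact if_neg h

theorem ev_ne_infty {P : Place ℂ F} {f : F} : ev P f ≠ ∞ ↔ f ∈ P.toValuationSubring := by
  constructor
  · intro h
    by_contra h1
    exact h (ev_of_not_mem h1)
  · intro h
    rw [ev_of_mem h]
    exact coe_ne_infty _

/-- the topology -/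
instance topPlace : TopologicalSpace (Place ℂ F) :=
  TopologicalSpace.induced (fun P f => ev P f) inferInstance

theorem continuous_evs : Continuous fun (P : Place ℂ F) (f : F) => ev P f :=
  continuous_induced_dom

theorem continuous_ev (f : F) : Continuous fun P : Place ℂ F => ev P f :=
  continuous_pi_iff.1 continuous_evs f

theorem tendsto_iff {α : Type*} {l : Filter α} {u : α → Place ℂ F} {P : Place ℂ F} :
    Tendsto u l (𝓝 P) ↔ ∀ f : F, Tendsto (fun a => ev (u a) f) l (𝓝 (ev P f)) := by
  rw [nhds_induced, tendsto_comap_iff, tendsto_pi_nhds]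
  rfl

theorem tendsto_ev_coe {α : Type*} {l : Filter α} {u : α → Place ℂ F} {f : F} {c : ℂ} :
    Tendsto (fun a => ev (u a) f) l (𝓝 (c : OnePoint ℂ)) ↔
      (∀ᶠ a in l, f ∈ (u a).toValuationSubring) ∧ Tendsto (fun a => value (u a) f) l (𝓝 c) := by
  have key : (∀ᶠ a in l, f ∈ (u a).toValuationSubring) →
      (Tendsto (fun a => value (u a) f) l (𝓝 c) ↔
        Tendsto (fun a => ev (u a) f) l (𝓝 (c : OnePoint ℂ))) := by
    intro h
    rw [OnePoint.isOpenEmbedding_coe.isEmbedding.tendsto_nhds_iff]
    refine tendsto_congr' ?_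
    filter_upwards [h] with a ha
    exact (ev_of_mem ha).symm
  constructor
  · intro h
    have h1 : ∀ᶠ a in l, f ∈ (u a).toValuationSubring := by
      have h2 : {x : OnePoint ℂ | x ≠ ∞} ∈ 𝓝 (c : OnePoint ℂ) :=
        isOpen_compl_singleton.mem_nhds (coe_ne_infty c)
      filter_upwards [h h2] with a ha
      exact ev_ne_infty.1 ha
    exact ⟨h1, (key h1).2 h⟩
  · rintro ⟨h1, h2⟩
    exact (key h1).1 h2

theorem tendsto_ev_infty {α : Type*} {l : Filter α} {u : α → Place ℂ F} {f : F} :
    Tendsto (fun a => ev (u a) f) l (𝓝 ∞) ↔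
      ∀ r : ℝ, ∀ᶠ a in l, f ∈ (u a).toValuationSubring → r < ‖value (u a) f‖ := by
  rw [(OnePoint.hasBasis_nhds_infty (X := ℂ)).tendsto_right_iff]
  constructor
  · intro h r
    filter_upwards [h (Metric.closedBall 0 r) ⟨Metric.isClosed_closedBall,
      isCompact_closedBall 0 r⟩] with a ha hf
    rw [ev_of_mem hf] at ha
    rcases ha with ⟨x, hx, hx'⟩ | h
    · rw [OnePoint.coe_injective hx'] at hx
      rw [Set.mem_compl_iff, Metric.mem_closedBall, dist_zero_right, not_le] at hx
      exact hx
    · exact absurd h (coe_ne_infty _)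
  · rintro h s ⟨-, hs⟩
    obtain ⟨r, hr⟩ := hs.isBounded.subset_closedBall 0
    filter_upwards [h r] with a ha
    by_cases hf : f ∈ (u a).toValuationSubring
    · rw [ev_of_mem hf]
      refine Or.inl ⟨_, fun hs' => ?_, rfl⟩
      have := hr hs'
      rw [Metric.mem_closedBall, dist_zero_right] at this
      exact absurd (ha hf) (not_lt.2 this)
    · rw [ev_of_not_mem hf]
      exact Or.inr rfl

theorem value_sub' (P : Place ℂ F) {x y : F} (hx : x ∈ P.toValuationSubring)
    (hy : y ∈ P.toValuationSubring) : value P (x - y) = value P x - value P y := by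
  have h := value_add P (sub_mem hx hy) hy
  rw [sub_add_cancel] at h
  rw [h, add_sub_cancel_right]

theorem value_one7 (P : Place ℂ F) : value P (1 : F) = 1 := by
  have := value_algebraMap P (1 : ℂ)
  rwa [map_one] at this

theorem value_inv_of_ne {P : Place ℂ F} {f : F} (hf : f ∈ P.toValuationSubring)
    (h : value P f ≠ 0) : f⁻¹ ∈ P.toValuationSubring ∧ value P f⁻¹ = (value P f)⁻¹ := by
  have h0 : f ≠ 0 := by
    rintro rfl
    apply h
    have := value_algebraMap P (0 : ℂ)
    rwa [map_zero] at this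
  have h1 : P.adicValuation f = 1 := by
    refine le_antisymm ((mem_iff_val P).1 hf) (not_lt.1 fun h2 => h ?_)
    exact (value_eq_zero_iff P hf).2 h2
  have h2 : f⁻¹ ∈ P.toValuationSubring := by
    rw [mem_iff_val, map_inv₀, h1, inv_one]
  refine ⟨h2, eq_inv_of_mul_eq_one_left ?_⟩
  rw [← value_mul P h2 hf, inv_mul_cancel₀ h0, value_one7]

theorem value_inv_of_not_mem {P : Place ℂ F} {f : F} (hf : f ∉ P.toValuationSubring) :
    f⁻¹ ∈ P.toValuationSubring ∧ value P f⁻¹ = 0 := by
  have h2 : f⁻¹ ∈ P.toValuationSubring := (P.toValuationSubring.mem_or_inv_mem f).resolve_left hf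
  refine ⟨h2, ?_⟩
  rw [value_eq_zero_iff P h2, map_inv₀]
  refine inv_lt_one_of_one_lt₀ (not_le.1 fun h => hf ((mem_iff_val P).2 h))

instance t2Place : T2Space (Place ℂ F) := by
  refine T2Space.of_injective_continuous (f := fun (P : Place ℂ F) (f : F) => ev P f) ?_
    continuous_induced_dom
  intro P Q h
  apply Place.ext
  ext f
  rw [← ev_ne_infty, ← ev_ne_infty]
  have := congrFun h f
  simp only at this
  rw [this]

/-- the places form a compact space -/
instance compactPlace : CompactSpace (Place ℂ F) := by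
  constructor
  rw [isCompact_iff_ultrafilter_le_nhds]
  intro 𝒰 _
  have h1 : ∀ f : F, ∃ x : OnePoint ℂ, Tendsto (fun P : Place ℂ F => ev P f) 𝒰 (𝓝 x) := by
    intro f
    obtain ⟨x, -, hx⟩ := isCompact_iff_ultrafilter_le_nhds.1 (isCompact_univ (X := OnePoint ℂ))
      (𝒰.map fun P => ev P f) (by simp)
    exact ⟨x, hx⟩
  choose φ hφ using h1
  have huniq : ∀ {f x}, Tendsto (fun P : Place ℂ F => ev P f) 𝒰 (𝓝 x) → φ f = x :=
    fun {f x} h => tendsto_nhds_unique (hφ f) h
  have hfin : ∀ {f : F}, φ f ≠ ∞ → ∃ c : ℂ, φ f = c ∧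
      (∀ᶠ P in (𝒰 : Filter (Place ℂ F)), f ∈ P.toValuationSubring) ∧
      Tendsto (fun P : Place ℂ F => value P f) 𝒰 (𝓝 c) := by
    intro f hf
    obtain ⟨c, hc⟩ := OnePoint.ne_infty_iff_exists.1 hf
    refine ⟨c, hc.symm, tendsto_ev_coe.1 ?_⟩
    rw [hc]
    exact hφ f
  have hmk : ∀ {f : F} {c : ℂ}, (∀ᶠ P in (𝒰 : Filter (Place ℂ F)), f ∈ P.toValuationSubring) →
      Tendsto (fun P : Place ℂ F => value P f) 𝒰 (𝓝 c) → φ f = c :=
    fun h h' => huniq (tendsto_ev_coe.2 ⟨h, h'⟩)
  have hinf : ∀ {f : F}, φ f = ∞ → φ f⁻¹ = ((0 : ℂ) : OnePoint ℂ) := by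
    intro f hf
    have h2 := hφ f
    rw [hf] at h2
    have h3 := tendsto_ev_infty.1 h2
    refine hmk ?_ ?_
    · filter_upwards [h3 0] with P hP
      by_cases hfP : f ∈ P.toValuationSubring
      · exact (value_inv_of_ne hfP (norm_pos_iff.1 (hP hfP))).1
      · exact (value_inv_of_not_mem hfP).1
    · rw [Metric.tendsto_nhds]
      intro ε hε
      filter_upwards [h3 ε⁻¹] with P hP
      rw [dist_zero_right]
      by_cases hfP : f ∈ P.toValuationSubring
      · have h4 := hP hfP
        have h5 : 0 < ‖value P f‖ := (inv_pos.2 hε).trans h4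
        rw [(value_inv_of_ne hfP (norm_pos_iff.1 h5)).2, norm_inv]
        exact inv_lt_of_inv_lt₀ hε h4
      · rw [(value_inv_of_not_mem hfP).2, norm_zero]
        exact hε
  have hadd : ∀ {f g : F} {a b : ℂ}, φ f = a → φ g = b → φ (f + g) = ((a + b : ℂ) : OnePoint ℂ) := by
    intro f g a b hf hg
    obtain ⟨a', h1, h2, h3⟩ := hfin (f := f) (by rw [hf]; exact coe_ne_infty _)
    obtain ⟨b', h4, h5, h6⟩ := hfin (f := g) (by rw [hg]; exact coe_ne_infty _)
    obtain rfl : a = a' := OnePoint.coe_injective (hf.symm.trans h1)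
    obtain rfl : b = b' := OnePoint.coe_injective (hg.symm.trans h4)
    refine hmk ?_ ?_
    · filter_upwards [h2, h5] with P h7 h8
      exact add_mem h7 h8
    · refine (tendsto_congr' ?_).2 (h3.add h6)
      filter_upwards [h2, h5] with P h7 h8
      exact value_add P h7 h8
  have hmul : ∀ {f g : F} {a b : ℂ}, φ f = a → φ g = b → φ (f * g) = ((a * b : ℂ) : OnePoint ℂ) := by
    intro f g a b hf hg
    obtain ⟨a', h1, h2, h3⟩ := hfin (f := f) (by rw [hf]; exact coe_ne_infty _)
    obtain ⟨b', h4, h5, h6⟩ := hfin (f := g) (by rw [hg]; exact coe_ne_infty _)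
    obtain rfl : a = a' := OnePoint.coe_injective (hf.symm.trans h1)
    obtain rfl : b = b' := OnePoint.coe_injective (hg.symm.trans h4)
    refine hmk ?_ ?_
    · filter_upwards [h2, h5] with P h7 h8
      exact mul_mem h7 h8
    · refine (tendsto_congr' ?_).2 (h3.mul h6)
      filter_upwards [h2, h5] with P h7 h8
      exact value_mul P h7 h8
  have hconst : ∀ c : ℂ, φ (algebraMap ℂ F c) = c := by
    intro c
    refine hmk (Eventually.of_forall fun P => P.algebraMap_mem' c) ?_
    simp only [value_algebraMap]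
    exact tendsto_const_nhds
  have hex : ∀ {f : F}, φ f ≠ ∞ → ∃ c : ℂ, φ f = c := fun h => by
    obtain ⟨c, hc, -⟩ := hfin h
    exact ⟨c, hc⟩
  let V : ValuationSubring F :=
    { carrier := {f | φ f ≠ ∞}
      mul_mem' := by
        intro f g hf hg
        obtain ⟨a, ha⟩ := hex hf
        obtain ⟨b, hb⟩ := hex hg
        change φ (f * g) ≠ ∞
        rw [hmul ha hb]
        exact coe_ne_infty _
      one_mem' := by
        change φ 1 ≠ ∞
        rw [← map_one (algebraMap ℂ F), hconst]
        exact coe_ne_infty _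
      add_mem' := by
        intro f g hf hg
        obtain ⟨a, ha⟩ := hex hf
        obtain ⟨b, hb⟩ := hex hg
        change φ (f + g) ≠ ∞
        rw [hadd ha hb]
        exact coe_ne_infty _
      zero_mem' := by
        change φ 0 ≠ ∞
        rw [← map_zero (algebraMap ℂ F), hconst]
        exact coe_ne_infty _
      neg_mem' := by
        intro f hf
        obtain ⟨a, ha⟩ := hex hf
        change φ (-f) ≠ ∞
        have : -f = algebraMap ℂ F (-1) * f := by rw [map_neg, map_one, neg_one_mul]
        rw [this, hmul (hconst _) ha]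
        exact coe_ne_infty _
      mem_or_inv_mem' := by
        intro f
        by_cases h : φ f = ∞
        · right
          change φ f⁻¹ ≠ ∞
          rw [hinf h]
          exact coe_ne_infty _
        · exact Or.inl h }
  have hV : ∀ f, f ∈ V ↔ φ f ≠ ∞ := fun f => Iff.rfl
  -- units
  have hunit : ∀ {f : F}, φ f = ((0 : ℂ) : OnePoint ℂ) → f ≠ 0 → f⁻¹ ∉ V := by
    intro f h h0 hf
    obtain ⟨b, hb⟩ := hex hf
    have h2 := hmul h hb
    rw [mul_inv_cancel₀ h0, zero_mul, ← map_one (algebraMap ℂ F), hconst] at h2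
    exact one_ne_zero (OnePoint.coe_injective h2)
  have hsub : ∀ {f : F} {a : ℂ}, φ f = a → φ (f - algebraMap ℂ F a) = ((0 : ℂ) : OnePoint ℂ) := by
    intro f a h
    have h2 := hadd h (hconst (-a))
    rwa [map_neg, ← sub_eq_add_neg, add_neg_cancel] at h2
  have hVtop : V ≠ ⊤ := by
    intro htop
    obtain ⟨t, ht, -⟩ := IsFunctionField.exists_transcendental (k := ℂ) (F := F)
    have hall : ∀ f, f ∈ V := fun f => by rw [htop]; exact ValuationSubring.mem_top f
    obtain ⟨a, ha⟩ := hex (hall t)
    exact hunit (hsub ha) (sub_algebraMap_ne_zero ht a) (hall _)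
  obtain ⟨Q, hQ⟩ := exists_place_of_valuationSubring V (fun c => by
    rw [hV, hconst]; exact coe_ne_infty _) hVtop
  refine ⟨Q, Set.mem_univ _, ?_⟩
  have h3 : Tendsto (fun P : Place ℂ F => P) 𝒰 (𝓝 Q) := by
    rw [tendsto_iff]
    intro f
    have h4 : ev Q f = φ f := by
      by_cases hf : φ f = ∞
      · rw [hf]
        refine ev_of_not_mem ?_
        rw [hQ, hV, not_not]
        exact hf
      · obtain ⟨a, ha⟩ := hex hf
        have hfQ : f ∈ Q.toValuationSubring := by rw [hQ]; exact hf
        rw [ev_of_mem hfQ, ha]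
        congr 1
        rw [value_eq_iff Q hfQ]
        by_contra h5
        have h6 : f - algebraMap ℂ F a ≠ 0 := by
          intro h7
          rw [h7, map_zero] at h5
          exact h5 zero_lt_one
        refine hunit (hsub ha) h6 ?_
        rw [← hQ, mem_iff_val, map_inv₀]
        exact inv_le_one_of_one_le₀ (not_lt.1 h5)
    rw [h4]
    exact hφ f
  exact h3

end Fermat.Agent.Tor27
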