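import Fermat.Agent.Tor27.Defs

/-!
# Tracking the zeros of `1 + ∑ c_k h_k`
-/

set_option autoImplicit false
set_option linter.unusedSectionVars false

noncomputable section

namespace Fermat.Agent.Tor27

open AlgebraicCurve Fermat.Agent.Curves Fermat.Agent.PicFlat

section Val

variable {k F : Type*} [Field k] [Field F] [Algebra k F] [IsFunctionField k F] [IsAlgClosed k]

theorem value_zero' (w : Place k F) : value w (0 : F) = 0 := by
  have := value_algebraMap w (0 : k)
  rwa [map_zero] at this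

theorem value_one3 (w : Place k F) : value w (1 : F) = 1 := by
  have := value_algebraMap w (1 : k)
  rwa [map_one] at this

theorem value_smul' (w : Place k F) (c : k) {x : F} (hx : x ∈ w.toValuationSubring) :
    value w (c • x) = c * value w x := by
  rw [Algebra.smul_def, value_mul w (w.algebraMap_mem' c) hx, value_algebraMap]

theorem smul_mem' (w : Place k F) (c : k) {x : F} (hx : x ∈ w.toValuationSubring) :
    c • x ∈ w.toValuationSubring := by
  rw [Algebra.smul_def]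
  exact mul_mem (w.algebraMap_mem' c) hx

theorem value_sum (w : Place k F) {κ : Type*} (s : Finset κ) (c : κ → k) (x : κ → F)
    (hx : ∀ i ∈ s, x i ∈ w.toValuationSubring) :
    (∑ i ∈ s, c i • x i) ∈ w.toValuationSubring ∧
      value w (∑ i ∈ s, c i • x i) = ∑ i ∈ s, c i * value w (x i) := by
  classical
  induction s using Finset.induction_on with
  | empty => simp [value_zero', zero_mem]
  | insert a s ha ih =>
    obtain ⟨h1, h2⟩ := ih fun i hi => hx i (Finset.mem_insert_of_mem hi)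
    have h3 := hx a (Finset.mem_insert_self _ _)
    rw [Finset.sum_insert ha, Finset.sum_insert ha]
    refine ⟨add_mem (smul_mem' w _ h3) h1, ?_⟩
    rw [value_add w (smul_mem' w _ h3) h1, value_smul' w _ h3, h2]

theorem ord_pos_of_value {w : Place k F} {f : F} (hf : f ∈ w.toValuationSubring) (hf0 : f ≠ 0)
    (h : value w f = 0) : 0 < w.ord f := by
  rw [value_eq_zero_iff w hf, val_lt_one_iff] at h
  exact h.resolve_left hf0

theorem value_eq_zero_of_ord {w : Place k F} {f : F} (h : 0 < w.ord f) : value w f = 0 := by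
  have h1 : w.adicValuation f < 1 := (val_lt_one_iff w).2 (Or.inr h)
  have h2 : f ∈ w.toValuationSubring := (mem_iff_val w).2 h1.le
  rw [value_eq_zero_iff w h2]
  exact h1

theorem ord_eq_zero_of_value {w : Place k F} {f : F} (hf : f ∈ w.toValuationSubring)
    (h : value w f ≠ 0) : w.ord f = 0 := by
  have h0 : f ≠ 0 := by
    rintro rfl
    exact h (value_zero' w)
  have h1 := (mem_iff_ord w h0).1 hf
  rcases h1.eq_or_lt with h2 | h2
  · exact h2.symm
  · exact absurd (value_eq_zero_of_ord h2) h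

end Val

variable {F : Type*} [Field F] [Algebra ℂ F] [IsFunctionField ℂ F]

theorem Chart.u_ne {P : Place ℂ F} (ch : Chart P) : ch.u ≠ 0 := by
  intro h
  have h1 := ch.ord_u
  have h2 := ch.u_mem (ch.r / 2 : ℝ) (by
    rw [Complex.norm_real, Real.norm_of_nonneg (by linarith [ch.r_pos])]
    linarith [ch.r_pos])
  have h3 := ch.value_u (ch.r / 2 : ℝ) (by
    rw [Complex.norm_real, Real.norm_of_nonneg (by linarith [ch.r_pos])]
    linarith [ch.r_pos])
  rw [h, value_zero'] at h3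
  have h4 := ch.r_pos
  have h5 : ((ch.r / 2 : ℝ) : ℂ) ≠ 0 := by
    rw [Complex.ofReal_ne_zero]
    positivity
  exact h5 h3.symm

theorem Chart.u_mul_mem {P : Place ℂ F} (ch : Chart P) {D : Divisor ℂ F} (hD : D P ≤ 1) {h : F}
    (hh : h ∈ riemannRochSpace D) : ch.u * h ∈ P.toValuationSubring := by
  rcases eq_or_ne h 0 with rfl | h0
  · rw [mul_zero]; exact zero_mem _
  rw [mem_iff_ord P (mul_ne_zero ch.u_ne h0), P.ord_mul ch.u_ne h0, ch.ord_u]
  have := (mem_iff_of_ne h0).1 hh P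
  omega

/-- values of `u f_c` -/
theorem Chart.value_u_mul {P : Place ℂ F} (ch : Chart P) {κ : Type*} [Fintype κ] (h : κ → F)
    {t : ℂ} (ht : ‖t‖ < ch.r) (hh : ∀ k, ch.u * h k ∈ (ch.Q t).toValuationSubring) (c : κ → ℂ) :
    ch.u * (1 + ∑ k, c k • h k) ∈ (ch.Q t).toValuationSubring ∧
      value (ch.Q t) (ch.u * (1 + ∑ k, c k • h k)) =
        t + ∑ k, c k * value (ch.Q t) (ch.u * h k) := by
  have e : ch.u * (1 + ∑ k, c k • h k) = ch.u + ∑ k, c k • (ch.u * h k) := by
    rw [mul_add, mul_one, Finset.mul_sum]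
    congr 1
    refine Finset.sum_congr rfl fun k _ => ?_
    rw [mul_smul_comm]
  obtain ⟨h1, h2⟩ := value_sum (ch.Q t) Finset.univ c (fun k => ch.u * h k) fun k _ => hh k
  rw [e]
  refine ⟨add_mem (ch.u_mem t ht) h1, ?_⟩
  rw [value_add _ (ch.u_mem t ht) h1, h2, ch.value_u t ht]

theorem Chart.Q_eq_iff {P : Place ℂ F} (ch : Chart P) {t : ℂ} (ht : ‖t‖ < ch.r) :
    ch.Q t = P ↔ t = 0 := by
  constructor
  · intro h
    have h1 := ch.value_u t ht
    rw [h] at h1
    rw [← h1]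
    exact value_eq_zero_of_ord (by rw [ch.ord_u]; norm_num)
  · rintro rfl
    exact ch.Q_zero

/-- `1 + ∑ c_k h_k` does not vanish for small `c` -/
theorem one_add_ne_zero {κ : Type*} [Fintype κ] (h : κ → F) :
    ∃ ρ > 0, ∀ c : κ → ℂ, ‖c‖ < ρ → 1 + ∑ k, c k • h k ≠ 0 := by
  let φ : (κ → ℂ) →ₗ[ℂ] F :=
    { toFun := fun c => ∑ k, c k • h k
      map_add' := fun c d => by
        simp only [Pi.add_apply, add_smul, Finset.sum_add_distrib]
      map_smul' := fun a c => by
        simp only [Pi.smul_apply, smul_eq_mul, mul_smul, Finset.smul_sum, RingHom.id_apply] }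
  by_cases hex : ∃ c₀, φ c₀ = -1
  · obtain ⟨c₀, hc₀⟩ := hex
    have hcl : IsClosed (LinearMap.ker φ : Set (κ → ℂ)) := Submodule.closed_of_finiteDimensional _
    have hcl' : IsOpen {c : κ → ℂ | c - c₀ ∉ LinearMap.ker φ} :=
      (hcl.isOpen_compl).preimage (continuous_id.sub continuous_const)
    have h0 : (0 : κ → ℂ) ∈ {c : κ → ℂ | c - c₀ ∉ LinearMap.ker φ} := by
      change ¬ ((0 : κ → ℂ) - c₀ ∈ LinearMap.ker φ)
      rw [zero_sub, LinearMap.mem_ker, map_neg, hc₀, neg_neg]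
      exact one_ne_zero
    obtain ⟨ρ, hρ, hb⟩ := Metric.isOpen_iff.1 hcl' 0 h0
    refine ⟨ρ, hρ, fun c hc he => hb (by simpa using hc) ?_⟩
    rw [LinearMap.mem_ker, map_sub, hc₀, sub_neg_eq_add, add_comm]
    exact he
  · refine ⟨1, one_pos, fun c _ he => hex ⟨c, ?_⟩⟩
    change ∑ k, c k • h k = -1
    rwa [add_comm, add_eq_zero_iff_eq_neg] at he

/-- **Zero tracking** -/
theorem track (hAN : AN1St) {ι κ : Type} [Fintype ι] [Fintype κ] (P : ι → Place ℂ F)
    (ch : ∀ i, Chart (P i)) (D : Divisor ℂ F) (hD : ∀ i, D (P i) ≤ 1) (h : κ → F)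
    (hh : ∀ k, h k ∈ riemannRochSpace D) :
    ∃ τ : (κ → ℂ) → ι → ℂ, τ 0 = 0 ∧ ContDiffAt ℂ 2 τ 0 ∧
      HasFDerivAt τ (ContinuousLinearMap.pi fun i => -∑ k, value (P i) ((ch i).u * h k) •
        ContinuousLinearMap.proj (R := ℂ) (φ := fun _ : κ => ℂ) k) 0 ∧
      (∃ ρ > 0, ∀ c, ‖c‖ < ρ → 1 + ∑ k, c k • h k ≠ 0 ∧ ∀ i, ‖τ c i‖ < (ch i).r ∧
        (τ c i ≠ 0 → 0 < ((ch i).Q (τ c i)).ord (1 + ∑ k, c k • h k)) ∧
        (τ c i = 0 → 0 ≤ (P i).ord (1 + ∑ k, c k • h k))) ∧
      ∃ ρ > 0, ∀ c i t, ‖c‖ < ρ → ‖t‖ < ρ →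
        value ((ch i).Q t) ((ch i).u * (1 + ∑ k, c k • h k)) = 0 → t = τ c i := by
  classical
  have hreg : ∀ i k, ∃ δ > 0, (∀ t, ‖t‖ < δ → (ch i).u * h k ∈ ((ch i).Q t).toValuationSubring) ∧
      DifferentiableOn ℂ (fun t => value ((ch i).Q t) ((ch i).u * h k)) (Metric.ball 0 δ) :=
    fun i k => (ch i).reg _ ((ch i).u_mul_mem (hD i) (hh k))
  choose δ hδ hmem hdiff using hreg
  -- a common radius
  obtain ⟨ε, hε, hεδ⟩ : ∃ ε > 0, ∀ i k, ε ≤ δ i k := by
    by_cases hne : Nonempty (ι × κ)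
    · refine ⟨Finset.univ.inf' (Finset.univ_nonempty) fun p : ι × κ => δ p.1 p.2, ?_, ?_⟩
      · rw [gt_iff_lt, Finset.lt_inf'_iff]
        exact fun p _ => hδ p.1 p.2
      · intro i k
        exact Finset.inf'_le (fun p : ι × κ => δ p.1 p.2) (Finset.mem_univ (i, k))
    · exact ⟨1, one_pos, fun i k => absurd ⟨(i, k)⟩ hne⟩
  have hmem' : ∀ i k t, ‖t‖ < ε → (ch i).u * h k ∈ ((ch i).Q t).toValuationSubring :=
    fun i k t ht => hmem i k t (ht.trans_le (hεδ i k))
  have han : ∀ i, _ := fun i => hAN κ (fun k t => value ((ch i).Q t) ((ch i).u * h k)) ε hε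
    (fun k => (hdiff i k).mono (Metric.ball_subset_ball (hεδ i k)))
  choose τ hτ0 hτc hτd hτz hτu using han
  -- radii for the zeros
  choose ρ hρ hρz using hτz
  choose ρ' hρ' hρu using hτu
  have hcont : ∀ i, ContinuousAt (τ i) 0 := fun i => (hτc i).continuousAt
  have hsm : ∀ i, ∃ η > 0, ∀ c, ‖c‖ < η → ‖τ i c‖ < min ε (ch i).r := by
    intro i
    have h1 := Metric.continuousAt_iff.1 (hcont i) (min ε (ch i).r) (lt_min hε (ch i).r_pos)
    obtain ⟨η, hη, h2⟩ := h1
    refine ⟨η, hη, fun c hc => ?_⟩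
    have h3 := h2 (x := c) (by rwa [dist_zero_right])
    rwa [hτ0, dist_zero_right] at h3
  choose η hη hη' using hsm
  obtain ⟨ρ₀, hρ₀, hne⟩ := one_add_ne_zero h
  have hmin : ∀ f : ι → ℝ, (∀ i, 0 < f i) → ∃ m > 0, ∀ i, m ≤ f i := by
    intro f hf
    by_cases hne : Nonempty ι
    · refine ⟨Finset.univ.inf' (Finset.univ_nonempty) f, ?_, ?_⟩
      · rw [gt_iff_lt, Finset.lt_inf'_iff]
        exact fun p _ => hf p
      · intro i
        exact Finset.inf'_le f (Finset.mem_univ i)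
    · exact ⟨1, one_pos, fun i => absurd ⟨i⟩ hne⟩
  refine ⟨fun c i => τ i c, ?_, ?_, ?_, ?_, ?_⟩
  · funext i
    exact hτ0 i
  · rw [contDiffAt_pi]
    exact hτc
  · rw [hasFDerivAt_pi]
    intro i
    have := hτd i
    rw [(ch i).Q_zero] at this
    exact this
  · obtain ⟨m, hm, hm'⟩ := hmin (fun i => min (ρ i) (η i)) fun i => lt_min (hρ i) (hη i)
    refine ⟨min ρ₀ m, lt_min hρ₀ hm, fun c hc => ?_⟩
    have hf0 := hne c (hc.trans_le (min_le_left _ _))
    refine ⟨hf0, fun i => ?_⟩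
    have hci : ‖c‖ < min (ρ i) (η i) := (hc.trans_le (min_le_right _ _)).trans_le (hm' i)
    have h1 := hη' i c (hci.trans_le (min_le_right _ _))
    have h2 : ‖τ i c‖ < (ch i).r := h1.trans_le (min_le_right _ _)
    have h3 : ‖τ i c‖ < ε := h1.trans_le (min_le_left _ _)
    have h4 := hρz i c (hci.trans_le (min_le_left _ _))
    obtain ⟨h5, h6⟩ := (ch i).value_u_mul h h2 (fun k => hmem' i k _ h3) c
    rw [h4] at h6
    have h7 : (ch i).u * (1 + ∑ k, c k • h k) ≠ 0 := mul_ne_zero (ch i).u_ne hf0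
    have h8 := ord_pos_of_value h5 h7 h6
    rw [Place.ord_mul _ (ch i).u_ne hf0] at h8
    refine ⟨h2, fun hne => ?_, fun heq => ?_⟩
    · have h9 : ((ch i).Q (τ i c)).ord (ch i).u = 0 :=
        ord_eq_zero_of_value ((ch i).u_mem _ h2) (by rw [(ch i).value_u _ h2]; exact hne)
      rw [h9, zero_add] at h8
      exact h8
    · have heq' : τ i c = 0 := heq
      rw [heq', (ch i).Q_zero, (ch i).ord_u] at h8
      omega
  · obtain ⟨m, hm, hm'⟩ := hmin (fun i => min (ρ' i) (min ε (ch i).r))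
      fun i => lt_min (hρ' i) (lt_min hε (ch i).r_pos)
    refine ⟨m, hm, fun c i t hc ht hv => ?_⟩
    have h1 := ht.trans_le (hm' i)
    have h2 : ‖t‖ < ρ' i := h1.trans_le (min_le_left _ _)
    have h3 : ‖t‖ < ε := h1.trans_le ((min_le_right _ _).trans (min_le_left _ _))
    have h4 : ‖t‖ < (ch i).r := h1.trans_le ((min_le_right _ _).trans (min_le_right _ _))
    obtain ⟨h5, h6⟩ := (ch i).value_u_mul h h4 (fun k => hmem' i k _ h3) c
    rw [h6] at hv
    exact hρu i c t ((hc.trans_le (hm' i)).trans_le (min_le_left _ _)) h2 hv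

/-! ### separation -/

/-- near `P` the value of a regular function varies continuously -/
theorem Chart.value_near {P : Place ℂ F} (ch : Chart P) {f : F} (hf : f ∈ P.toValuationSubring)
    {ε : ℝ} (hε : 0 < ε) : ∃ δ > 0, ∀ t, ‖t‖ < δ → f ∈ (ch.Q t).toValuationSubring ∧
      ‖value (ch.Q t) f - value P f‖ < ε := by
  obtain ⟨δ, hδ, h1, h2⟩ := ch.reg f hf
  have h3 : ContinuousAt (fun t => value (ch.Q t) f) 0 :=
    (h2.differentiableAt (Metric.ball_mem_nhds 0 hδ)).continuousAt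
  obtain ⟨δ', hδ', h4⟩ := Metric.continuousAt_iff.1 h3 ε hε
  refine ⟨min δ δ', lt_min hδ hδ', fun t ht => ⟨h1 t (ht.trans_le (min_le_left _ _)), ?_⟩⟩
  have h5 := h4 (x := t) (by
    rw [dist_zero_right]
    exact ht.trans_le (min_le_right _ _))
  rw [dist_eq_norm, ch.Q_zero] at h5
  exact h5

theorem exists_sep {P P2 : Place ℂ F} (hne : P ≠ P2) : ∃ f : F, f ∈ P.toValuationSubring ∧
    f ∈ P2.toValuationSubring ∧ value P f = 1 ∧ value P2 f = 0 := by
  classical
  obtain ⟨e, h1, h2⟩ := exists_near_one P {P2} (by simpa using hne) 1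
  have h3 := h2 P2 (Finset.mem_singleton_self _)
  have hlt : WithZero.exp (-((1 : ℕ) : ℤ)) < (1 : WithZero (Multiplicative ℤ)) := by
    rw [← WithZero.exp_zero, WithZero.exp_lt_exp]
    norm_num
  have h4 : P.adicValuation (e - 1) < 1 := h1.trans_lt hlt
  have h5 : P2.adicValuation e < 1 := h3.trans_lt hlt
  have h6 : e ∈ P.toValuationSubring := by
    have : e = (e - 1) + 1 := by ring
    rw [this]
    exact add_mem ((mem_iff_val P).2 h4.le) (one_mem _)
  have h7 : e ∈ P2.toValuationSubring := (mem_iff_val P2).2 h5.le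
  refine ⟨e, h6, h7, ?_, ?_⟩
  · rw [value_eq_iff P h6, map_one]
    exact h4
  · rw [value_eq_zero_iff P2 h7]
    exact h5

/-- charts at distinct places are disjoint near the centers -/
theorem sep {P P2 : Place ℂ F} (ch : Chart P) (ch2 : Chart P2) (hne : P ≠ P2) :
    ∃ δ > 0, ∀ s t, ‖s‖ < δ → ‖t‖ < δ → ch.Q s ≠ ch2.Q t := by
  obtain ⟨f, h1, h2, h3, h4⟩ := exists_sep hne
  obtain ⟨δ, hδ, k1⟩ := ch.value_near h1 (ε := 1 / 2) (by norm_num)
  obtain ⟨δ', hδ', k2⟩ := ch2.value_near h2 (ε := 1 / 2) (by norm_num)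
  refine ⟨min δ δ', lt_min hδ hδ', fun s t hs ht he => ?_⟩
  have k3 := (k1 s (hs.trans_le (min_le_left _ _))).2
  have k4 := (k2 t (ht.trans_le (min_le_right _ _))).2
  rw [h3, he] at k3
  rw [h4, sub_zero] at k4
  have k5 : ‖(1 : ℂ)‖ ≤ ‖value (ch2.Q t) f - 1‖ + ‖value (ch2.Q t) f‖ := by
    have := norm_sub_le (value (ch2.Q t) f) (value (ch2.Q t) f - 1)
    rw [sub_sub_cancel] at this
    linarith
  rw [norm_one] at k5
  linarith

/-- a chart avoids a different place near the center -/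
theorem sep_place {P P2 : Place ℂ F} (ch : Chart P) (hne : P ≠ P2) :
    ∃ δ > 0, ∀ s, ‖s‖ < δ → ch.Q s ≠ P2 := by
  obtain ⟨f, h1, h2, h3, h4⟩ := exists_sep hne
  obtain ⟨δ, hδ, k1⟩ := ch.value_near h1 (ε := 1 / 2) (by norm_num)
  refine ⟨δ, hδ, fun s hs he => ?_⟩
  have k3 := (k1 s hs).2
  rw [h3, he, h4, zero_sub, norm_neg, norm_one] at k3
  norm_num at k3

/-- an effective divisor of degree zero vanishes -/
theorem eq_zero_of_degree {N : Divisor ℂ F} (hN : 0 ≤ N) (h : Divisor.degree N = 0) : N = 0 := by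
  classical
  rw [degree_eq_sum, Finsupp.sum] at h
  rw [Finset.sum_eq_zero_iff_of_nonneg fun i _ => hN i] at h
  ext v
  by_cases hv : v ∈ N.support
  · exact h v hv
  · exact Finsupp.notMem_support_iff.1 hv

theorem sum_single_apply {ι : Type*} [Fintype ι] (Q : ι → Place ℂ F) (v : Place ℂ F)
    (h : ∀ i, Q i ≠ v) : (∑ i, (Finsupp.single (Q i) 1 : Divisor ℂ F)) v = 0 := by
  rw [Finsupp.finsetSum_apply]
  exact Finset.sum_eq_zero fun i _ => Finsupp.single_eq_of_ne (h i).symm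

theorem sum_single_apply_self {ι : Type*} [Fintype ι] {Q : ι → Place ℂ F}
    (hQ : Function.Injective Q) (i : ι) :
    (∑ i, (Finsupp.single (Q i) 1 : Divisor ℂ F)) (Q i) = 1 := by
  classical
  rw [Finsupp.finsetSum_apply, Finset.sum_eq_single i]
  · exact Finsupp.single_eq_same
  · intro j _ hj
    exact Finsupp.single_eq_of_ne fun e => hj (hQ e.symm)
  · intro h
    exact absurd (Finset.mem_univ _) h

theorem sum_single_nonneg {ι : Type*} [Fintype ι] (Q : ι → Place ℂ F) :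
    0 ≤ ∑ i, (Finsupp.single (Q i) 1 : Divisor ℂ F) :=
  Finset.sum_nonneg fun i _ => by
    rw [Finsupp.single_nonneg]
    norm_num

theorem degree_sum_single' {ι : Type*} [Fintype ι] (Q : ι → Place ℂ F) :
    Divisor.degree (∑ i, (Finsupp.single (Q i) 1 : Divisor ℂ F)) = Fintype.card ι := by
  rw [map_sum]
  simp_rw [degree_single_one]
  simp

/-- the abstract form of the divisor computation, with additional places -/
theorem div_gen {ι : Type*} [Fintype ι] {P Q : ι → Place ℂ F} (hP : Function.Injective P)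
    (hQ : Function.Injective Q) {E E' : Divisor ℂ F}
    (hE : 0 ≤ E) (hdeg : Divisor.degree E = Divisor.degree E')
    (hE'Q : ∀ i, E' (Q i) = 0)
    {f : F} (hf0 : f ≠ 0) (hf : f ∈ riemannRochSpace ((∑ i, Finsupp.single (P i) 1) + E))
    (hE'f : ∀ v, (∀ i, Q i ≠ v) → E' v ≠ 0 →
      E' v ≤ v.ord f + ((∑ i, (Finsupp.single (P i) 1 : Divisor ℂ F)) v + E v))
    (h1 : ∀ i, Q i ≠ P i → 0 < (Q i).ord f) (h2 : ∀ i, Q i = P i → 0 ≤ (P i).ord f + E (P i)) :
    divisorOf f = ((∑ i, Finsupp.single (Q i) 1) + E') - ((∑ i, Finsupp.single (P i) 1) + E) := by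
  classical
  have key : divisorOf f + ((∑ i, Finsupp.single (P i) 1) + E) -
      ((∑ i, Finsupp.single (Q i) 1) + E') = 0 := by
    refine eq_zero_of_degree ?_ ?_
    · intro v
      have hfv := (mem_iff_of_ne hf0).1 hf v
      simp only [Finsupp.coe_zero, Pi.zero_apply, Finsupp.sub_apply, Finsupp.add_apply] at hfv ⊢
      rw [divisorOf_apply]
      have hEv : 0 ≤ E v := hE v
      have hPv : 0 ≤ (∑ i, (Finsupp.single (P i) 1 : Divisor ℂ F)) v := sum_single_nonneg P v
      by_cases hv : ∃ i, Q i = v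
      · obtain ⟨i, rfl⟩ := hv
        rw [sum_single_apply_self hQ, hE'Q]
        by_cases hi : Q i = P i
        · have h3 := h2 i hi
          rw [← hi] at h3
          have h4 : (∑ i, (Finsupp.single (P i) 1 : Divisor ℂ F)) (Q i) = 1 := by
            rw [hi]; exact sum_single_apply_self hP i
          rw [h4]
          omega
        · have h3 := h1 i hi
          omega
      · push Not at hv
        rw [sum_single_apply Q v hv]
        by_cases hE' : E' v = 0
        · rw [hE']; omega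
        · have := hE'f v hv hE'
          omega
    · rw [map_sub, map_add, degree_divisorOf, map_add, map_add, degree_sum_single',
        degree_sum_single', hdeg]
      ring
  rw [sub_eq_zero] at key
  rw [← key]
  abel

/-- a common radius on which the charted places stay distinct -/
theorem sep_all {ι : Type*} [Fintype ι] {P : ι → Place ℂ F} (hP : Function.Injective P)
    (ch : ∀ i, Chart (P i)) : ∃ δ > 0, ∀ t : ι → ℂ, ‖t‖ < δ →
      (∀ i, ‖t i‖ < (ch i).r) ∧ Function.Injective (fun i => (ch i).Q (t i)) ∧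
      (∀ i j, (ch i).Q (t i) = P j → i = j) ∧ ∀ i, (ch i).Q (t i) = P i ↔ t i = 0 := by
  classical
  have h1 : ∀ i j, ∃ δ > 0, δ ≤ (ch i).r ∧
      (i ≠ j → ∀ s t, ‖s‖ < δ → ‖t‖ < δ → (ch i).Q s ≠ (ch j).Q t) := by
    intro i j
    by_cases hij : i = j
    · exact ⟨(ch i).r, (ch i).r_pos, le_rfl, fun h => absurd hij h⟩
    · obtain ⟨δ, hδ, h⟩ := sep (ch i) (ch j) fun e => hij (hP e)
      exact ⟨min δ (ch i).r, lt_min hδ (ch i).r_pos, min_le_right _ _, fun _ s t hs ht =>
        h s t (hs.trans_le (min_le_left _ _)) (ht.trans_le (min_le_left _ _))⟩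
  choose δ hδ hδr hδs using h1
  obtain ⟨ε, hε, hεδ⟩ : ∃ ε > 0, ∀ i j, ε ≤ δ i j := by
    by_cases hne : Nonempty (ι × ι)
    · refine ⟨Finset.univ.inf' (Finset.univ_nonempty) fun p : ι × ι => δ p.1 p.2, ?_, ?_⟩
      · rw [gt_iff_lt, Finset.lt_inf'_iff]
        exact fun p _ => hδ p.1 p.2
      · intro i j
        exact Finset.inf'_le (fun p : ι × ι => δ p.1 p.2) (Finset.mem_univ (i, j))
    · exact ⟨1, one_pos, fun i k => absurd ⟨(i, k)⟩ hne⟩
  refine ⟨ε, hε, fun t ht => ?_⟩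
  have hti : ∀ i, ‖t i‖ < ε := fun i => (norm_le_pi_norm t i).trans_lt ht
  have hr : ∀ i, ‖t i‖ < (ch i).r := fun i => (hti i).trans_le ((hεδ i i).trans (hδr i i))
  refine ⟨hr, ?_, ?_, ?_⟩
  · intro i j hij
    by_contra hne
    exact hδs i j hne _ _ ((hti i).trans_le (hεδ i j)) ((hti j).trans_le (hεδ i j)) hij
  · intro i j hij
    by_contra hne
    rw [← (ch j).Q_zero] at hij
    exact hδs i j hne _ _ ((hti i).trans_le (hεδ i j)) (by rw [norm_zero]; exact hδ i j) hij
  · intro i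
    exact (ch i).Q_eq_iff (hr i)

/-- the divisor of a function with tracked zeros -/
theorem div_track {ι : Type*} [Fintype ι] {P : ι → Place ℂ F} (hP : Function.Injective P)
    (ch : ∀ i, Chart (P i)) : ∃ δ > 0, ∀ (t : ι → ℂ) (f : F), f ≠ 0 → ‖t‖ < δ →
      f ∈ riemannRochSpace (∑ i, (Finsupp.single (P i) 1 : Divisor ℂ F)) →
      (∀ i, (t i ≠ 0 → 0 < ((ch i).Q (t i)).ord f) ∧ (t i = 0 → 0 ≤ (P i).ord f)) →
      divisorOf f = ∑ i, Finsupp.single ((ch i).Q (t i)) 1 - ∑ i, Finsupp.single (P i) 1 := by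
  obtain ⟨δ, hδ, h⟩ := sep_all hP ch
  refine ⟨δ, hδ, fun t f hf0 ht hf hz => ?_⟩
  obtain ⟨h1, h2, h3, h4⟩ := h t ht
  have := div_gen (Q := fun i => (ch i).Q (t i)) (E := 0) (E' := 0) (f := f) hP h2 le_rfl rfl
    (fun i => rfl) hf0 (by rwa [add_zero]) (fun v _ hv => absurd rfl hv)
    (fun i hi => (hz i).1 fun e => hi ((h4 i).2 e))
    (fun i hi => by
      have := (hz i).2 ((h4 i).1 hi)
      simpa using this)
  rwa [add_zero, add_zero] at this

/-- the divisor of a function with tracked zeros, and one additional pole `R` and zero `R'` -/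
theorem div_track' {ι : Type*} [Fintype ι] {P : ι → Place ℂ F} (hP : Function.Injective P)
    (ch : ∀ i, Chart (P i)) (R : Place ℂ F) (hR : ∀ i, P i ≠ R) : ∃ δ > 0,
      ∀ (t : ι → ℂ) (R' : Place ℂ F) (f : F), f ≠ 0 → ‖t‖ < δ → R' ≠ R →
      (∀ i, (ch i).Q (t i) ≠ R') → (∀ i, P i ≠ R') →
      f ∈ riemannRochSpace ((∑ i, (Finsupp.single (P i) 1 : Divisor ℂ F)) + Finsupp.single R 1) →
      (∀ i, (t i ≠ 0 → 0 < ((ch i).Q (t i)).ord f) ∧ (t i = 0 → 0 ≤ (P i).ord f)) →
      0 < R'.ord f →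
      divisorOf f = (∑ i, Finsupp.single ((ch i).Q (t i)) 1 + Finsupp.single R' 1) -
        (∑ i, Finsupp.single (P i) 1 + Finsupp.single R 1) := by
  classical
  obtain ⟨δ, hδ, h⟩ := sep_all hP ch
  refine ⟨δ, hδ, fun t R' f hf0 ht hRR hQR hPR hf hz hzR => ?_⟩
  obtain ⟨h1, h2, h3, h4⟩ := h t ht
  refine div_gen (Q := fun i => (ch i).Q (t i)) (f := f) hP h2 ?_ ?_ ?_ hf0 hf ?_ ?_ ?_
  · rw [Finsupp.single_nonneg]; norm_num
  · rw [degree_single_one, degree_single_one]
  · intro i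
    exact Finsupp.single_eq_of_ne (hQR i)
  · intro v hv hv'
    have : v = R' := by
      by_contra hne
      exact hv' (Finsupp.single_eq_of_ne hne)
    subst this
    rw [Finsupp.single_eq_same, sum_single_apply P v hPR, Finsupp.single_eq_of_ne hRR]
    omega
  · intro i hi
    exact (hz i).1 fun e => hi ((h4 i).2 e)
  · intro i hi
    have := (hz i).2 ((h4 i).1 hi)
    rw [Finsupp.single_eq_of_ne (hR i)]
    omega

end Fermat.Agent.Tor27
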