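import Fermat.Agent.Tor27.Tri
import Fermat.Agent.Tor27.Track
import Fermat.Agent.Tor27.Top
import Fermat.Agent.Tor27.An1

/-!
# (G5) the class of `R' - R` is small for `R'` near `R`
-/

set_option autoImplicit false
set_option linter.unusedSectionVars false
set_option linter.style.haveILetI false

noncomputable section

namespace Fermat.Agent.Tor27

open AlgebraicCurve Fermat.Agent.Curves Fermat.Agent.PicFlat Fermat.Agent.GoodRed Topology Filter

variable {F : Type*} [Field F] [Algebra ℂ F] [IsFunctionField ℂ F]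

/-- a function with a simple pole at `R`, and poles in `∑ P i` -/
theorem g5_exists_w {n : ℕ} {g c : ℤ} (hRR : RR ℂ F g c) (hn : (n : ℤ) = g)
    (P : Fin n → Place ℂ F)
    (hell : ell (∑ i, Finsupp.single (P i) 1 : Divisor ℂ F) = 1) (R : Place ℂ F)
    (hR : ∀ i, P i ≠ R) :
    ∃ w ∈ riemannRochSpace ((∑ i, (Finsupp.single (P i) 1 : Divisor ℂ F)) + Finsupp.single R 1),
      w ∉ R.toValuationSubring := by
  classical
  set D : Divisor ℂ F := ∑ i, (Finsupp.single (P i) 1 : Divisor ℂ F) with hD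
  have hdeg : Divisor.degree D = n := by
    rw [hD, degree_sum_single', Fintype.card_fin]
  have h1 := hRR.le (D + Finsupp.single R 1)
  rw [map_add, hdeg, degree_single_one] at h1
  have hDR : D R = 0 := sum_single_apply P R hR
  have h2 : ∃ w ∈ riemannRochSpace (D + Finsupp.single R 1), w ∉ riemannRochSpace D := by
    by_contra hcon
    push Not at hcon
    have h3 : riemannRochSpace (D + Finsupp.single R 1) = riemannRochSpace D := by
      refine le_antisymm hcon fun f hf => ?_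
      rcases eq_or_ne f 0 with rfl | hf0
      · exact Submodule.zero_mem _
      · refine (mem_iff_of_ne hf0).2 fun v => ?_
        have h4 := (mem_iff_of_ne hf0).1 hf v
        rw [Finsupp.add_apply]
        have h5 : 0 ≤ (Finsupp.single R 1 : Divisor ℂ F) v := by
          rw [Finsupp.single_apply]; split_ifs <;> norm_num
        omega
    have h4 : ell (D + Finsupp.single R 1) = ell D := by
      unfold ell; rw [h3]
    rw [h4, hell] at h1
    push_cast at h1
    omega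
  obtain ⟨w, hw, hw'⟩ := h2
  refine ⟨w, hw, fun hmem => hw' ?_⟩
  rcases eq_or_ne w 0 with rfl | hw0
  · exact Submodule.zero_mem _
  · refine (mem_iff_of_ne hw0).2 fun v => ?_
    have h4 := (mem_iff_of_ne hw0).1 hw v
    rw [Finsupp.add_apply, Finsupp.single_apply] at h4
    by_cases hv : R = v
    · subst hv
      rw [hDR, add_zero]
      exact (mem_iff_ord R hw0).1 hmem
    · rw [if_neg hv] at h4
      omega

/-- charts near `P` avoid a neighbourhood of `R` -/
theorem g5_avoid {P R : Place ℂ F} (ch : Chart P) (hne : P ≠ R) :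
    ∃ δ > 0, ∀ᶠ R' in 𝓝 R, ∀ s, ‖s‖ < δ → ch.Q s ≠ R' := by
  obtain ⟨f, hfP, hfR, hP1, hR0⟩ := exists_sep hne
  obtain ⟨δ, hδ, hδ'⟩ := ch.value_near hfP (ε := 1 / 2) (by norm_num)
  have h1 : Tendsto (fun R' => ev R' f) (𝓝 R) (𝓝 ((0 : ℂ) : OnePoint ℂ)) := by
    have := (continuous_ev f).tendsto R
    rwa [ev_of_mem hfR, hR0] at this
  obtain ⟨-, h3⟩ := tendsto_ev_coe.1 h1
  have h4 : ∀ᶠ R' in 𝓝 R, ‖value R' f‖ < 1 / 2 := by
    have h5 := h3.norm
    rw [norm_zero] at h5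
    exact h5.eventually (gt_mem_nhds (by norm_num))
  refine ⟨δ, hδ, ?_⟩
  filter_upwards [h4] with R' hR' s hs heq
  have h5 := (hδ' s hs).2
  rw [heq, hP1] at h5
  have h6 : ‖(1 : ℂ)‖ ≤ ‖value R' f - 1‖ + ‖value R' f‖ := by
    calc ‖(1 : ℂ)‖ = ‖value R' f - (value R' f - 1)‖ := by rw [sub_sub_cancel]
      _ ≤ ‖value R' f‖ + ‖value R' f - 1‖ := norm_sub_le _ _
      _ = _ := add_comm _ _
  rw [norm_one] at h6
  linarith

/-- **(G5)** for one block -/
theorem g5_core {n : ℕ} {g c : ℤ} (hRR : RR ℂ F g c) (hn : (n : ℤ) = g)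
    (P : Fin n → Place ℂ F) (hP : Function.Injective P) (ch : ∀ i, Chart (P i))
    (hell : ell (∑ i, Finsupp.single (P i) 1 : Divisor ℂ F) = 1) (R : Place ℂ F)
    (hR : ∀ i, P i ≠ R) {ε : ℝ} (hε : 0 < ε) :
    ∀ᶠ R' in 𝓝 R, ∃ x : Fin n → ℂ, ‖x‖ < ε ∧
      pcls R' R = -∑ i, pcls ((ch i).Q (x i)) (P i) := by
  classical
  obtain ⟨w, hw, hwR⟩ := g5_exists_w hRR hn P hell R hR
  set D : Divisor ℂ F := ∑ i, (Finsupp.single (P i) 1 : Divisor ℂ F) with hD
  have hD1 : ∀ i, (D + Finsupp.single R 1 : Divisor ℂ F) (P i) ≤ 1 := by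
    intro i
    rw [Finsupp.add_apply, hD, sum_single_apply_self hP, Finsupp.single_apply,
      if_neg (hR i).symm, add_zero]
  obtain ⟨τ, hτ0, hτs, -, ⟨ρ, hρ, hρ'⟩, -⟩ := track an1 P ch (D + Finsupp.single R 1) hD1
    (fun _ : Unit => w) (fun _ => hw)
  obtain ⟨δ, hδ, hδ'⟩ := div_track' hP ch R hR
  choose δa hδa hav using fun i => g5_avoid (ch i) (hR i)
  -- small tracking
  have hcont : Tendsto τ (𝓝 0) (𝓝 0) := by
    have := hτs.continuousAt.tendsto
    rwa [hτ0] at this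
  have e1 : ∀ᶠ c in 𝓝 (0 : Unit → ℂ), ‖τ c‖ < min ε δ := by
    have h1 := hcont.norm
    rw [norm_zero] at h1
    exact h1.eventually (gt_mem_nhds (lt_min hε hδ))
  have e2 : ∀ᶠ c in 𝓝 (0 : Unit → ℂ), ∀ i, ‖τ c i‖ < δa i := by
    refine Filter.eventually_all.2 fun i => ?_
    have h1 := ((continuous_apply i).tendsto (0 : Fin n → ℂ)).comp hcont
    have h2 := h1.norm
    rw [Pi.zero_apply, norm_zero] at h2
    exact h2.eventually (gt_mem_nhds (hδa i))
  have e3 : ∀ᶠ c in 𝓝 (0 : Unit → ℂ), ‖c‖ < ρ := by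
    have h1 := (continuous_norm (E := Unit → ℂ)).tendsto 0
    rw [norm_zero] at h1
    exact h1.eventually (gt_mem_nhds hρ)
  obtain ⟨η, hη, hη'⟩ := Metric.eventually_nhds_iff.1 ((e1.and e2).and e3)
  -- conditions on `R'`
  have f1 : ∀ᶠ R' in 𝓝 R, w ∈ R'.toValuationSubring → 1 / η < ‖value R' w‖ := by
    have h1 := (continuous_ev w).tendsto R
    rw [ev_of_not_mem hwR] at h1
    exact (tendsto_ev_infty (u := fun a => a)).1 h1 (1 / η)
  have f2 : ∀ᶠ R' in 𝓝 R, ∀ i, P i ≠ R' := by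
    refine Filter.eventually_all.2 fun i => ?_
    filter_upwards [isOpen_ne.mem_nhds (hR i).symm] with R' hR' h
    exact hR' h.symm
  have f3 : ∀ᶠ R' in 𝓝 R, ∀ i, ∀ s, ‖s‖ < δa i → (ch i).Q s ≠ R' :=
    Filter.eventually_all.2 hav
  filter_upwards [f1, f2, f3] with R' h1 h2 h3
  by_cases hRR' : R' = R
  · refine ⟨0, by rwa [norm_zero], ?_⟩
    rw [hRR', pcls_self, eq_comm, neg_eq_zero]
    refine Finset.sum_eq_zero fun i _ => ?_
    rw [Pi.zero_apply, (ch i).Q_zero, pcls_self]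
  have hw0 : w ≠ 0 := by
    rintro rfl
    exact hwR (zero_mem _)
  have hDR' : (D + Finsupp.single R 1 : Divisor ℂ F) R' = 0 := by
    rw [Finsupp.add_apply, hD, sum_single_apply P R' h2, Finsupp.single_apply,
      if_neg (Ne.symm hRR'), add_zero]
  have hwR' : w ∈ R'.toValuationSubring := by
    have h4 := (mem_iff_of_ne hw0).1 hw R'
    rw [hDR', add_zero] at h4
    exact (mem_iff_ord R' hw0).2 h4
  have hbig := h1 hwR'
  have hv0 : value R' w ≠ 0 := by
    intro h0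
    rw [h0, norm_zero] at hbig
    have : 0 < 1 / η := by positivity
    linarith
  set c₀ : ℂ := -(value R' w)⁻¹ with hc₀
  set c : Unit → ℂ := fun _ => c₀ with hc
  have hcη : ‖c‖ < η := by
    rw [pi_norm_lt_iff hη]
    intro _
    rw [hc, hc₀, norm_neg, norm_inv]
    rw [inv_lt_comm₀ (norm_pos_iff.2 hv0) hη, ← one_div]
    exact hbig
  obtain ⟨⟨g1, g2⟩, g3⟩ := hη' (y := c) (by rwa [dist_zero_right])
  obtain ⟨k1, k2⟩ := hρ' c g3
  set f : F := 1 + ∑ k, c k • (fun _ : Unit => w) k with hf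
  have hf1 : f = 1 + c₀ • w := by
    rw [hf]; simp [hc]
  have hfmem : f ∈ R'.toValuationSubring := by
    rw [hf1]
    exact add_mem (OneMemClass.one_mem _) (smul_mem' R' c₀ hwR')
  have hfval : value R' f = 0 := by
    rw [hf1, value_add R' (OneMemClass.one_mem _) (smul_mem' R' c₀ hwR'), value_smul' R' c₀ hwR', hc₀,
      neg_mul, inv_mul_cancel₀ hv0]
    have : value R' (1 : F) = 1 := by
      have := value_algebraMap R' (1 : ℂ)
      rwa [map_one] at this
    rw [this]; ring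
  have hford : 0 < R'.ord f := ord_pos_of_value hfmem k1 hfval
  have hfL : f ∈ riemannRochSpace (D + Finsupp.single R 1 : Divisor ℂ F) := by
    rw [hf1]
    refine Submodule.add_mem _ (one_mem ?_) (Submodule.smul_mem _ _ hw)
    exact add_nonneg (sum_single_nonneg P) (Finsupp.single_nonneg.2 zero_le_one)
  have hdiv := hδ' (τ c) R' f k1 (lt_of_lt_of_le g1 (min_le_right _ _)) hRR'
    (fun i => h3 i _ (g2 i)) h2 hfL (fun i => (k2 i).2) hford
  refine ⟨τ c, lt_of_lt_of_le g1 (min_le_left _ _), ?_⟩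
  rw [eq_neg_iff_add_eq_zero]
  have h5 := (sum_pcls (Finset.univ : Finset (Option (Fin n)))
    (fun o => o.elim R' fun i => (ch i).Q (τ c i)) (fun o => o.elim R P)).2 ⟨f, k1, by
      rw [hdiv, Fintype.sum_option, Fintype.sum_option]
      simp only [Option.elim]
      rw [add_comm (Finsupp.single R' 1 : Divisor ℂ F), add_comm (Finsupp.single R 1 :
        Divisor ℂ F)]⟩
  rw [Fintype.sum_option] at h5
  exact h5

namespace Tri

variable {n : ℕ}

/-- **(G5)** -/
theorem g5 {g c : ℤ} (hRR : RR ℂ F g c) (hn : (n : ℤ) = g) (T : Tri F n)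
    (hcmp : ∀ j k, j ≠ k → ∀ ε > 0, ∃ δ > 0, ∀ x : Fin n → ℂ, ‖x‖ < δ →
      ∃ y : Fin n → ℂ, ‖y‖ < ε ∧ T.psi k y = -T.psi j x) (R : Place ℂ F) (ε : ℝ) (hε : 0 < ε) :
    ∀ᶠ R' in 𝓝 R, ∃ x : Fin n → ℂ, ‖x‖ < ε ∧ T.psi 0 x = pcls R' R := by
  obtain ⟨j, hj, hjR⟩ : ∃ j : Fin 3, j ≠ 0 ∧ ∀ i, T.P j i ≠ R := by
    by_contra hcon
    push Not at hcon
    obtain ⟨i, hi⟩ := hcon 1 (by decide)
    obtain ⟨i', hi'⟩ := hcon 2 (by decide)
    have := (T.inj 1 2 i i' (by rw [hi, hi'])).1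
    exact absurd this (by decide)
  obtain ⟨δ, hδ, hδ'⟩ := hcmp j 0 hj ε hε
  have h1 := g5_core hRR hn (T.P j) (fun a b h => (T.inj j j a b h).2) (T.ch j) (T.ell1 j) R hjR hδ
  filter_upwards [h1] with R' hR'
  obtain ⟨x, hx, hx'⟩ := hR'
  obtain ⟨y, hy, hy'⟩ := hδ' x hx
  exact ⟨y, hy, by rw [hy', hx']; rfl⟩

end Tri

end Fermat.Agent.Tor27
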