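import Fermat.Agent.Tor27.H12
import Fermat.Agent.Tor27.An1

/-!
# Existence of the tracking data, (H1) and (H2)
-/

set_option autoImplicit false

noncomputable section

namespace Fermat.Agent.Tor27

open AlgebraicCurve Fermat.Agent.Curves Fermat.Agent.PicFlat Fermat.Agent.GoodRed Filter Topology

variable {F : Type*} [Field F] [Algebra ℂ F] [IsFunctionField ℂ F] {n : ℕ}

theorem exists_trk (T : Tri F n) : Nonempty (Trk T) := by
  classical
  let P : Fin 3 × Fin n → Place ℂ F := fun p => T.P p.1 p.2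
  let ch : ∀ p, Chart (P p) := fun p => T.ch p.1 p.2
  have hP : Function.Injective P := fun p q h => by
    have := T.inj _ _ _ _ h
    exact Prod.ext this.1 this.2
  have hsumP : ∑ p, (Finsupp.single (P p) 1 : Divisor ℂ F) = T.DD := by
    rw [Fintype.sum_prod_type]
    rfl
  obtain ⟨τ, h0, hsm, hder, ⟨ρ₁, hρ₁, h1⟩, ρ₂, hρ₂, h2⟩ := track an1 P ch T.DD
    (fun p => (T.DD_P p.1 p.2).le) T.h (fun k => T.h_mem k)
  obtain ⟨δ₁, hδ₁, h3⟩ := div_track hP ch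
  obtain ⟨δ₂, hδ₂, h4⟩ := sep_all hP ch
  let cur : (Fin 3 × Fin n → ℂ) →L[ℂ] (Fin 3 → Fin n → ℂ) :=
    ContinuousLinearMap.pi fun j => ContinuousLinearMap.pi fun i =>
      ContinuousLinearMap.proj (R := ℂ) (φ := fun _ : Fin 3 × Fin n => ℂ) (j, i)
  have hcont : ContinuousAt τ 0 := hsm.continuousAt
  rw [Metric.continuousAt_iff] at hcont
  obtain ⟨ρ₃, hρ₃, h5⟩ := hcont δ₁ hδ₁
  rw [h0] at h5
  refine ⟨⟨fun c => cur (τ c), ?_, ?_, ?_, min (min ρ₁ ρ₂) (min ρ₃ δ₂), ?_, ?_, ?_, ?_, ?_⟩⟩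
  · rw [h0, map_zero]
  · exact cur.contDiff.contDiffAt.comp 0 hsm
  · have := cur.hasFDerivAt.comp 0 hder
    exact this
  · exact lt_min (lt_min hρ₁ hρ₂) (lt_min hρ₃ hδ₂)
  · intro c hc
    exact (h1 c (hc.trans_le ((min_le_left _ _).trans (min_le_left _ _)))).1
  · intro c hc
    have hc1 := h1 c (hc.trans_le ((min_le_left _ _).trans (min_le_left _ _)))
    have hc3 := h5 (x := c) (by
      rw [dist_zero_right]
      exact hc.trans_le ((min_le_right _ _).trans (min_le_left _ _)))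
    rw [dist_zero_right] at hc3
    have hmem : T.fn c ∈ riemannRochSpace (∑ p, (Finsupp.single (P p) 1 : Divisor ℂ F)) := by
      rw [hsumP]
      exact Submodule.add_mem _ (one_mem T.DD_nonneg) (T.sum_mem c)
    have := h3 (τ c) (T.fn c) hc1.1 hc3 hmem (fun p => ⟨(hc1.2 p).2.1, (hc1.2 p).2.2⟩)
    rw [this, hsumP, Fintype.sum_prod_type]
    rfl
  · intro c j i t hc ht hv
    exact h2 c (j, i) t (hc.trans_le ((min_le_left _ _).trans (min_le_right _ _)))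
      (ht.trans_le ((min_le_left _ _).trans (min_le_right _ _))) hv
  · intro j i t ht hne j' i' he
    have ht2 : ‖(Pi.single (j, i) t : Fin 3 × Fin n → ℂ)‖ < δ₂ := by
      rw [Pi.norm_single]
      exact ht.trans_le ((min_le_right _ _).trans (min_le_right _ _))
    obtain ⟨-, -, h6, h7⟩ := h4 (Pi.single (j, i) t) ht2
    have h8 := h6 (j, i) (j', i') (by rw [Pi.single_eq_same]; exact he)
    obtain ⟨rfl, rfl⟩ := Prod.mk.inj h8
    have h9 := (h7 (j, i)).1 (by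
      rw [Pi.single_eq_same]
      exact he)
    rw [Pi.single_eq_same] at h9
    exact hne h9

theorem pcls_sub {k F : Type*} [Field k] [Field F] [Algebra k F] [IsFunctionField k F]
    [IsAlgClosed k] (P Q R : Place k F) : pcls P R - pcls Q R = pcls P Q := by
  rw [← pcls_add P Q R, add_sub_cancel_right]

theorem one_le_sum_single {ι : Type*} [Fintype ι] (Q : ι → Place ℂ F) (i : ι) :
    (1 : ℤ) ≤ (∑ i, Finsupp.single (Q i) 1 : Divisor ℂ F) (Q i) := by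
  classical
  rw [Finsupp.finsetSum_apply]
  calc (1 : ℤ) = (Finsupp.single (Q i) 1 : Divisor ℂ F) (Q i) := by simp
    _ ≤ ∑ i', (Finsupp.single (Q i') 1 : Divisor ℂ F) (Q i) :=
        Finset.single_le_sum (f := fun i' => (Finsupp.single (Q i') 1 : Divisor ℂ F) (Q i))
          (fun i' _ => (Finsupp.single_nonneg.2 zero_le_one : (0 : Divisor ℂ F) ≤ _) _)
          (Finset.mem_univ i)

/-- a zero at a charted place -/
theorem Trk.ord_pos {T : Tri F n} (R : Trk T) {j : Fin 3} {i : Fin n} {t : ℂ} (ht : ‖t‖ < R.ρ)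
    (htr : ‖t‖ < (T.ch j i).r) {f : F} (hf : f ≠ 0) {E : Divisor ℂ F}
    (hd : divisorOf f = E - T.DD) (hE : 1 ≤ E ((T.ch j i).Q t)) :
    0 < ((T.ch j i).Q t).ord ((T.ch j i).u * f) := by
  have h1 : ((T.ch j i).Q t).ord f = E ((T.ch j i).Q t) - T.DD ((T.ch j i).Q t) := by
    rw [← divisorOf_apply, hd, Finsupp.sub_apply]
  rw [Place.ord_mul _ (T.ch j i).u_ne hf, h1]
  by_cases h0 : t = 0
  · subst h0
    rw [(T.ch j i).Q_zero, T.DD_P, (T.ch j i).ord_u]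
    rw [(T.ch j i).Q_zero] at hE
    omega
  · rw [T.DD_eq_zero (R.sep j i t ht h0)]
    have := (mem_iff_ord _ (T.ch j i).u_ne).1 ((T.ch j i).u_mem t htr)
    omega

namespace Tri

variable (T : Tri F n)

/-- **(H2)** -/
theorem psi_inj : ∃ r > 0, Set.InjOn (T.psi 0) (Metric.ball 0 r) := by
  classical
  obtain ⟨R⟩ := exists_trk T
  obtain ⟨δ₁, hδ₁, hδr, C, hC, h1⟩ := T.uniq_bound 1
  obtain ⟨ρ₁, hρ₁, h2⟩ := R.local_inj 0
  -- smallness of `v`
  have hcont : ContinuousAt R.τ 0 := R.smooth.continuousAt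
  rw [Metric.continuousAt_iff] at hcont
  obtain ⟨ρ₂, hρ₂, h5⟩ := hcont R.ρ R.ρ_pos
  rw [R.τ_zero] at h5
  -- a bound for coefficients
  obtain ⟨m, hm, hmρ, hmρ₁, hmρ₂⟩ : ∃ m > 0, m ≤ R.ρ ∧ m ≤ ρ₁ ∧ m ≤ ρ₂ :=
    ⟨min R.ρ (min ρ₁ ρ₂), lt_min R.ρ_pos (lt_min hρ₁ hρ₂), min_le_left _ _,
      (min_le_right _ _).trans (min_le_left _ _), (min_le_right _ _).trans (min_le_right _ _)⟩
  set d : ℝ := min (min δ₁ R.ρ) (m / (C + 1)) with hd
  have hd0 : 0 < d := lt_min (lt_min hδ₁ R.ρ_pos) (by positivity)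
  obtain ⟨ρ₃, hρ₃, h3⟩ := hcont d hd0
  rw [R.τ_zero] at h3
  obtain ⟨m', hm', hm'ρ₃, hm'm⟩ : ∃ m' > 0, m' ≤ ρ₃ ∧ m' ≤ m :=
    ⟨min ρ₃ m, lt_min hρ₃ hm, min_le_left _ _, min_le_right _ _⟩
  obtain ⟨δ₂, hδ₂, h4⟩ := R.local_surj (l := 2) (a := 0) (b := 1) (by decide) (by decide)
    (by decide) m' hm'
  refine ⟨min δ₂ d, lt_min hδ₂ hd0, fun x hx y hy hxy => ?_⟩
  rw [mem_ball_zero_iff, lt_min_iff] at hx hy
  obtain ⟨v, hv, hv0, hv1⟩ := h4 x 0 hx.1 (by rw [norm_zero]; exact hδ₂)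
  have hvρ : ‖v‖ < R.ρ := hv.trans_le (hm'm.trans hmρ)
  have hτv := h3 (x := v) (by rw [dist_zero_right]; exact hv.trans_le hm'ρ₃)
  rw [dist_zero_right] at hτv
  -- the function `g` with divisor `D_y - D_x`
  have hg : ∑ i, pcls ((T.ch 0 i).Q (y i)) ((T.ch 0 i).Q (x i)) = 0 := by
    have e : ∀ i, pcls ((T.ch 0 i).Q (y i)) ((T.ch 0 i).Q (x i)) =
        pcls ((T.ch 0 i).Q (y i)) (T.P 0 i) - pcls ((T.ch 0 i).Q (x i)) (T.P 0 i) := fun i =>
      (pcls_sub _ _ _).symm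
    rw [Finset.sum_congr rfl fun i _ => e i, Finset.sum_sub_distrib, sub_eq_zero]
    exact hxy.symm
  rw [sum_pcls] at hg
  obtain ⟨g, hg0, hg⟩ := hg
  have hfv0 := R.fn_ne v hvρ
  have hdv := R.div v hvρ
  set f : F := T.fn v * g with hf
  have hf0 : f ≠ 0 := mul_ne_zero hfv0 hg0
  have hdf : divisorOf f = (∑ i, Finsupp.single ((T.ch 0 i).Q (y i)) (1 : ℤ) +
      ∑ i, Finsupp.single (T.P 1 i) 1 +
      ∑ i, Finsupp.single ((T.ch 2 i).Q (R.τ v 2 i)) 1) - T.DD := by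
    have e : divisorOf (k := ℂ) f = divisorOf (T.fn v) + divisorOf g := by
      ext w
      rw [Finsupp.add_apply, divisorOf_apply, divisorOf_apply, divisorOf_apply,
        w.ord_mul hfv0 hg0]
    rw [e, hdv, hg, Fin.sum_univ_three, hv0, hv1]
    simp only [Pi.zero_apply, (T.ch 1 _).Q_zero]
    abel
  have hmem : f ∈ riemannRochSpace T.DD := by
    rw [mem_iff_div hf0, hdf, sub_add_cancel]
    exact add_nonneg (add_nonneg (sum_single_nonneg _) (sum_single_nonneg _))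
      (sum_single_nonneg _)
  obtain ⟨c₀, c, hfc⟩ := T.h_span f hmem
  -- the zeros
  set t : Fin 3 → Fin n → ℂ := ![y, 0, R.τ v 2] with ht
  set E : Divisor ℂ F := ∑ i, Finsupp.single ((T.ch 0 i).Q (y i)) (1 : ℤ) +
      ∑ i, Finsupp.single (T.P 1 i) 1 +
      ∑ i, Finsupp.single ((T.ch 2 i).Q (R.τ v 2 i)) 1 with hE
  have hnn : ∀ (Q : Fin n → Place ℂ F) w, (0 : ℤ) ≤ (∑ i, Finsupp.single (Q i) 1 :
      Divisor ℂ F) w := fun Q w => sum_single_nonneg Q w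
  have hone : ∀ (Q : Fin n → Place ℂ F) i, (1 : ℤ) ≤ (∑ i, Finsupp.single (Q i) 1 :
      Divisor ℂ F) (Q i) := fun Q i => one_le_sum_single Q i
  have htd : ‖t‖ < d := by
    rw [pi_norm_lt_iff hd0]
    intro j
    fin_cases j
    · exact hy.2
    · change ‖(0 : Fin n → ℂ)‖ < d
      rw [norm_zero]; exact hd0
    · exact (norm_le_pi_norm (R.τ v) 2).trans_lt hτv
  have htd' : ∀ j i, ‖t j i‖ < d := fun j i =>
    ((norm_le_pi_norm (t j) i).trans (norm_le_pi_norm t j)).trans_lt htd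
  have hdδ₁ : d ≤ δ₁ := (min_le_left _ _).trans (min_le_left _ _)
  have hdρ : d ≤ R.ρ := (min_le_left _ _).trans (min_le_right _ _)
  have hEt : ∀ j, j ≠ 1 → ∀ i, 1 ≤ E ((T.ch j i).Q (t j i)) := by
    intro j hj i
    fin_cases j
    · have a1 := hone (fun i => (T.ch 0 i).Q (y i)) i
      have a2 := hnn (fun i => T.P 1 i) ((T.ch 0 i).Q (y i))
      have a3 := hnn (fun i => (T.ch 2 i).Q (R.τ v 2 i)) ((T.ch 0 i).Q (y i))
      change 1 ≤ E ((T.ch 0 i).Q (y i))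
      rw [hE, Finsupp.add_apply, Finsupp.add_apply]
      omega
    · exact absurd rfl hj
    · have a1 := hnn (fun i => (T.ch 0 i).Q (y i)) ((T.ch 2 i).Q (R.τ v 2 i))
      have a2 := hnn (fun i => T.P 1 i) ((T.ch 2 i).Q (R.τ v 2 i))
      have a3 := hone (fun i => (T.ch 2 i).Q (R.τ v 2 i)) i
      change 1 ≤ E ((T.ch 2 i).Q (R.τ v 2 i))
      rw [hE, Finsupp.add_apply, Finsupp.add_apply]
      omega
  have hval : ∀ (f' : F), f' ≠ 0 → divisorOf f' = E - T.DD → ∀ j, j ≠ 1 → ∀ i,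
      value ((T.ch j i).Q (t j i)) ((T.ch j i).u * f') = 0 := fun f' hf' hd' j hj i =>
    value_eq_zero_of_ord (R.ord_pos ((htd' j i).trans_le hdρ)
      ((htd' j i).trans_le (hdδ₁.trans (hδr j i))) hf' hd' (hEt j hj i))
  have hb := h1 t c₀ c (fun j i => (htd' j i).trans_le hdδ₁) (by
    rw [← hfc]
    exact hval f hf0 hdf)
  have hc₀ : c₀ ≠ 0 := by
    rintro rfl
    rw [norm_zero, zero_mul, mul_zero] at hb
    have : c = 0 := norm_le_zero_iff.1 hb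
    apply hf0
    rw [hfc, this]
    simp
  set w : Fin (2 * n) → ℂ := c₀⁻¹ • c with hw
  have hfw : f = c₀ • T.fn w := by
    rw [hfc, Tri.fn, smul_add, Finset.smul_sum]
    congr 1
    refine Finset.sum_congr rfl fun k _ => ?_
    rw [hw, Pi.smul_apply, smul_smul, smul_eq_mul, ← mul_assoc, mul_inv_cancel₀ hc₀, one_mul]
  have hwm : ‖w‖ < m := by
    rw [hw, norm_smul, norm_inv]
    have hc' : 0 < ‖c₀‖ := norm_pos_iff.2 hc₀
    calc ‖c₀‖⁻¹ * ‖c‖ ≤ ‖c₀‖⁻¹ * (C * (‖c₀‖ * ‖t‖)) := by gcongr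
      _ = C * ‖t‖ := by field_simp
      _ ≤ C * (m / (C + 1)) := by
          gcongr
          exact htd.le.trans (min_le_right _ _)
      _ < m := by
          rw [mul_div_assoc', div_lt_iff₀ (by positivity)]
          nlinarith
  have hwρ : ‖w‖ < R.ρ := hwm.trans_le hmρ
  have hfw0 := R.fn_ne w hwρ
  have hdw : divisorOf (T.fn w) = E - T.DD := by
    rw [← hdf, hfw]
    ext p
    rw [divisorOf_apply, divisorOf_apply, Algebra.smul_def,
      p.ord_mul (by rwa [Ne, FaithfulSMul.algebraMap_eq_zero_iff]) hfw0, ord_algebraMap, zero_add]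
  have hτw : ∀ j, j ≠ 1 → t j = R.τ w j := fun j hj => by
    funext i
    exact R.uniq w j i (t j i) hwρ ((htd' j i).trans_le hdρ) (hval _ hfw0 hdw j hj i)
  have e0 : R.τ w 0 = y := (hτw 0 (by decide)).symm
  have e2 : R.τ w 2 = R.τ v 2 := (hτw 2 (by decide)).symm
  have e1 : R.τ w 1 = 0 := by
    have h6 := R.div w hwρ
    rw [hdw, sub_left_inj, Fin.sum_univ_three, e0, e2, hE, add_left_inj, add_right_inj] at h6
    have h7 := h5 (x := w) (by
      rw [dist_zero_right]; exact hwm.trans_le hmρ₂)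
    rw [dist_zero_right] at h7
    funext i
    rw [Pi.zero_apply]
    by_contra hne
    have h8 : ‖R.τ w 1 i‖ < R.ρ :=
      ((norm_le_pi_norm (R.τ w 1) i).trans (norm_le_pi_norm (R.τ w) 1)).trans_lt h7
    have h9 := hone (fun i => (T.ch 1 i).Q (R.τ w 1 i)) i
    rw [← h6, sum_single_apply (fun i => T.P 1 i) _ fun i' =>
      (R.sep 1 i _ h8 hne 1 i').symm] at h9
    omega
  have hfin := h2 w v (hwm.trans_le hmρ₁) (hv.trans_le (hm'm.trans hmρ₁)) (by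
    intro j hj
    fin_cases j
    · exact absurd rfl hj
    · change R.τ w 1 = R.τ v 1
      rw [e1, hv1]
    · exact e2)
  rw [← hv0, ← hfin, e0]

end Tri

section Zero

variable {F : Type} [Field F] [Algebra ℂ F] [IsFunctionField ℂ F] {n : ℕ} (T : Tri F n)

include T

theorem Tri.h12 : (∀ j, ∃ r C : ℝ, 0 < r ∧ 0 < C ∧ ∀ x y : Fin n → ℂ, ‖x‖ < r → ‖y‖ < r →
    ∃ h : Fin n → ℂ, T.psi j h = T.psi j y - T.psi j x ∧
      ‖h - (y - x)‖ ≤ C * (‖x‖ + ‖y‖) * ‖y - x‖) ∧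
    (∀ j k, j ≠ k → ∀ ε > 0, ∃ δ > 0, ∀ x, ‖x‖ < δ → ∃ y, ‖y‖ < ε ∧
      T.psi k y = -T.psi j x) := by
  obtain ⟨R⟩ := exists_trk T
  have := an2 (Fin n → ℂ) (Fin (2 * n) → ℂ) (Pic0 ℂ F) T.psi T.psi_zero R.τ R.τ_zero R.smooth
    T.dtau R.deriv (fun j v hv => T.dtau_inj j v hv) (by simp) R.ρ R.ρ_pos R.sum_psi
  exact ⟨this.1, this.2.1⟩

/-- **(H1)** -/
theorem Tri.psi_H1 (j : Fin 3) : ∃ r C : ℝ, 0 < r ∧ 0 < C ∧ ∀ x y : Fin n → ℂ,
    ‖x‖ < r → ‖y‖ < r → ∃ h : Fin n → ℂ, T.psi j h = T.psi j y - T.psi j x ∧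
      ‖h - (y - x)‖ ≤ C * (‖x‖ + ‖y‖) * ‖y - x‖ := T.h12.1 j

/-- comparison of the three maps -/
theorem Tri.psi_cmp (j k : Fin 3) (hjk : j ≠ k) (ε : ℝ) (hε : 0 < ε) :
    ∃ δ > 0, ∀ x, ‖x‖ < δ → ∃ y, ‖y‖ < ε ∧ T.psi k y = -T.psi j x := T.h12.2 j k hjk ε hε

end Zero

end Fermat.Agent.Tor27
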