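import Fermat.Agent.Tor27.Final
import Fermat.Agent.Tor27.H12b
import Fermat.Agent.Tor27.G5

/-!
# The torsion of `Pic⁰` over `ℂ`
-/

set_option autoImplicit false

noncomputable section

namespace Fermat.Agent.Tor27

open AlgebraicCurve Fermat.Agent.Curves Fermat.Agent.PicFlat

/-- **The `n`-torsion of the Jacobian of a curve of genus `g` over `ℂ` has `n ^ (2g)` elements.** -/
theorem torusSt : TorusSt := by
  intro F _ _ _ g c rr n hn
  obtain ⟨T⟩ := exists_tri rr (chartSt F)
  have hg : ((g.toNat : ℕ) : ℤ) = g := Int.toNat_of_nonneg (g_nonneg rr)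
  exact card_of_tri T rr hg (T.psi_H1 0) T.psi_inj
    (fun R ε hε => T.g5 rr hg T.psi_cmp R ε hε) n hn

end Fermat.Agent.Tor27
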