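import Mathlib

/-!
# Tori from local group laws: the exponential map
-/

set_option autoImplicit false
set_option linter.unusedSectionVars false

noncomputable section

namespace Fermat.Agent.Tor27

variable {E J : Type*} [NormedAddCommGroup E] [NormedSpace ℝ E] [AddCommGroup J]

/-- local data with constants -/
structure Dat (ψ : E → J) (ρ C : ℝ) : Prop where
  ρpos : 0 < ρ
  Cpos : 0 < C
  zero : ψ 0 = 0
  inj : ∀ x y, ‖x‖ < 8 * ρ → ‖y‖ < 8 * ρ → ψ x = ψ y → x = y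
  sub : ∀ x y, ‖x‖ < 8 * ρ → ‖y‖ < 8 * ρ → ∃ h, ψ h = ψ y - ψ x ∧
    ‖h - (y - x)‖ ≤ C * (‖x‖ + ‖y‖) * ‖y - x‖
  small : C * (16 * ρ) ≤ 1 / 2

theorem exists_dat {ψ : E → J} (H1 : ∃ r C : ℝ, 0 < r ∧ 0 < C ∧ ∀ x y : E, ‖x‖ < r → ‖y‖ < r →
    ∃ h : E, ψ h = ψ y - ψ x ∧ ‖h - (y - x)‖ ≤ C * (‖x‖ + ‖y‖) * ‖y - x‖)
    (H2 : ∃ r > 0, Set.InjOn ψ (Metric.ball 0 r)) : ∃ ρ C : ℝ, Dat ψ ρ C := by
  obtain ⟨r, C, hr, hC, h⟩ := H1
  obtain ⟨r', hr', h'⟩ := H2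
  refine ⟨min (min (r / 8) (r' / 8)) (1 / (32 * C)), C, ?_, hC, ?_, ?_, ?_, ?_⟩
  · positivity
  · obtain ⟨h0, h1, h2⟩ := h 0 0 (by simpa using hr) (by simpa using hr)
    simp only [sub_self, sub_zero, norm_zero, mul_zero] at h1 h2
    rw [norm_le_zero_iff] at h2
    rw [h2] at h1
    exact h1
  · intro x y hx hy
    have e : 8 * (min (min (r / 8) (r' / 8)) (1 / (32 * C))) ≤ r' := by
      have : min (min (r / 8) (r' / 8)) (1 / (32 * C)) ≤ r' / 8 :=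
        (min_le_left _ _).trans (min_le_right _ _)
      linarith
    exact fun e' => h' (by simpa using hx.trans_le e) (by simpa using hy.trans_le e) e'
  · intro x y hx hy
    have e : 8 * (min (min (r / 8) (r' / 8)) (1 / (32 * C))) ≤ r := by
      have : min (min (r / 8) (r' / 8)) (1 / (32 * C)) ≤ r / 8 :=
        (min_le_left _ _).trans (min_le_left _ _)
      linarith
    exact h x y (hx.trans_le e) (hy.trans_le e)
  · have e : min (min (r / 8) (r' / 8)) (1 / (32 * C)) ≤ 1 / (32 * C) := min_le_right _ _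
    calc C * (16 * (min (min (r / 8) (r' / 8)) (1 / (32 * C)))) ≤ C * (16 * (1 / (32 * C))) := by
          gcongr
      _ = 1 / 2 := by field_simp; norm_num

namespace Dat

variable {ψ : E → J} {ρ C : ℝ} (D : Dat ψ ρ C)

include D

lemma sub' {x y : E} (hx : ‖x‖ < 8 * ρ) (hy : ‖y‖ < 8 * ρ) : ∃ h, ψ h = ψ y - ψ x ∧
    ‖h - (y - x)‖ ≤ C * (‖x‖ + ‖y‖) * ‖y - x‖ ∧ ‖h - (y - x)‖ ≤ 1 / 2 * ‖y - x‖ ∧
    ‖h‖ ≤ 3 / 2 * ‖y - x‖ := by
  obtain ⟨h, h1, h2⟩ := D.sub x y hx hy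
  have h3 : C * (‖x‖ + ‖y‖) ≤ 1 / 2 := by
    have : C * (‖x‖ + ‖y‖) ≤ C * (16 * ρ) := by
      have := D.Cpos
      gcongr
      linarith
    exact this.trans D.small
  have h4 : ‖h - (y - x)‖ ≤ 1 / 2 * ‖y - x‖ := h2.trans (by gcongr)
  refine ⟨h, h1, h2, h4, ?_⟩
  have h5 : ‖h‖ ≤ ‖h - (y - x)‖ + ‖y - x‖ := by
    have := norm_add_le (h - (y - x)) (y - x)
    rwa [sub_add_cancel] at this
  linarith

lemma neg {x : E} (hx : ‖x‖ < 8 * ρ) : ∃ x', ψ x' = - ψ x ∧ ‖x' + x‖ ≤ C * ‖x‖ ^ 2 ∧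
    ‖x'‖ ≤ 3 / 2 * ‖x‖ := by
  obtain ⟨h, h1, h2, -, h3⟩ := D.sub' hx (y := 0) (by rw [norm_zero]; linarith [D.ρpos])
  refine ⟨h, by rw [h1, D.zero, zero_sub], ?_, ?_⟩
  · rw [norm_zero, add_zero, zero_sub, norm_neg, sub_neg_eq_add] at h2
    rw [sq, ← mul_assoc]
    exact h2
  · rwa [zero_sub, norm_neg] at h3

lemma add {s δ : E} (hs : ‖s‖ < ρ) (hδ : ‖δ‖ < ρ) : ∃ s', ψ s' = ψ s + ψ δ ∧
    ‖s' - s‖ ≤ 2 * ‖δ‖ ∧ ‖s' - (s + δ)‖ ≤ 4 * C * (‖s‖ + ‖δ‖) ^ 2 := by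
  have hρ := D.ρpos
  have hC := D.Cpos
  obtain ⟨x, hx, hx1, hx2⟩ := D.neg (x := s) (by linarith)
  obtain ⟨s', h1, h2, h3, h4⟩ := D.sub' (x := x) (y := δ) (by linarith) (by linarith)
  have h5 : ‖δ - x‖ ≤ ‖δ‖ + ‖x‖ := norm_sub_le _ _
  have h6 : ψ s' = ψ s + ψ δ := by rw [h1, hx]; abel
  have h7 : ‖s'‖ < 4 * ρ := by linarith
  obtain ⟨h, k1, k2, k3, k4⟩ := D.sub' (x := s) (y := s') (by linarith) (by linarith)
  have k5 : ‖s' - s‖ ≤ ‖s'‖ + ‖s‖ := norm_sub_le _ _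
  have k6 : h = δ := D.inj _ _ (by linarith) (by linarith) (by rw [k1, h6]; abel)
  subst k6
  refine ⟨s', h6, ?_, ?_⟩
  · have k7 : ‖s' - s‖ ≤ ‖h - (s' - s)‖ + ‖h‖ := by
      have := norm_sub_le (h - (s' - s)) h
      rw [sub_sub_cancel_left, norm_neg] at this
      exact this
    linarith
  · have k8 : s' - (s + h) = (s' - (h - x)) - (x + s) := by abel
    rw [k8]
    have k9 := norm_sub_le (s' - (h - x)) (x + s)
    have k10 : C * (‖x‖ + ‖h‖) * ‖h - x‖ ≤ C * (3 / 2 * ‖s‖ + ‖h‖) * (3 / 2 * ‖s‖ + ‖h‖) := by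
      gcongr
      linarith
    have k11 : 0 ≤ ‖s‖ := norm_nonneg _
    have k12 : 0 ≤ ‖h‖ := norm_nonneg _
    nlinarith [mul_nonneg hC.le (mul_nonneg k11 k12), mul_nonneg hC.le (mul_nonneg k11 k11),
      mul_nonneg hC.le (mul_nonneg k12 k12)]

lemma defect {x y : E} (hx : ‖x‖ < ρ) (hy : ‖y‖ < ρ) : ∃ h, ψ h = ψ (x + y) - ψ x - ψ y ∧
    ‖h‖ ≤ 6 * C * (‖x‖ + ‖y‖) ^ 2 := by
  have hρ := D.ρpos
  obtain ⟨z, h1, h2, h3⟩ := D.add hx hy
  have h4 : ‖z‖ ≤ ‖z - x‖ + ‖x‖ := by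
    have := norm_add_le (z - x) x
    rwa [sub_add_cancel] at this
  have h5 := norm_add_le x y
  obtain ⟨h, k1, -, -, k4⟩ := D.sub' (x := z) (y := x + y) (by linarith) (by linarith)
  refine ⟨h, by rw [k1, h1]; abel, ?_⟩
  rw [← norm_neg, neg_sub] at h3
  linarith

/-- elements with small coordinates -/
def _root_.Fermat.Agent.Tor27.Small (ψ : E → J) (ε : ℝ) (j : J) : Prop := ∃ x, ‖x‖ ≤ ε ∧ ψ x = j

omit D in
lemma _root_.Fermat.Agent.Tor27.Small.mono {ε ε' : ℝ} {j : J} (h : Small ψ ε j) (hε : ε ≤ ε') :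
    Small ψ ε' j := by
  obtain ⟨x, hx, hj⟩ := h
  exact ⟨x, hx.trans hε, hj⟩

lemma small_zero {ε : ℝ} (hε : 0 ≤ ε) : Small ψ ε 0 := ⟨0, by simpa using hε, D.zero⟩

lemma small_add {ε ε' : ℝ} {j j' : J} (h : Small ψ ε j) (h' : Small ψ ε' j') (hε : ε < ρ)
    (hε' : ε' < ρ) : Small ψ (ε + 2 * ε') (j + j') := by
  obtain ⟨x, hx, rfl⟩ := h
  obtain ⟨y, hy, rfl⟩ := h'
  obtain ⟨z, h1, h2, -⟩ := D.add (hx.trans_lt hε) (hy.trans_lt hε')
  refine ⟨z, ?_, h1⟩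
  have h4 : ‖z‖ ≤ ‖z - x‖ + ‖x‖ := by
    have := norm_add_le (z - x) x
    rwa [sub_add_cancel] at this
  linarith

lemma small_neg {ε : ℝ} {j : J} (h : Small ψ ε j) (hε : ε < ρ) : Small ψ (2 * ε) (-j) := by
  obtain ⟨x, hx, rfl⟩ := h
  have hρ := D.ρpos
  obtain ⟨y, h1, -, h3⟩ := D.neg (x := x) (by linarith)
  exact ⟨y, by have := norm_nonneg x; linarith, h1⟩

lemma small_nsmul {ε : ℝ} {j : J} (h : Small ψ ε j) (hε0 : 0 ≤ ε) (m : ℕ) (hm : 2 * m * ε < ρ)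
    (hε : ε < ρ) : Small ψ (2 * m * ε) (m • j) := by
  induction m with
  | zero => simpa using D.small_zero le_rfl
  | succ m ih =>
    have h1 : 2 * (m : ℝ) * ε ≤ 2 * ((m + 1 : ℕ) : ℝ) * ε := by
      push_cast
      nlinarith
    have h2 := D.small_add (ih (h1.trans_lt hm)) h (h1.trans_lt hm) hε
    rw [succ_nsmul]
    refine h2.mono ?_
    push_cast
    linarith

lemma small_eq_zero {j : J} (h : ∀ ε > 0, Small ψ ε j) : j = 0 := by
  have hρ := D.ρpos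
  obtain ⟨x, hx, rfl⟩ := h ρ hρ
  have h1 : ‖x‖ ≤ 0 := by
    refine le_of_forall_pos_le_add fun ε hε => ?_
    obtain ⟨y, hy, hy'⟩ := h (min ε ρ) (by positivity)
    have h2 : y = x := D.inj _ _ (by have := hy.trans (min_le_right _ _); linarith) (by linarith) hy'
    rw [← h2, zero_add]
    exact hy.trans (min_le_left _ _)
  rw [norm_le_zero_iff] at h1
  rw [h1, D.zero]

/-! ### limits -/

/-- limits in `J` -/
def _root_.Fermat.Agent.Tor27.IsLim (ψ : E → J) (a : ℕ → J) (L : J) : Prop :=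
  ∀ ε > 0, ∃ K, ∀ k ≥ K, Small ψ ε (L - a k)

lemma lim_unique {a : ℕ → J} {L L' : J} (h : IsLim ψ a L) (h' : IsLim ψ a L') : L = L' := by
  have hρ := D.ρpos
  rw [← sub_eq_zero]
  refine D.small_eq_zero fun ε hε => ?_
  obtain ⟨K, hK⟩ := h (min (ε / 8) (ρ / 2)) (by positivity)
  obtain ⟨K', hK'⟩ := h' (min (ε / 8) (ρ / 4)) (by positivity)
  have h1 := hK (max K K') (le_max_left _ _)
  have h2 := hK' (max K K') (le_max_right _ _)
  have m1 := min_le_left (ε / 8) (ρ / 2)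
  have m2 := min_le_right (ε / 8) (ρ / 2)
  have m3 := min_le_left (ε / 8) (ρ / 4)
  have m4 := min_le_right (ε / 8) (ρ / 4)
  have h3 := D.small_neg h2 (by linarith)
  have h4 := D.small_add h1 h3 (by linarith) (by linarith)
  have h5 : L - L' = L - a (max K K') + -(L' - a (max K K')) := by abel
  rw [h5]
  exact h4.mono (by linarith)

lemma lim_add {a b c : ℕ → J} {L L' : J} (h : IsLim ψ a L) (h' : IsLim ψ b L')
    (hc : ∀ ε > 0, ∃ K, ∀ k ≥ K, Small ψ ε (a k + b k - c k)) : IsLim ψ c (L + L') := by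
  have hρ := D.ρpos
  intro ε hε
  obtain ⟨K, hK⟩ := h (min (ε / 16) (ρ / 16)) (by positivity)
  obtain ⟨K', hK'⟩ := h' (min (ε / 16) (ρ / 16)) (by positivity)
  obtain ⟨K'', hK''⟩ := hc (min (ε / 16) (ρ / 16)) (by positivity)
  have m1 := min_le_left (ε / 16) (ρ / 16)
  have m2 := min_le_right (ε / 16) (ρ / 16)
  refine ⟨max K (max K' K''), fun k hk => ?_⟩
  have h1 := hK k ((le_max_left _ _).trans hk)
  have h2 := hK' k (((le_max_left _ _).trans (le_max_right _ _)).trans hk)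
  have h3 := hK'' k (((le_max_right _ _).trans (le_max_right _ _)).trans hk)
  have h4 := D.small_add h1 h2 (by linarith) (by linarith)
  have h5 := D.small_add h4 h3 (by linarith) (by linarith)
  have h6 : L + L' - c k = L - a k + (L' - b k) + (a k + b k - c k) := by abel
  rw [h6]
  exact h5.mono (by linarith)

/-- completeness -/
lemma complete [CompleteSpace E] {a : ℕ → J} {M : ℝ} (hM0 : 0 ≤ M) (hM : 4 * M < ρ)
    (h : ∀ k, Small ψ (M / 2 ^ k) (a (k + 1) - a k)) : ∃ s : E, ‖s‖ ≤ 4 * M ∧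
      IsLim ψ a (a 0 + ψ s) := by
  have hρ := D.ρpos
  choose δ hδ1 hδ2 using h
  have hex : ∀ (k : ℕ) (s : E), ∃ s', (‖s‖ < ρ → ψ s' = ψ s + ψ (δ k) ∧ ‖s' - s‖ ≤ 2 * ‖δ k‖) := by
    intro k s
    by_cases hs : ‖s‖ < ρ
    · have : ‖δ k‖ < ρ := by
        have h1 := hδ1 k
        have h2 : M / 2 ^ k ≤ M := div_le_self hM0 (one_le_pow₀ (by norm_num))
        linarith
      obtain ⟨s', h1, h2, -⟩ := D.add hs this
      exact ⟨s', fun _ => ⟨h1, h2⟩⟩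
    · exact ⟨0, fun h => absurd h hs⟩
  choose nx hnx using hex
  let s : ℕ → E := fun k => Nat.rec 0 (fun k s => nx k s) k
  have hs : ∀ k, s (k + 1) = nx k (s k) := fun k => rfl
  have hsb : ∀ k, ‖s k‖ ≤ 4 * M * (1 - 1 / 2 ^ k) := by
    intro k
    induction k with
    | zero => simp [s]
    | succ k ih =>
      have h1 : ‖s k‖ < ρ := by
        have : 4 * M * (1 - 1 / 2 ^ k) ≤ 4 * M := by
          have : (0 : ℝ) ≤ 1 / 2 ^ k := by positivity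
          nlinarith
        linarith
      have h2 := (hnx k (s k) h1).2
      rw [← hs] at h2
      have h3 : ‖s (k + 1)‖ ≤ ‖s (k + 1) - s k‖ + ‖s k‖ := by
        have := norm_add_le (s (k + 1) - s k) (s k)
        rwa [sub_add_cancel] at this
      have h4 := hδ1 k
      have h5 : 4 * M * (1 - 1 / 2 ^ (k + 1)) = 4 * M * (1 - 1 / 2 ^ k) + 2 * (M / 2 ^ k) := by
        rw [pow_succ]; field_simp; ring
      rw [h5]
      linarith
  have hsρ : ∀ k, ‖s k‖ < ρ := by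
    intro k
    have : 4 * M * (1 - 1 / 2 ^ k) ≤ 4 * M := by
      have : (0 : ℝ) ≤ 1 / 2 ^ k := by positivity
      nlinarith
    linarith [hsb k]
  have hd : ∀ k, dist (s k) (s (k + 1)) ≤ 4 * M / 2 / 2 ^ k := by
    intro k
    rw [dist_comm, dist_eq_norm]
    have h2 := (hnx k (s k) (hsρ k)).2
    rw [← hs] at h2
    have h4 := hδ1 k
    have : 4 * M / 2 / 2 ^ k = 2 * (M / 2 ^ k) := by ring
    rw [this]
    linarith
  obtain ⟨S, hS⟩ := cauchySeq_tendsto_of_complete (cauchySeq_of_le_geometric_two hd)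
  have hSd : ∀ k, ‖S - s k‖ ≤ 4 * M / 2 ^ k := by
    intro k
    have := dist_le_of_le_geometric_two_of_tendsto hd hS k
    rwa [dist_comm, dist_eq_norm] at this
  have hψ : ∀ k, ψ (s k) = a k - a 0 := by
    intro k
    induction k with
    | zero => rw [sub_self]; exact D.zero
    | succ k ih =>
      rw [hs, (hnx k (s k) (hsρ k)).1, ih, hδ2]
      abel
  have hS0 : ‖S‖ ≤ 4 * M := by
    have := hSd 0
    simpa [s] using this
  refine ⟨S, hS0, fun ε hε => ?_⟩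
  obtain ⟨K, hK⟩ := exists_pow_lt_of_lt_one (show (0 : ℝ) < ε / (6 * M + 1) by positivity)
    (show (1 / 2 : ℝ) < 1 by norm_num)
  refine ⟨K, fun k hk => ?_⟩
  obtain ⟨h, h1, -, -, h3⟩ := D.sub' (x := s k) (y := S) (by linarith [hsρ k]) (by linarith)
  refine ⟨h, ?_, by rw [h1, hψ]; abel⟩
  have h4 := hSd k
  have h5 : (1 / 2 : ℝ) ^ k ≤ (1 / 2) ^ K := pow_le_pow_of_le_one (by norm_num) (by norm_num) hk
  have h6 : 4 * M / 2 ^ k = 4 * M * (1 / 2) ^ k := by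
    rw [one_div, inv_pow]; rfl
  rw [lt_div_iff₀ (by positivity)] at hK
  rw [h6] at h4
  have h7 : (0 : ℝ) ≤ (1 / 2) ^ k := by positivity
  nlinarith

end Dat

end Fermat.Agent.Tor27
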