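import Fermat.Agent.Tor27.Defs

/-!
# The local group law
-/

set_option autoImplicit false
set_option linter.style.haveILetI false

noncomputable section

namespace Fermat.Agent.Tor27

open scoped Topology
open Filter

section LocInv

variable {V W : Type*} [NormedAddCommGroup V] [NormedSpace ℂ V] [FiniteDimensional ℂ V]
  [NormedAddCommGroup W] [NormedSpace ℂ W] [FiniteDimensional ℂ W]

/-- local inversion -/
theorem exists_locInv {f : V → W} (hf : ContDiffAt ℂ 2 f 0) (hf0 : f 0 = 0) {f' : V →L[ℂ] W}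
    (hf' : HasFDerivAt f f' 0) (hinj : Function.Injective f')
    (hdim : Module.finrank ℂ V = Module.finrank ℂ W) :
    ∃ g : W → V, g 0 = 0 ∧ ContDiffAt ℂ 2 g 0 ∧ (∀ᶠ w in 𝓝 (0 : W), f (g w) = w) ∧
      ∀ᶠ v in 𝓝 (0 : V), g (f v) = v := by
  haveI : CompleteSpace V := FiniteDimensional.complete ℂ V
  let e : V ≃L[ℂ] W :=
    (LinearEquiv.ofInjectiveOfFinrankEq (f' : V →ₗ[ℂ] W) hinj hdim).toContinuousLinearEquiv
  have he : (e : V →L[ℂ] W) = f' := by
    ext v
    rfl
  have hn : (2 : WithTop ℕ∞) ≠ 0 := by norm_num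
  have hf'' : HasFDerivAt f (e : V →L[ℂ] W) 0 := by rw [he]; exact hf'
  have hs := hf.hasStrictFDerivAt' hf'' hn
  refine ⟨hf.localInverse hf'' hn, ?_, ?_, ?_, ?_⟩
  · have := hf.localInverse_apply_image hf'' hn
    rwa [hf0] at this
  · have := hf.to_localInverse hf'' hn
    rwa [hf0] at this
  · have := hs.eventually_right_inverse
    rwa [hf0] at this
  · exact hs.eventually_left_inverse

end LocInv

/-- the quadratic estimate -/
theorem quad_est {E : Type*} [NormedAddCommGroup E] [NormedSpace ℂ E] {σ : E × E → E}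
    (hσ : ContDiffAt ℂ 2 σ 0) (hdiag : ∀ᶠ x in 𝓝 (0 : E), σ (x, x) = 0)
    (hzero : ∀ᶠ y in 𝓝 (0 : E), σ (0, y) = y) :
    ∃ r C : ℝ, 0 < r ∧ 0 < C ∧ ∀ x y : E, ‖x‖ < r → ‖y‖ < r →
      ‖σ (x, y) - (y - x)‖ ≤ C * (‖x‖ + ‖y‖) * ‖y - x‖ := by
  set G : E × E → E := fun p => σ p - (p.2 - p.1) with hG
  have hlin : ContDiff ℂ 2 (fun p : E × E => p.2 - p.1) := contDiff_snd.sub contDiff_fst
  have hGc : ContDiffAt ℂ 2 G 0 := hσ.sub hlin.contDiffAt
  have hGd : DifferentiableAt ℂ G 0 := hGc.differentiableAt (by norm_num)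
  -- the derivative at zero vanishes
  have hDG : fderiv ℂ G 0 = 0 := by
    have hσd : HasFDerivAt σ (fderiv ℂ σ 0) 0 := (hσ.differentiableAt (by norm_num)).hasFDerivAt
    have h1 : ∀ v : E, fderiv ℂ σ 0 (v, v) = 0 := by
      intro v
      have hd : HasFDerivAt (fun x : E => σ (x, x)) ((fderiv ℂ σ 0).comp
          ((ContinuousLinearMap.id ℂ E).prod (ContinuousLinearMap.id ℂ E))) 0 := by
        refine HasFDerivAt.comp (g := σ) (0 : E) ?_ ((hasFDerivAt_id (0 : E)).prodMk
          (hasFDerivAt_id (0 : E)))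
        exact hσd
      have hd' : HasFDerivAt (fun x : E => σ (x, x)) (0 : E →L[ℂ] E) 0 := by
        refine (hasFDerivAt_const (0 : E) (0 : E)).congr_of_eventuallyEq ?_
        exact hdiag
      have := hd.unique hd'
      have := congrArg (fun L : E →L[ℂ] E => L v) this
      simpa using this
    have h2 : ∀ v : E, fderiv ℂ σ 0 (0, v) = v := by
      intro v
      have hd : HasFDerivAt (fun x : E => σ (0, x)) ((fderiv ℂ σ 0).comp
          ((0 : E →L[ℂ] E).prod (ContinuousLinearMap.id ℂ E))) 0 := by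
        refine HasFDerivAt.comp (g := σ) (0 : E) ?_ ((hasFDerivAt_const (0 : E) (0 : E)).prodMk
          (hasFDerivAt_id (0 : E)))
        exact hσd
      have hd' : HasFDerivAt (fun x : E => σ (0, x)) (ContinuousLinearMap.id ℂ E) 0 := by
        refine (hasFDerivAt_id (0 : E)).congr_of_eventuallyEq ?_
        exact hzero
      have := hd.unique hd'
      have := congrArg (fun L : E →L[ℂ] E => L v) this
      simpa using this
    have h3 : HasFDerivAt G (fderiv ℂ σ 0 - (ContinuousLinearMap.snd ℂ E E -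
        ContinuousLinearMap.fst ℂ E E)) 0 :=
      hσd.sub (hasFDerivAt_snd.sub hasFDerivAt_fst)
    rw [h3.fderiv]
    ext1
    · ext v
      have h4 : fderiv ℂ σ 0 (v, 0) = -v := by
        have h5 : ((v, (0 : E)) : E × E) = (v, v) - (0, v) := by simp
        rw [h5, map_sub, h1, h2, zero_sub]
      simp [h4]
    · ext v
      simp [h2]
  -- the derivative is O(p)
  have hDd : DifferentiableAt ℂ (fderiv ℂ G) 0 := by
    have : ContDiffAt ℂ 1 (fderiv ℂ G) 0 := hGc.fderiv_right (by norm_num)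
    exact this.differentiableAt (by norm_num)
  have hO := hDd.isBigO_sub
  rw [hDG] at hO
  obtain ⟨C, hC⟩ := hO.bound
  have hGev : ∀ᶠ p in 𝓝 (0 : E × E), DifferentiableAt ℂ G p := by
    have := hGc.eventually (by simp)
    exact this.mono fun p hp => hp.differentiableAt (by norm_num)
  obtain ⟨r₁, hr₁, h₁⟩ := Metric.eventually_nhds_iff.1 (hC.and hGev)
  obtain ⟨r₂, hr₂, h₂⟩ := Metric.eventually_nhds_iff.1 hdiag
  refine ⟨min (r₁ / 3) r₂, max C 1, lt_min (by positivity) hr₂, by positivity,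
    fun x y hx hy => ?_⟩
  have hx1 : ‖x‖ < r₁ / 3 := hx.trans_le (min_le_left _ _)
  have hy1 : ‖y‖ < r₁ / 3 := hy.trans_le (min_le_left _ _)
  have hx2 : σ (x, x) = 0 := h₂ (by rw [dist_zero_right]; exact hx.trans_le (min_le_right _ _))
  have hball : ∀ p ∈ Metric.closedBall (0 : E × E) (‖x‖ + ‖y‖), dist p 0 < r₁ := by
    intro p hp
    rw [Metric.mem_closedBall] at hp
    linarith
  have key := Convex.norm_image_sub_le_of_norm_fderiv_le (𝕜 := ℂ) (f := G)
    (C := max C 1 * (‖x‖ + ‖y‖)) (s := Metric.closedBall (0 : E × E) (‖x‖ + ‖y‖))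
    (x := (x, x)) (y := (x, y)) (fun p hp => (h₁ (hball p hp)).2) (fun p hp => ?_)
    (convex_closedBall _ _) ?_ ?_
  · have e1 : G (x, y) - G (x, x) = σ (x, y) - (y - x) := by
      simp only [hG, hx2]
      abel
    have e2 : ‖((x, y) : E × E) - (x, x)‖ = ‖y - x‖ := by
      rw [Prod.mk_sub_mk, sub_self, Prod.norm_def]
      simp
    rw [e1, e2] at key
    exact key
  · have h3 := (h₁ (hball p hp)).1
    rw [sub_zero, sub_zero] at h3
    have h4 : ‖p‖ ≤ ‖x‖ + ‖y‖ := by
      rw [Metric.mem_closedBall, dist_zero_right] at hp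
      exact hp
    calc ‖fderiv ℂ G p‖ ≤ C * ‖p‖ := h3
      _ ≤ max C 1 * ‖p‖ := mul_le_mul_of_nonneg_right (le_max_left _ _) (norm_nonneg _)
      _ ≤ _ := mul_le_mul_of_nonneg_left h4 (by positivity)
  · rw [Metric.mem_closedBall, dist_zero_right, Prod.norm_def]
    simp
  · rw [Metric.mem_closedBall, dist_zero_right, Prod.norm_def]
    simp

theorem exists_third : ∀ j k : Fin 3, j ≠ k → ∃ l, l ≠ j ∧ l ≠ k ∧ ∀ i, i = j ∨ i = k ∨ i = l := by
  decide

theorem exists_others : ∀ j : Fin 3, ∃ k l, j ≠ k ∧ j ≠ l ∧ k ≠ l ∧ ∀ i, i = j ∨ i = k ∨ i = l := by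
  decide

theorem sum_three {M : Type*} [AddCommMonoid M] (f : Fin 3 → M) {j k l : Fin 3} (h1 : j ≠ k)
    (h2 : j ≠ l) (h3 : k ≠ l) (h : ∀ i, i = j ∨ i = k ∨ i = l) : ∑ i, f i = f j + f k + f l := by
  have e : (Finset.univ : Finset (Fin 3)) = {j, k, l} := by
    ext i
    simpa using h i
  rw [e, Finset.sum_insert (by simp [h1, h2]), Finset.sum_insert (by simp [h3]),
    Finset.sum_singleton, add_assoc]

theorem an2 : AN2St := by
  intro E V J _ _ _ _ _ _ _ ψ hψ τ hτ0 hτc τ' hτ' hker hdim ρ hρ hrel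
  have hτj : ∀ j, ContDiffAt ℂ 2 (fun v => τ v j) 0 := fun j => (contDiffAt_pi.1 hτc) j
  have hτj0 : ∀ j, τ 0 j = 0 := fun j => congrFun hτ0 j
  have hτt : ∀ j, Tendsto (fun v => τ v j) (𝓝 0) (𝓝 0) := fun j => by
    have := (hτj j).continuousAt.tendsto
    simp only [hτj0] at this
    exact this
  -- the pair maps
  have hpair : ∀ j k : Fin 3, j ≠ k → ∃ g : E × E → V, g 0 = 0 ∧ ContDiffAt ℂ 2 g 0 ∧
      (∀ᶠ w in 𝓝 (0 : E × E), (τ (g w) j, τ (g w) k) = w) ∧
      ∀ᶠ v in 𝓝 (0 : V), g (τ v j, τ v k) = v := by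
    intro j k hjk
    have hc : ContDiffAt ℂ 2 (fun v => (τ v j, τ v k)) 0 := (hτj j).prodMk (hτj k)
    have hd : HasFDerivAt (fun v => (τ v j, τ v k))
        (((ContinuousLinearMap.proj (R := ℂ) (φ := fun _ : Fin 3 => E) j).comp τ').prod
          ((ContinuousLinearMap.proj (R := ℂ) (φ := fun _ : Fin 3 => E) k).comp τ')) 0 :=
      ((hasFDerivAt_pi'.1 hτ') j).prodMk ((hasFDerivAt_pi'.1 hτ') k)
    refine exists_locInv hc ?_ hd ?_ ?_
    · simp only [hτj0]
      rfl
    · rw [injective_iff_map_eq_zero]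
      intro v hv
      obtain ⟨l, hlj, hlk, hl⟩ := exists_third j k hjk
      refine hker l v fun i hi => ?_
      rcases hl i with rfl | rfl | rfl
      · exact congrArg Prod.fst hv
      · exact congrArg Prod.snd hv
      · exact absurd rfl hi
    · rw [Module.finrank_prod, hdim, two_mul]
  have hsm : ∀ᶠ v in 𝓝 (0 : V), ‖v‖ < ρ := by
    have := Metric.ball_mem_nhds (0 : V) hρ
    filter_upwards [this] with v hv
    rwa [mem_ball_zero_iff] at hv
  have hrel3 : ∀ᶠ v in 𝓝 (0 : V), ∀ j k l : Fin 3, j ≠ k → j ≠ l → k ≠ l →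
      (∀ i, i = j ∨ i = k ∨ i = l) → ψ j (τ v j) + ψ k (τ v k) + ψ l (τ v l) = 0 := by
    filter_upwards [hsm] with v hv j k l h1 h2 h3 h
    rw [← sum_three (fun i => ψ i (τ v i)) h1 h2 h3 h]
    exact hrel v hv
  have hinl : Tendsto (fun x : E => (x, (0 : E))) (𝓝 0) (𝓝 0) := by
    have : Continuous (fun x : E => (x, (0 : E))) := by fun_prop
    exact this.tendsto 0
  refine ⟨fun j => ?_, fun j k hjk ε hε => ?_, fun j ε hε => ?_⟩
  · -- the difference
    obtain ⟨k, l, hjk, hjl, hkl, hall⟩ := exists_others j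
    obtain ⟨g1, h10, h1c, h1r, h1l⟩ := hpair j k hjk
    obtain ⟨g2, h20, h2c, h2r, h2l⟩ := hpair j l hjl
    obtain ⟨g3, h30, h3c, h3r, h3l⟩ := hpair k l hkl
    have h10' : g1 ((0 : E), (0 : E)) = 0 := h10
    have h20' : g2 ((0 : E), (0 : E)) = 0 := h20
    have h30' : g3 ((0 : E), (0 : E)) = 0 := h30
    set v1 : E × E → V := fun p => g1 (p.1, 0) with hv1
    set z : E × E → E := fun p => τ (v1 p) l with hz
    set v2 : E × E → V := fun p => g2 (p.2, z p) with hv2
    set y' : E × E → E := fun p => τ (v2 p) k with hy'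
    set v3 : E × E → V := fun p => g3 (y' p, 0) with hv3
    set σ : E × E → E := fun p => τ (v3 p) j with hσ
    have v10 : v1 0 = 0 := h10'
    have z0 : z 0 = 0 := by simp only [hz, v10, hτj0]
    have v20 : v2 0 = 0 := by
      simp only [hv2, z0]
      exact h20'
    have y0 : y' 0 = 0 := by simp only [hy', v20, hτj0]
    have v30 : v3 0 = 0 := by
      simp only [hv3, y0]
      exact h30'
    have cv1 : ContDiffAt ℂ 2 v1 0 := by
      refine ContDiffAt.comp (g := g1) (0 : E × E) ?_ (contDiffAt_fst.prodMk contDiffAt_const)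
      exact h1c
    have cz : ContDiffAt ℂ 2 z 0 := by
      refine ContDiffAt.comp (g := fun v => τ v l) (0 : E × E) ?_ cv1
      rw [v10]
      exact hτj l
    have cv2 : ContDiffAt ℂ 2 v2 0 := by
      refine ContDiffAt.comp (g := g2) (0 : E × E) ?_ (contDiffAt_snd.prodMk cz)
      rw [z0]
      exact h2c
    have cy : ContDiffAt ℂ 2 y' 0 := by
      refine ContDiffAt.comp (g := fun v => τ v k) (0 : E × E) ?_ cv2
      rw [v20]
      exact hτj k
    have cv3 : ContDiffAt ℂ 2 v3 0 := by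
      refine ContDiffAt.comp (g := g3) (0 : E × E) ?_ (cy.prodMk contDiffAt_const)
      rw [y0]
      exact h3c
    have cσ : ContDiffAt ℂ 2 σ 0 := by
      refine ContDiffAt.comp (g := fun v => τ v j) (0 : E × E) ?_ cv3
      rw [v30]
      exact hτj j
    have tv1 : Tendsto v1 (𝓝 0) (𝓝 0) := by
      have := cv1.continuousAt.tendsto; rwa [v10] at this
    have tv2 : Tendsto v2 (𝓝 0) (𝓝 0) := by
      have := cv2.continuousAt.tendsto; rwa [v20] at this
    have tv3 : Tendsto v3 (𝓝 0) (𝓝 0) := by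
      have := cv3.continuousAt.tendsto; rwa [v30] at this
    have tp1 : Tendsto (fun p : E × E => (p.1, (0 : E))) (𝓝 0) (𝓝 0) := by
      have : Continuous (fun p : E × E => (p.1, (0 : E))) := by fun_prop
      exact this.tendsto 0
    have tp2 : Tendsto (fun p : E × E => (p.2, z p)) (𝓝 0) (𝓝 0) := by
      have := (continuousAt_snd : ContinuousAt Prod.snd (0 : E × E)).prodMk cz.continuousAt
      have h := this.tendsto
      simp only [z0] at h
      exact h
    have tp3 : Tendsto (fun p : E × E => (y' p, (0 : E))) (𝓝 0) (𝓝 0) := by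
      have := cy.continuousAt.prodMk (continuousAt_const (x := (0 : E × E)) (y := (0 : E)))
      have h := this.tendsto
      simp only [y0] at h
      exact h
    -- the relations
    have e1 : ∀ᶠ p in 𝓝 (0 : E × E), (τ (v1 p) j, τ (v1 p) k) = (p.1, (0 : E)) :=
      tp1.eventually h1r
    have e2 : ∀ᶠ p in 𝓝 (0 : E × E), (τ (v2 p) j, τ (v2 p) l) = (p.2, z p) :=
      tp2.eventually h2r
    have e3 : ∀ᶠ p in 𝓝 (0 : E × E), (τ (v3 p) k, τ (v3 p) l) = (y' p, (0 : E)) :=
      tp3.eventually h3r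
    have hψσ : ∀ᶠ p in 𝓝 (0 : E × E), ψ j (σ p) = ψ j p.2 - ψ j p.1 := by
      filter_upwards [e1, e2, e3, tv1.eventually hrel3, tv2.eventually hrel3,
        tv3.eventually hrel3] with p a1 a2 a3 r1 r2 r3
      have s1 := r1 j k l hjk hjl hkl hall
      have s2 := r2 j k l hjk hjl hkl hall
      have s3 := r3 j k l hjk hjl hkl hall
      have b1 := congrArg Prod.fst a1
      have b1' := congrArg Prod.snd a1
      have b2 := congrArg Prod.fst a2
      have b2' := congrArg Prod.snd a2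
      have b3 := congrArg Prod.fst a3
      have b3' := congrArg Prod.snd a3
      simp only at b1 b1' b2 b2' b3 b3'
      rw [b1, b1', hψ] at s1
      rw [b2, b2'] at s2
      rw [b3, b3', hψ] at s3
      change ψ j p.1 + 0 + ψ l (z p) = 0 at s1
      change ψ j p.2 + ψ k (y' p) + ψ l (z p) = 0 at s2
      change ψ j (σ p) + ψ k (y' p) + 0 = 0 at s3
      rw [add_zero] at s1 s3
      have t1 : ψ l (z p) = -ψ j p.1 := (neg_eq_of_add_eq_zero_right s1).symm
      rw [t1] at s2
      have t2 : ψ k (y' p) = ψ j p.1 - ψ j p.2 := by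
        rw [eq_sub_iff_add_eq, ← sub_eq_zero, ← s2]
        abel
      rw [t2] at s3
      rw [← sub_eq_zero, ← s3]
      abel
    have hdiag : ∀ᶠ x in 𝓝 (0 : E), σ (x, x) = 0 := by
      have td : Tendsto (fun x : E => (x, x)) (𝓝 0) (𝓝 0) := by
        have : Continuous (fun x : E => (x, x)) := by fun_prop
        exact this.tendsto 0
      filter_upwards [td.eventually e1, (tv1.comp td).eventually h2l] with x a1 a2
      have b1 := congrArg Prod.fst a1
      have b1' := congrArg Prod.snd a1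
      simp only at b1 b1'
      simp only [Function.comp_apply] at a2
      rw [b1] at a2
      have c1 : v2 (x, x) = v1 (x, x) := a2
      have c2 : y' (x, x) = 0 := by
        change τ (v2 (x, x)) k = 0
        rw [c1, b1']
      have c3 : v3 (x, x) = 0 := by
        change g3 (y' (x, x), 0) = 0
        rw [c2]
        exact h30'
      change τ (v3 (x, x)) j = 0
      rw [c3, hτj0]
    have hzero : ∀ᶠ y in 𝓝 (0 : E), σ (0, y) = y := by
      have td : Tendsto (fun y : E => ((0 : E), y)) (𝓝 0) (𝓝 0) := by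
        have : Continuous (fun y : E => ((0 : E), y)) := by fun_prop
        exact this.tendsto 0
      filter_upwards [td.eventually e2, (tv2.comp td).eventually h3l] with y a2 a3
      have z00 : z (0, y) = 0 := by
        change τ (g1 (0, 0)) l = 0
        rw [h10', hτj0]
      have b2 := congrArg Prod.fst a2
      have b2' := congrArg Prod.snd a2
      simp only at b2 b2'
      rw [z00] at b2'
      simp only [Function.comp_apply] at a3
      rw [b2'] at a3
      have c1 : v3 (0, y) = v2 (0, y) := a3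
      change τ (v3 (0, y)) j = y
      rw [c1, b2]
    obtain ⟨r₁, C, hr₁, hC, hest⟩ := quad_est cσ hdiag hzero
    obtain ⟨r₂, hr₂, hσψ⟩ := Metric.eventually_nhds_iff.1 hψσ
    refine ⟨min r₁ r₂, C, lt_min hr₁ hr₂, hC, fun x y hx hy => ⟨σ (x, y), ?_, ?_⟩⟩
    · refine hσψ (y := (x, y)) ?_
      rw [dist_zero_right, Prod.norm_def]
      exact max_lt (hx.trans_le (min_le_right _ _)) (hy.trans_le (min_le_right _ _))
    · exact hest x y (hx.trans_le (min_le_left _ _)) (hy.trans_le (min_le_left _ _))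
  · -- comparison
    obtain ⟨l, hlj, hlk, hl⟩ := exists_third j k hjk
    obtain ⟨g, h0, hc, hr, -⟩ := hpair j l hlj.symm
    have tg : Tendsto (fun x : E => g (x, 0)) (𝓝 0) (𝓝 0) := by
      have := hc.continuousAt.tendsto
      rw [h0] at this
      exact this.comp hinl
    have ty : ∀ᶠ x in 𝓝 (0 : E), ‖τ (g (x, 0)) k‖ < ε := by
      have h1 := ((hτt k).comp tg).eventually (Metric.ball_mem_nhds (0 : E) hε)
      filter_upwards [h1] with x hx
      simpa [dist_zero_right] using hx
    have hev : ∀ᶠ x in 𝓝 (0 : E), ∃ y, ‖y‖ < ε ∧ ψ k y = -ψ j x := by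
      filter_upwards [ty, hinl.eventually hr, tg.eventually hrel3] with x h1 h2 h3
      refine ⟨_, h1, ?_⟩
      have b1 := congrArg Prod.fst h2
      have b2 := congrArg Prod.snd h2
      simp only at b1 b2
      have h4 := h3 j k l hjk hlj.symm hlk.symm hl
      rw [b1, b2, hψ, add_zero] at h4
      exact (neg_eq_of_add_eq_zero_right h4).symm
    obtain ⟨δ, hδ, h⟩ := Metric.eventually_nhds_iff.1 hev
    exact ⟨δ, hδ, fun x hx => h (by rwa [dist_zero_right])⟩
  · -- sections
    obtain ⟨k, l, hjk, hjl, hkl, hall⟩ := exists_others j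
    obtain ⟨g, h0, hc, hr, -⟩ := hpair j k hjk
    have tg : Tendsto (fun x : E => g (x, 0)) (𝓝 0) (𝓝 0) := by
      have := hc.continuousAt.tendsto
      rw [h0] at this
      exact this.comp hinl
    have hev : ∀ᶠ x in 𝓝 (0 : E), ∃ v, ‖v‖ < ε ∧ τ v j = x ∧ ∃ k, k ≠ j ∧ τ v k = 0 := by
      filter_upwards [tg.eventually (Metric.ball_mem_nhds (0 : V) hε), hinl.eventually hr]
        with x h1 h2
      rw [dist_zero_right] at h1
      exact ⟨g (x, 0), h1, congrArg Prod.fst h2, k, hjk.symm, congrArg Prod.snd h2⟩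
    obtain ⟨δ, hδ, h⟩ := Metric.eventually_nhds_iff.1 hev
    exact ⟨δ, hδ, fun x hx => h (by rwa [dist_zero_right])⟩

end Fermat.Agent.Tor27
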