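import Fermat.Agent.Tor27.Exp

/-!
# Tori from local group laws: the number of torsion points
-/

set_option autoImplicit false
set_option linter.unusedSectionVars false

noncomputable section

namespace Fermat.Agent.Tor27

open Module

/-- counting the torsion of `E / Λ` -/
theorem card_of_lattice {E J : Type*} [AddCommGroup E] [Module ℝ E] [AddCommGroup J]
    (f : E →+ J) (hf : Function.Surjective f) {d : ℕ} (L : Submodule ℤ E)
    (hL : ∀ v, v ∈ L ↔ f v = 0) (b : Basis (Fin d) ℤ L) (n : ℕ) (hn : n ≠ 0) :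
    Nat.card {x : J // n • x = 0} = n ^ d := by
  have hn' : (n : ℝ) ≠ 0 := by exact_mod_cast hn
  have : NeZero n := ⟨hn⟩
  have hco : ∀ w : L, ((n • w : L) : E) = n • (w : E) := fun w => map_nsmul L.subtype n w
  -- the vector attached to integral coordinates
  let V : (Fin d → ℤ) → E := fun a => (n : ℝ)⁻¹ • ((∑ i, a i • b i : L) : E)
  have hV : ∀ a, n • V a = ((∑ i, a i • b i : L) : E) := by
    intro a
    simp only [V]
    rw [← Nat.cast_smul_eq_nsmul ℝ, smul_smul, mul_inv_cancel₀ hn', one_smul]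
  have hVn : ∀ c : Fin d → ℤ, V (fun i => (n : ℤ) * c i) = ((∑ i, c i • b i : L) : E) := by
    intro c
    simp only [V]
    have : (∑ i, ((n : ℤ) * c i) • b i : L) = n • (∑ i, c i • b i : L) := by
      rw [Finset.smul_sum]
      refine Finset.sum_congr rfl fun i _ => ?_
      rw [mul_smul, natCast_zsmul]
    rw [this, hco, ← Nat.cast_smul_eq_nsmul ℝ, smul_smul, inv_mul_cancel₀ hn', one_smul]
  have hVa : ∀ a c : Fin d → ℤ, V (a + c) = V a + V c := by
    intro a c
    simp only [V, Pi.add_apply, add_smul, Finset.sum_add_distrib, Submodule.coe_add, smul_add]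
  let G : (Fin d → Fin n) → {x : J // n • x = 0} := fun a =>
    ⟨f (V fun i => ((a i : ℕ) : ℤ)), by
      rw [← map_nsmul, hV]
      exact (hL _).1 (Submodule.coe_mem _)⟩
  have hG : Function.Bijective G := by
    constructor
    · intro a a' h
      have h1 : f (V fun i => ((a i : ℕ) : ℤ)) = f (V fun i => ((a' i : ℕ) : ℤ)) :=
        congrArg Subtype.val h
      have h2 : V (fun i => ((a i : ℕ) : ℤ)) - V (fun i => ((a' i : ℕ) : ℤ)) ∈ L := by
        rw [hL, map_sub, h1, sub_self]
      set w : L := ⟨_, h2⟩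
      have h3 : n • w = (∑ i, ((a i : ℕ) : ℤ) • b i : L) - (∑ i, ((a' i : ℕ) : ℤ) • b i : L) := by
        apply Subtype.ext
        rw [hco, Submodule.coe_sub]
        change n • (V (fun i => ((a i : ℕ) : ℤ)) - V (fun i => ((a' i : ℕ) : ℤ))) = _
        rw [smul_sub, hV, hV]
      funext i
      have h4 := congrArg (fun z => b.repr z i) h3
      simp only [map_sub, map_sum, map_smul, Finsupp.coe_sub, Pi.sub_apply,
        Basis.repr_self, Finsupp.coe_smul, Pi.smul_apply, map_nsmul] at h4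
      rw [Finsupp.finsetSum_apply, Finsupp.finsetSum_apply] at h4
      simp only [Finsupp.smul_apply, Finsupp.single_apply, smul_eq_mul, mul_ite, mul_one, mul_zero,
        Finset.sum_ite_eq', Finset.mem_univ, if_true] at h4
      have h5 := (a i).2
      have h6 := (a' i).2
      have h7 : (n : ℤ) ∣ ((a i : ℕ) : ℤ) - ((a' i : ℕ) : ℤ) :=
        ⟨b.repr w i, by rw [← h4, nsmul_eq_mul]⟩
      have h8 : ((a i : ℕ) : ℤ) - ((a' i : ℕ) : ℤ) = 0 := by
        refine Int.eq_zero_of_abs_lt_dvd h7 ?_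
        rw [abs_lt]
        constructor <;> omega
      apply Fin.ext
      omega
    · rintro ⟨x, hx⟩
      obtain ⟨v, rfl⟩ := hf x
      have h1 : n • v ∈ L := by rw [hL, map_nsmul, hx]
      set c : Fin d → ℤ := fun i => b.repr ⟨_, h1⟩ i with hc
      have h2 : ((∑ i, c i • b i : L) : E) = n • v := by
        rw [hc, b.sum_repr]
      have h3 : V c = v := by
        have h4 := hV c
        rw [h2, ← Nat.cast_smul_eq_nsmul ℝ, ← Nat.cast_smul_eq_nsmul ℝ] at h4
        exact smul_right_injective E hn' h4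
      have hnz : (n : ℤ) ≠ 0 := by exact_mod_cast hn
      have hlt : ∀ i, (c i % n).toNat < n := by
        intro i
        have h5 := Int.emod_lt_of_pos (c i) (show (0 : ℤ) < n by omega)
        have h6 := Int.emod_nonneg (c i) hnz
        omega
      refine ⟨fun i => ⟨(c i % n).toNat, hlt i⟩, ?_⟩
      apply Subtype.ext
      change f (V fun i => (((c i % n).toNat : ℕ) : ℤ)) = f v
      have h7 : (fun i => (((c i % n).toNat : ℕ) : ℤ)) + (fun i => (n : ℤ) * (c i / n)) = c := by
        funext i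
        rw [Pi.add_apply, Int.toNat_of_nonneg (Int.emod_nonneg (c i) hnz)]
        exact Int.emod_add_mul_ediv (c i) n
      have h8 : f (V c) = f (V fun i => (((c i % n).toNat : ℕ) : ℤ)) := by
        conv_lhs => rw [← h7, hVa, map_add, hVn, (hL _).1 (Submodule.coe_mem _), add_zero]
      rw [← h8, h3]
  rw [← Nat.card_eq_of_bijective G hG, Nat.card_eq_fintype_card, Fintype.card_fun,
    Fintype.card_fin, Fintype.card_fin]

/-- **(AT)** torsion of a group with a local coordinate system, which is generated by and finitely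
covered by small elements -/
theorem card_torsion {E J : Type*} [NormedAddCommGroup E] [NormedSpace ℝ E]
    [FiniteDimensional ℝ E] [AddCommGroup J] (ψ : E → J)
    (H1 : ∃ r C : ℝ, 0 < r ∧ 0 < C ∧ ∀ x y : E, ‖x‖ < r → ‖y‖ < r →
      ∃ h : E, ψ h = ψ y - ψ x ∧ ‖h - (y - x)‖ ≤ C * (‖x‖ + ‖y‖) * ‖y - x‖)
    (H2 : ∃ r > 0, Set.InjOn ψ (Metric.ball 0 r))
    (H3 : ∀ ε > 0, ∃ S : Set J, S.Finite ∧ ∀ j, ∃ s ∈ S, ∃ x : E, ‖x‖ < ε ∧ j = s + ψ x)
    (H4 : ∀ ε > 0, AddSubgroup.closure (ψ '' Metric.ball 0 ε) = ⊤)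
    (n : ℕ) (hn : n ≠ 0) : Nat.card {x : J // n • x = 0} = n ^ Module.finrank ℝ E := by
  have : CompleteSpace E := FiniteDimensional.complete ℝ E
  obtain ⟨ρ, C, D⟩ := exists_dat H1 H2
  have hρ := D.ρpos
  -- surjectivity
  have hsur : Function.Surjective D.exp := by
    rw [← AddMonoidHom.range_eq_top, eq_top_iff, ← H4 (ρ / 128) (by positivity),
      AddSubgroup.closure_le]
    rintro _ ⟨x, hx, rfl⟩
    obtain ⟨X, -, hX⟩ := D.ψ_eq_exp (x := x) (by simpa using (mem_ball_zero_iff.1 hx).le)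
    exact ⟨X, hX.symm⟩
  -- the lattice
  let L : Submodule ℤ E := AddSubgroup.toIntSubmodule D.exp.ker
  have hL : ∀ v, v ∈ L ↔ D.exp v = 0 := fun v => Iff.rfl
  have hdisc : DiscreteTopology L := by
    refine discreteTopology_iff_isOpen_singleton_zero.mpr ?_
    rw [Metric.isOpen_singleton_iff]
    refine ⟨ρ / 32, by positivity, fun y hy => ?_⟩
    apply Subtype.ext
    rw [dist_eq_norm, sub_zero] at hy
    exact D.eq_zero_of_exp (v := (y : E)) hy.le ((hL _).1 y.2)
  -- boundedness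
  obtain ⟨R, hR⟩ : ∃ R : ℝ, ∀ v : E, ∃ l ∈ L, ‖v - l‖ ≤ R := by
    obtain ⟨S, hS, hS'⟩ := H3 (ρ / 128) (by positivity)
    choose e he using hsur
    obtain ⟨B, hB⟩ := (hS.image fun s => ‖e s‖).bddAbove
    refine ⟨B + 2 * (ρ / 128), fun v => ?_⟩
    obtain ⟨s, hs, x, hx, hj⟩ := hS' (D.exp v)
    obtain ⟨X, hX, hX'⟩ := D.ψ_eq_exp (x := x) hx.le
    refine ⟨v - (e s + X), ?_, ?_⟩
    · rw [hL, map_sub, map_add, he, ← hX', hj, sub_self]
    · rw [sub_sub_cancel]
      have h1 : ‖e s‖ ≤ B := hB ⟨s, hs, rfl⟩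
      have h2 := norm_add_le (e s) X
      linarith
  have hspan : Submodule.span ℝ (L : Set E) = ⊤ := by
    by_contra hne
    obtain ⟨f, hf, hf'⟩ := Submodule.exists_le_ker_of_lt_top _ (lt_top_iff_ne_top.2 hne)
    let F : E →L[ℝ] ℝ := LinearMap.toContinuousLinearMap f
    have h1 : ∀ v, ‖f v‖ ≤ ‖F‖ * R := by
      intro v
      obtain ⟨l, hl, hl'⟩ := hR v
      have h2 : f l = 0 := hf' (Submodule.subset_span hl)
      have h3 : f v = F (v - l) := by
        change f v = f (v - l)
        rw [map_sub, h2, sub_zero]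
      rw [h3]
      exact (F.le_opNorm _).trans (by gcongr)
    apply hf
    ext v
    by_contra hv
    change f v ≠ 0 at hv
    have hv' : 0 < ‖f v‖ := norm_pos_iff.2 hv
    obtain ⟨m, hm⟩ := exists_nat_gt (‖F‖ * R / ‖f v‖)
    rw [div_lt_iff₀ hv'] at hm
    have h4 := h1 ((m : ℝ) • v)
    rw [map_smul, norm_smul, Real.norm_natCast] at h4
    linarith
  have hZ : IsZLattice ℝ L := ⟨hspan⟩
  have hfin : Module.Finite ℤ L := ZLattice.module_finite ℝ L
  have hfree : Module.Free ℤ L := ZLattice.module_free ℝ L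
  have b : Basis (Fin (finrank ℝ E)) ℤ L :=
    (Module.finBasis ℤ L).reindex (finCongr (ZLattice.rank ℝ L))
  exact card_of_lattice D.exp hsur L hL b n hn

end Fermat.Agent.Tor27
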