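import Fermat.Agent.Tor27.Defs

set_option autoImplicit false
set_option maxHeartbeats 400000

/-!
# Plane models of a function field over `ℂ`
-/

noncomputable section

namespace Fermat.Agent.Tor27

open AlgebraicCurve Fermat.Agent.Curves Polynomial

variable {F : Type*} [Field F] [Algebra ℂ F]

/-- evaluation of a polynomial in two variables at `(x, y)` -/
def ev2 (x y : F) : ℂ[X][X] →+* F :=
  eval₂RingHom ((aeval x : ℂ[X] →ₐ[ℂ] F) : ℂ[X] →+* F) y

/-- evaluation at a point of the plane -/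
def pt (s w : ℂ) : ℂ[X][X] →+* ℂ := eval₂RingHom (evalRingHom s) w

lemma ev2_C (x y : F) (p : ℂ[X]) : ev2 x y (C p) = aeval x p := by
  simp [ev2]

lemma ev2_X (x y : F) : ev2 x y X = y := by simp [ev2]

lemma ev2_CX (x y : F) : ev2 x y (C X) = x := by simp [ev2]

lemma ev2_CC (x y : F) (a : ℂ) : ev2 x y (C (C a)) = algebraMap ℂ F a := by simp [ev2]

lemma pt_C (s w : ℂ) (p : ℂ[X]) : pt s w (C p) = p.eval s := by simp [pt]

lemma pt_X (s w : ℂ) : pt s w X = w := by simp [pt]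

lemma pt_CX (s w : ℂ) : pt s w (C X) = s := by simp [pt]

lemma pt_CC (s w a : ℂ) : pt s w (C (C a)) = a := by simp [pt]

lemma subring_top {S : Subring ℂ[X][X]} (hC : ∀ a, C (C a) ∈ S) (hX : C X ∈ S) (hY : X ∈ S)
    (H : ℂ[X][X]) : H ∈ S := by
  have h1 : ∀ p : ℂ[X], C p ∈ S := by
    intro p
    induction p using Polynomial.induction_on' with
    | add p q hp hq => rw [C_add]; exact S.add_mem hp hq
    | monomial n a =>
      rw [← C_mul_X_pow_eq_monomial, C_mul, C_pow]
      exact S.mul_mem (hC a) (S.pow_mem hX n)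
  induction H using Polynomial.induction_on' with
  | add p q hp hq => exact S.add_mem hp hq
  | monomial n a =>
    rw [← C_mul_X_pow_eq_monomial]
    exact S.mul_mem (h1 a) (S.pow_mem hY n)

/-- a plane model -/
structure Mdl (x y : F) (G : ℂ[X][X]) : Prop where
  tr : Transcendental ℂ x
  monic : G.Monic
  eq : ev2 x y G = 0
  ker : ∀ H, ev2 x y H = 0 → G ∣ H
  sep : ev2 x y (derivative G) ≠ 0
  gen : ∀ f : F, ∃ A B : ℂ[X][X], ev2 x y B ≠ 0 ∧ f = ev2 x y A / ev2 x y B

lemma adjoin_le_ev2 (x y : F) {f : F} (hf : f ∈ Algebra.adjoin ℂ ({x, y} : Set F)) :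
    ∃ A, ev2 x y A = f := by
  induction hf using Algebra.adjoin_induction with
  | mem f hf =>
    simp only [Set.mem_insert_iff, Set.mem_singleton_iff] at hf
    rcases hf with rfl | rfl
    · exact ⟨C X, ev2_CX _ _⟩
    · exact ⟨X, ev2_X _ _⟩
  | algebraMap r => exact ⟨C (C r), ev2_CC _ _ _⟩
  | add f g _ _ hf hg =>
    obtain ⟨A, rfl⟩ := hf
    obtain ⟨B, rfl⟩ := hg
    exact ⟨A + B, map_add _ _ _⟩
  | mul f g _ _ hf hg =>
    obtain ⟨A, rfl⟩ := hf
    obtain ⟨B, rfl⟩ := hg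
    exact ⟨A * B, map_mul _ _ _⟩

variable [IsFunctionField ℂ F]

open IntermediateField in
theorem exists_mdl : ∃ (x y : F) (G : ℂ[X][X]), Mdl x y G := by
  obtain ⟨x, hx, hfin⟩ := IsFunctionField.exists_transcendental (k := ℂ) (F := F)
  haveI : CharZero F := charZero_of_injective_algebraMap (algebraMap ℂ F).injective
  haveI : CharZero ℂ⟮x⟯ := charZero_of_injective_algebraMap (algebraMap ℂ ℂ⟮x⟯).injective
  obtain ⟨α, hα⟩ := Field.exists_primitive_element ℂ⟮x⟯ F
  obtain ⟨p, hp0, hp⟩ := exists_mul_mem_affineRing hx α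
  have hpx : aeval x p ≠ 0 := fun h => hx ⟨p, hp0, h⟩
  set y := aeval x p * α with hy
  have hyint : IsIntegral (Algebra.adjoin ℂ {x}) y := mem_affineRing_iff_isIntegral.1 hp
  letI : Algebra ℂ[X] F := ((aeval x : ℂ[X] →ₐ[ℂ] F) : ℂ[X] →+* F).toAlgebra
  have halg (q : ℂ[X]) : algebraMap ℂ[X] F q = aeval x q := rfl
  have hinj : Function.Injective (algebraMap ℂ[X] F) := by
    intro a b hab
    rw [halg, halg] at hab
    exact transcendental_iff_injective.1 hx hab
  haveI : FaithfulSMul ℂ[X] F := (faithfulSMul_iff_algebraMap_injective ℂ[X] F).2 hinj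
  have hyi : IsIntegral ℂ[X] y := by
    obtain ⟨q, hq, hq'⟩ := hyint
    have hsurj : ∀ r : Algebra.adjoin ℂ {x}, ∃ s : ℂ[X], aeval x s = (r : F) := by
      rintro ⟨r, hr⟩
      rw [Algebra.adjoin_singleton_eq_range_aeval] at hr
      exact hr
    -- integral over the image
    let φ : ℂ[X] →+* Algebra.adjoin ℂ {x} :=
      ((aeval (⟨x, Algebra.subset_adjoin (Set.mem_singleton x)⟩ : Algebra.adjoin ℂ {x}) :
        ℂ[X] →ₐ[ℂ] Algebra.adjoin ℂ {x}) : ℂ[X] →+* Algebra.adjoin ℂ {x})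
    have hφ (s : ℂ[X]) : ((φ s : Algebra.adjoin ℂ {x}) : F) = aeval x s := by
      have := aeval_algebraMap_apply F (⟨x, Algebra.subset_adjoin (Set.mem_singleton x)⟩ :
        Algebra.adjoin ℂ {x}) s
      exact this.symm
    have hφs : Function.Surjective φ := by
      intro r
      obtain ⟨s, hs⟩ := hsurj r
      exact ⟨s, Subtype.ext ((hφ s).trans hs)⟩
    obtain ⟨q', hq1, hq2, hq3⟩ := lifts_and_natDegree_eq_and_monic
      (mem_lifts_of_surjective hφs q) hq
    refine ⟨q', hq3, ?_⟩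
    rw [← hq1, eval₂_map] at hq'
    have hcomp : (algebraMap (Algebra.adjoin ℂ {x}) F).comp φ = algebraMap ℂ[X] F :=
      RingHom.ext fun s => hφ s
    rwa [hcomp] at hq'
  set G := minpoly ℂ[X] y with hG
  have hev (H : ℂ[X][X]) : ev2 x y H = aeval y H := rfl
  have hgen : ℂ⟮x, y⟯ = ⊤ := by
    have h1 : ℂ⟮x⟯⟮y⟯ = ⊤ := by
      rw [eq_top_iff, ← hα, adjoin_le_iff, Set.singleton_subset_iff]
      have h2 : y ∈ ℂ⟮x⟯⟮y⟯ := mem_adjoin_simple_self _ _
      have h3 : aeval x p ∈ ℂ⟮x⟯⟮y⟯ := by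
        have h4 : aeval x p ∈ ℂ⟮x⟯ := by
          have h5 := IntermediateField.algebra_adjoin_le_adjoin ℂ ({x} : Set F)
          apply h5
          rw [Algebra.adjoin_singleton_eq_range_aeval]
          exact ⟨p, rfl⟩
        exact (ℂ⟮x⟯⟮y⟯).algebraMap_mem ⟨_, h4⟩
      have h6 : α = (aeval x p)⁻¹ * y := by
        rw [hy, inv_mul_cancel_left₀ hpx]
      change α ∈ ℂ⟮x⟯⟮y⟯
      rw [h6]
      exact mul_mem (inv_mem h3) h2
    rw [← adjoin_simple_adjoin_simple, h1]
    rfl
  refine ⟨x, y, G, hx, minpoly.monic hyi, ?_, ?_, ?_, ?_⟩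
  · rw [hev]; exact minpoly.aeval _ _
  · intro H hH
    rw [hev] at hH
    exact (minpoly.isIntegrallyClosed_dvd_iff hyi H).1 hH
  · rw [hev]
    intro h0
    have h1 := (minpoly.isIntegrallyClosed_dvd_iff hyi _).1 h0
    have h2 : derivative G = 0 := by
      by_contra hne
      have h3 : G.natDegree ≤ _ := natDegree_le_of_dvd h1 hne
      have h4 := natDegree_derivative_lt (p := G) (minpoly.natDegree_pos hyi).ne'
      omega
    have h3 := natDegree_eq_zero_of_derivative_eq_zero h2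
    exact (minpoly.natDegree_pos hyi).ne' h3
  · intro f
    have hf : f ∈ ℂ⟮x, y⟯ := by rw [hgen]; trivial
    rw [IntermediateField.mem_adjoin_iff_div] at hf
    obtain ⟨r, hr, s, hs, e⟩ := hf
    obtain ⟨A, rfl⟩ := adjoin_le_ev2 x y hr
    obtain ⟨B, rfl⟩ := adjoin_le_ev2 x y hs
    by_cases hB : ev2 x y B = 0
    · refine ⟨0, 1, by rw [map_one]; exact one_ne_zero, ?_⟩
      rw [e, hB, div_zero, map_zero, zero_div]
    · exact ⟨A, B, hB, e⟩

/-- every point of the model is the center of a place -/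
theorem Mdl.exists_place {x y : F} {G : ℂ[X][X]} (h : Mdl x y G) {s w : ℂ} (h0 : pt s w G = 0) :
    ∃ Q : Place ℂ F, x ∈ Q.toValuationSubring ∧ y ∈ Q.toValuationSubring ∧ value Q x = s ∧
      value Q y = w := by
  let A : Subring F := (ev2 x y).range
  let ρ : ℂ[X][X] →+* A := (ev2 x y).rangeRestrict
  have hρ : Function.Surjective ρ := (ev2 x y).rangeRestrict_surjective
  let I : Ideal A := (RingHom.ker (pt s w)).map ρ
  have hI : I ≠ ⊤ := by
    intro htop
    have h1 : (1 : A) ∈ I := by rw [htop]; trivial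
    obtain ⟨H, hH, e⟩ := (Ideal.mem_map_iff_of_surjective ρ hρ).1 h1
    have e1 : ev2 x y (H - 1) = 0 := by
      have := congrArg Subtype.val e
      rw [map_sub, map_one, sub_eq_zero]
      exact this
    obtain ⟨K, hK⟩ := h.ker _ e1
    have e2 := congrArg (pt s w) hK
    rw [map_mul, h0, zero_mul, map_sub, map_one, RingHom.mem_ker.1 hH] at e2
    norm_num at e2
  obtain ⟨V, hAV, hIV⟩ := Ideal.image_subset_nonunits_valuationSubring (A := A) I hI
  have hmem (H : ℂ[X][X]) : ev2 x y H ∈ V := hAV ⟨H, rfl⟩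
  have hnon (H : ℂ[X][X]) (hH : pt s w H = 0) : ev2 x y H ∈ V.nonunits :=
    hIV ⟨ρ H, Ideal.mem_map_of_mem ρ (RingHom.mem_ker.2 hH), rfl⟩
  have hxs : x - algebraMap ℂ F s ≠ 0 := sub_algebraMap_ne_zero h.tr s
  have n1 : x - algebraMap ℂ F s ∈ V.nonunits := by
    have := hnon (C X - C (C s)) (by rw [map_sub, pt_CX, pt_CC, sub_self])
    rwa [map_sub, ev2_CX, ev2_CC] at this
  have n2 : y - algebraMap ℂ F w ∈ V.nonunits := by
    have := hnon (X - C (C w)) (by rw [map_sub, pt_X, pt_CC, sub_self])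
    rwa [map_sub, ev2_X, ev2_CC] at this
  have hVtop : V ≠ ⊤ := by
    rintro rfl
    rw [ValuationSubring.mem_nonunits_iff] at n1
    have h2 : (x - algebraMap ℂ F s)⁻¹ ∈ (⊤ : ValuationSubring F) := ValuationSubring.mem_top _
    rw [← ValuationSubring.valuation_le_one_iff, map_inv₀, inv_le_one₀
      (zero_lt_iff.mpr (((⊤ : ValuationSubring F).valuation.ne_zero_iff).mpr hxs))] at h2
    exact absurd n1 (not_lt.mpr h2)
  obtain ⟨Q, rfl⟩ := exists_place_of_valuationSubring V (fun c => by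
    have := hmem (C (C c))
    rwa [ev2_CC] at this) hVtop
  have key {z : F} (hz : z ∈ Q.toValuationSubring.nonunits) : Q.adicValuation z < 1 := by
    rw [ValuationSubring.mem_nonunits_iff_exists_mem_maximalIdeal] at hz
    obtain ⟨h2, h3⟩ := hz
    rw [IsLocalRing.mem_maximalIdeal, mem_nonunits_iff, ← Q.adicValuation_coe_eq_one_iff] at h3
    exact lt_of_le_of_ne ((mem_iff_val Q).mp h2) h3
  have mx : x ∈ Q.toValuationSubring := by
    have := hmem (C X)
    rwa [ev2_CX] at this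
  have my : y ∈ Q.toValuationSubring := by
    have := hmem X
    rwa [ev2_X] at this
  exact ⟨Q, mx, my, (value_eq_iff Q mx s).2 (key n1), (value_eq_iff Q my w).2 (key n2)⟩

end Fermat.Agent.Tor27
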