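import Fermat.Agent.Tor27.Ch1

set_option autoImplicit false
set_option maxHeartbeats 400000

/-!
# Smooth points of a plane model
-/

noncomputable section

namespace Fermat.Agent.Tor27

open AlgebraicCurve Fermat.Agent.Curves Polynomial

variable {F : Type*} [Field F] [Algebra ℂ F] [IsFunctionField ℂ F]

/-- the regular functions with their values -/
def valRing (P : Place ℂ F) : Subring (F × ℂ) where
  carrier := {p | p.1 ∈ P.toValuationSubring ∧ value P p.1 = p.2}
  mul_mem' := by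
    rintro ⟨a, b⟩ ⟨c, d⟩ ⟨h1, h2⟩ ⟨h3, h4⟩
    refine ⟨mul_mem h1 h3, ?_⟩
    show value P (a * c) = b * d
    rw [value_mul P h1 h3]
    exact congrArg₂ _ h2 h4
  one_mem' := by
    refine ⟨one_mem _, ?_⟩
    show value P (1 : F) = 1
    rw [← map_one (algebraMap ℂ F), value_algebraMap]
  add_mem' := by
    rintro ⟨a, b⟩ ⟨c, d⟩ ⟨h1, h2⟩ ⟨h3, h4⟩
    refine ⟨add_mem h1 h3, ?_⟩
    show value P (a + c) = b + d
    rw [value_add P h1 h3]
    exact congrArg₂ _ h2 h4
  zero_mem' := by
    refine ⟨zero_mem _, ?_⟩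
    show value P (0 : F) = 0
    rw [← map_zero (algebraMap ℂ F), value_algebraMap]
  neg_mem' := by
    rintro ⟨a, b⟩ ⟨h1, h2⟩
    refine ⟨neg_mem h1, ?_⟩
    show value P (-a) = -b
    have h3 := value_add P h1 (neg_mem h1)
    rw [add_neg_cancel, ← map_zero (algebraMap ℂ F), value_algebraMap] at h3
    change value P a = b at h2
    rw [h2] at h3
    exact (neg_eq_of_add_eq_zero_right h3.symm).symm

lemma mem_valRing {P : Place ℂ F} {f : F} {c : ℂ} : (f, c) ∈ valRing P ↔
    f ∈ P.toValuationSubring ∧ value P f = c := Iff.rfl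

/-- values of polynomials -/
theorem value_ev2 (P : Place ℂ F) {x y : F} (hx : x ∈ P.toValuationSubring)
    (hy : y ∈ P.toValuationSubring) (H : ℂ[X][X]) :
    ev2 x y H ∈ P.toValuationSubring ∧ value P (ev2 x y H) = pt (value P x) (value P y) H := by
  have := subring_top (S := (valRing P).comap ((ev2 x y).prod (pt (value P x) (value P y))))
    (fun a => by
      rw [Subring.mem_comap, RingHom.prod_apply, ev2_CC, pt_CC, mem_valRing]
      exact ⟨P.algebraMap_mem' a, value_algebraMap P a⟩)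
    (by
      rw [Subring.mem_comap, RingHom.prod_apply, ev2_CX, pt_CX, mem_valRing]
      exact ⟨hx, rfl⟩)
    (by
      rw [Subring.mem_comap, RingHom.prod_apply, ev2_X, pt_X, mem_valRing]
      exact ⟨hy, rfl⟩) H
  rw [Subring.mem_comap, RingHom.prod_apply, mem_valRing] at this
  exact this

lemma value_eq_zero_iff_ord (P : Place ℂ F) {f : F} (hf : f ∈ P.toValuationSubring)
    (hf0 : f ≠ 0) : value P f = 0 ↔ 0 < P.ord f := by
  rw [value_eq_zero_iff P hf, val_lt_one_iff]
  simp [hf0]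

lemma ord_zero_of_value (P : Place ℂ F) {f : F} (hf : f ∈ P.toValuationSubring)
    (hv : value P f ≠ 0) : f ≠ 0 ∧ P.ord f = 0 := by
  have hf0 : f ≠ 0 := by
    rintro rfl
    apply hv
    rw [← map_zero (algebraMap ℂ F), value_algebraMap]
  refine ⟨hf0, ?_⟩
  have h1 := (mem_iff_ord P hf0).1 hf
  have h2 := (value_eq_zero_iff_ord P hf hf0).not.1 hv
  omega

/-- a smooth place of a plane model -/
structure Smp (x y : F) (G : ℂ[X][X]) (P : Place ℂ F) : Prop where
  mdl : Mdl x y G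
  hx : x ∈ P.toValuationSubring
  hy : y ∈ P.toValuationSubring
  sm : pt (value P x) (value P y) (derivative G) ≠ 0

variable {x y : F} {G : ℂ[X][X]} {P : Place ℂ F}

lemma Smp.pt_G (h : Smp x y G P) : pt (value P x) (value P y) G = 0 := by
  rw [← (value_ev2 P h.hx h.hy G).2, h.mdl.eq, ← map_zero (algebraMap ℂ F), value_algebraMap]

lemma eval_C_pt (s w : ℂ) (H : ℂ[X][X]) : (H.eval (C w)).eval s = pt s w H := by
  have h : (evalRingHom s).comp (evalRingHom (C w)) = pt s w := by
    apply Polynomial.ringHom_ext'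
    · ext a
      · simp [pt]
      · simp [pt]
    · simp [pt]
  exact congrArg (fun φ : ℂ[X][X] →+* ℂ => φ H) h

lemma split_pt {s w : ℂ} {H : ℂ[X][X]} (h : pt s w H = 0) :
    ∃ H1 H2 : ℂ[X][X], H = C (X - C s) * H1 + (X - C (C w)) * H2 := by
  obtain ⟨H2, e⟩ := X_sub_C_dvd_sub_C_eval (p := H) (a := C w)
  rw [← eval_C_pt] at h
  obtain ⟨h1, e1⟩ := dvd_iff_isRoot.2 h
  refine ⟨C h1, H2, ?_⟩
  rw [← C_mul, ← e1, ← e]
  ring

/-- the local equation -/
lemma Smp.rel (h : Smp x y G P) : ∃ A B : ℂ[X][X], pt (value P x) (value P y) B ≠ 0 ∧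
    ev2 x y (X - C (C (value P y))) * ev2 x y B = ev2 x y (C (X - C (value P x))) * ev2 x y A := by
  set a := value P x with ha
  set b := value P y with hb
  obtain ⟨k, hk⟩ := binomExpansion (G.map C) X (C (C b) - X)
  have e1 : (G.map C).eval (X : ℂ[X][X]) = G := by
    rw [eval_map, eval₂_C_X]
  have e2 : (G.map C).eval (X + (C (C b) - X) : ℂ[X][X]) = C (G.eval (C b)) := by
    rw [add_sub_cancel, eval_map, eval₂_at_apply]
  have e3 : (derivative (G.map (C : ℂ[X] →+* ℂ[X][X]))).eval (X : ℂ[X][X]) = derivative G := by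
    rw [derivative_map, eval_map, eval₂_C_X]
  rw [e1, e2, e3] at hk
  have h0 : (G.eval (C b)).eval a = 0 := by rw [eval_C_pt]; exact h.pt_G
  obtain ⟨g, hg⟩ := dvd_iff_isRoot.2 h0
  refine ⟨-C g, derivative G + k * (C (C b) - X), ?_, ?_⟩
  · rw [map_add, map_mul, map_sub, pt_CC, pt_X, sub_self, mul_zero, add_zero]
    exact h.sm
  · have e := congrArg (ev2 x y) hk
    rw [hg] at e
    simp only [map_add, map_mul, map_sub, map_neg, map_pow, h.mdl.eq, C_mul, C_sub] at e ⊢
    linear_combination e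

/-- local structure at a smooth place -/
theorem Smp.local_form (h : Smp x y G P) (n : ℕ) : ∀ H : ℂ[X][X], ev2 x y H ≠ 0 →
    (P.ord (ev2 x y H)).toNat = n → ∃ (k : ℕ) (A B : ℂ[X][X]),
      pt (value P x) (value P y) A ≠ 0 ∧ pt (value P x) (value P y) B ≠ 0 ∧
      ev2 x y H * ev2 x y B = (ev2 x y (C (X - C (value P x)))) ^ k * ev2 x y A := by
  induction n using Nat.strong_induction_on with
  | _ n ih =>
    intro H hH hn
    by_cases h0 : pt (value P x) (value P y) H = 0
    · obtain ⟨H1, H2, e⟩ := split_pt h0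
      obtain ⟨A0, B0, hB0, hrel⟩ := h.rel
      set u := ev2 x y (C (X - C (value P x))) with hu
      set H' := H1 * B0 + A0 * H2 with hH'
      have e1 : ev2 x y H * ev2 x y B0 = u * ev2 x y H' := by
        rw [e, hH', map_add, map_add, map_mul, map_mul, map_mul, map_mul, ← hu]
        linear_combination ev2 x y H2 * hrel
      have vB := value_ev2 P h.hx h.hy B0
      obtain ⟨nB, oB⟩ := ord_zero_of_value P vB.1 (by rw [vB.2]; exact hB0)
      have hne : u * ev2 x y H' ≠ 0 := by rw [← e1]; exact mul_ne_zero hH nB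
      have hu0 := left_ne_zero_of_mul hne
      have hH'0 := right_ne_zero_of_mul hne
      have vu := value_ev2 P h.hx h.hy (C (X - C (value P x)))
      have ou : 0 < P.ord u := by
        rw [← value_eq_zero_iff_ord P vu.1 hu0, vu.2, pt_C]
        simp
      have oe := congrArg P.ord e1
      rw [P.ord_mul hH nB, P.ord_mul hu0 hH'0, oB, add_zero] at oe
      have oH' := (mem_iff_ord P hH'0).1 (value_ev2 P h.hx h.hy H').1
      obtain ⟨k, A, B, hA, hB, eAB⟩ := ih _ (by omega) H' hH'0 rfl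
      refine ⟨k + 1, A, B0 * B, hA, by rw [map_mul]; exact mul_ne_zero hB0 hB, ?_⟩
      rw [map_mul, pow_succ]
      linear_combination ev2 x y B * e1 + u * eAB
    · exact ⟨0, H, 1, h0, by rw [map_one]; exact one_ne_zero, by rw [map_one]; ring⟩

lemma Smp.u_eq (x y : F) (c : ℂ) : ev2 x y (C (X - C c)) = x - algebraMap ℂ F c := by
  rw [ev2_C, map_sub, aeval_X, aeval_C]

lemma Smp.u_ne (h : Smp x y G P) : x - algebraMap ℂ F (value P x) ≠ 0 :=
  sub_algebraMap_ne_zero h.mdl.tr _

/-- order of a function at a smooth place -/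
lemma Smp.form (h : Smp x y G P) {f : F} (hf : f ≠ 0) : ∃ (k : ℤ) (A B : ℂ[X][X]),
      pt (value P x) (value P y) A ≠ 0 ∧ pt (value P x) (value P y) B ≠ 0 ∧
      f * ev2 x y B = (x - algebraMap ℂ F (value P x)) ^ k * ev2 x y A ∧
      P.ord f = k * P.ord (x - algebraMap ℂ F (value P x)) := by
  obtain ⟨A, B, hB, e⟩ := h.mdl.gen f
  have hA : ev2 x y A ≠ 0 := by
    intro h0
    rw [h0, zero_div] at e
    exact hf e
  obtain ⟨k1, A1, B1, hA1, hB1, e1⟩ := h.local_form _ A hA rfl
  obtain ⟨k2, A2, B2, hA2, hB2, e2⟩ := h.local_form _ B hB rfl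
  rw [Smp.u_eq] at e1 e2
  set u := x - algebraMap ℂ F (value P x) with hu
  have hu0 : u ≠ 0 := h.u_ne
  have unit {D : ℂ[X][X]} (hD : pt (value P x) (value P y) D ≠ 0) :
      ev2 x y D ≠ 0 ∧ P.ord (ev2 x y D) = 0 :=
    ord_zero_of_value P (value_ev2 P h.hx h.hy D).1 (by
      rw [(value_ev2 P h.hx h.hy D).2]; exact hD)
  have main : f * ev2 x y (B1 * A2) = u ^ ((k1 : ℤ) - k2) * ev2 x y (A1 * B2) := by
    rw [zpow_sub₀ hu0, zpow_natCast, zpow_natCast, e, map_mul, map_mul]
    field_simp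
    have hk := pow_ne_zero k2 hu0
    linear_combination (ev2 x y A2 * u ^ k2) * e1 - (ev2 x y A1 * u ^ k1) * e2
  have h1 : pt (value P x) (value P y) (A1 * B2) ≠ 0 := by
    rw [map_mul]; exact mul_ne_zero hA1 hB2
  have h2 : pt (value P x) (value P y) (B1 * A2) ≠ 0 := by
    rw [map_mul]; exact mul_ne_zero hB1 hA2
  refine ⟨(k1 : ℤ) - k2, A1 * B2, B1 * A2, h1, h2, main, ?_⟩
  have o := congrArg P.ord main
  rw [P.ord_mul hf (unit h2).1, P.ord_mul (zpow_ne_zero _ hu0) (unit h1).1, (unit h1).2,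
    (unit h2).2, P.ord_zpow, add_zero, add_zero] at o
  exact o

/-- the coordinate is a uniformizer at a smooth place -/
theorem Smp.ord_u (h : Smp x y G P) : P.ord (x - algebraMap ℂ F (value P x)) = 1 := by
  obtain ⟨f, hf0, hf⟩ := exists_ord_eq P 1
  obtain ⟨k, -, -, -, -, -, hk⟩ := h.form hf0
  rw [hf] at hk
  have h1 : 0 < P.ord (x - algebraMap ℂ F (value P x)) := by
    have vu := value_ev2 P h.hx h.hy (C (X - C (value P x)))
    rw [Smp.u_eq] at vu
    rw [← value_eq_zero_iff_ord P vu.1 h.u_ne, vu.2, pt_C]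
    simp
  have h2 : P.ord (x - algebraMap ℂ F (value P x)) ∣ 1 := ⟨k, by rw [hk]; ring⟩
  exact le_antisymm (Int.le_of_dvd one_pos h2) h1

/-- regular functions are quotients of polynomials with non vanishing denominator -/
theorem Smp.reg_form (h : Smp x y G P) {f : F} (hf : f ∈ P.toValuationSubring) :
    ∃ A B : ℂ[X][X], pt (value P x) (value P y) B ≠ 0 ∧ f * ev2 x y B = ev2 x y A := by
  by_cases hf0 : f = 0
  · exact ⟨0, 1, by rw [map_one]; exact one_ne_zero, by rw [hf0, map_zero, zero_mul]⟩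
  obtain ⟨k, A, B, hA, hB, e, o⟩ := h.form hf0
  rw [h.ord_u, mul_one] at o
  have hk : 0 ≤ k := by
    rw [← o]
    exact (mem_iff_ord P hf0).1 hf
  obtain ⟨n, rfl⟩ := Int.eq_ofNat_of_zero_le hk
  refine ⟨(C (X - C (value P x))) ^ n * A, B, hB, ?_⟩
  rw [map_mul, map_pow, Smp.u_eq, e, zpow_natCast]

end Fermat.Agent.Tor27
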