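import Fermat.Agent.Tor27.Ch2

set_option autoImplicit false
set_option maxHeartbeats 400000

/-!
# Analytic charts at smooth places
-/

noncomputable section

namespace Fermat.Agent.Tor27

open AlgebraicCurve Fermat.Agent.Curves Polynomial Topology

lemma contDiff_pt (H : ℂ[X][X]) : ContDiff ℂ 1 (fun v : ℂ × ℂ => pt v.1 v.2 H) := by
  let S : Subring ℂ[X][X] :=
    { carrier := {H | ContDiff ℂ 1 (fun v : ℂ × ℂ => pt v.1 v.2 H)}
      mul_mem' := fun {a b} ha hb => by
        simp only [Set.mem_setOf_eq, map_mul] at *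
        exact ha.mul hb
      one_mem' := by
        simp only [Set.mem_setOf_eq, map_one]
        exact contDiff_const
      add_mem' := fun {a b} ha hb => by
        simp only [Set.mem_setOf_eq, map_add] at *
        exact ha.add hb
      zero_mem' := by
        simp only [Set.mem_setOf_eq, map_zero]
        exact contDiff_const
      neg_mem' := fun {a} ha => by
        simp only [Set.mem_setOf_eq, map_neg] at *
        exact ha.neg }
  exact subring_top (S := S)
    (fun a => by
      show ContDiff ℂ 1 (fun v : ℂ × ℂ => pt v.1 v.2 (C (C a)))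
      simp only [pt_CC]
      exact contDiff_const)
    (by
      show ContDiff ℂ 1 (fun v : ℂ × ℂ => pt v.1 v.2 (C X))
      simp only [pt_CX]
      exact contDiff_fst)
    (by
      show ContDiff ℂ 1 (fun v : ℂ × ℂ => pt v.1 v.2 X)
      simp only [pt_X]
      exact contDiff_snd) H

lemma hasDerivAt_pt (G : ℂ[X][X]) (a b : ℂ) :
    HasDerivAt (fun w => pt a w G) (pt a b (derivative G)) b := by
  have e (w : ℂ) (H : ℂ[X][X]) : pt a w H = (H.map (evalRingHom a)).eval w := by
    rw [eval_map]; rfl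
  simp only [e]
  have := (G.map (evalRingHom a)).hasDerivAt b
  rwa [derivative_map] at this

/-- the analytic branch -/
theorem exists_branch {G : ℂ[X][X]} {a b : ℂ} (h0 : pt a b G = 0)
    (h1 : pt a b (derivative G) ≠ 0) : ∃ (η : ℂ → ℂ) (r : ℝ), 0 < r ∧ η 0 = b ∧
      (∀ t, ‖t‖ < r → pt (a + t) (η t) G = 0) ∧ DifferentiableOn ℂ η (Metric.ball 0 r) := by
  let f : ℂ × ℂ → ℂ := fun v => pt v.1 v.2 G
  have cdf : ContDiffAt ℂ 1 f (a, b) := (contDiff_pt G).contDiffAt
  have hfd : HasFDerivAt f (fderiv ℂ f (a, b)) (a, b) :=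
    (cdf.differentiableAt one_ne_zero).hasFDerivAt
  have hL : HasFDerivAt (fun w => f (a, w)) (fderiv ℂ f (a, b) ∘L .inr ℂ ℂ ℂ) b := by
    have h2 : HasFDerivAt (fun w : ℂ => (a, w)) (ContinuousLinearMap.inr ℂ ℂ ℂ) b :=
      hasFDerivAt_prodMk_right a b
    exact HasFDerivAt.comp b hfd h2
  have hL1 : (fderiv ℂ f (a, b) ∘L .inr ℂ ℂ ℂ) 1 = pt a b (derivative G) := by
    have h2 := hL.hasDerivAt
    exact h2.unique (hasDerivAt_pt G a b)
  have hinv : (fderiv ℂ f (a, b) ∘L .inr ℂ ℂ ℂ).IsInvertible := by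
    refine ⟨ContinuousLinearEquiv.unitsEquivAut ℂ (Units.mk0 _ h1), ?_⟩
    ext
    simp only [ContinuousLinearEquiv.coe_coe, ContinuousLinearEquiv.unitsEquivAut_apply,
      Units.val_mk0, one_mul]
    rw [← hL1]
  set φ := cdf.implicitFunction one_ne_zero hinv with hφ
  have hφa : φ a = b := cdf.implicitFunction_apply_self one_ne_zero hinv
  have e1 : ∀ᶠ s in 𝓝 a, pt s (φ s) G = 0 := by
    have := cdf.eventually_apply_implicitFunction one_ne_zero hinv
    filter_upwards [this] with s hs
    exact hs.trans h0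
  have e2 : ∀ᶠ s in 𝓝 a, DifferentiableAt ℂ φ s := by
    have h2 : ContDiffAt ℂ 1 φ a := cdf.contDiffAt_implicitFunction one_ne_zero hinv
    filter_upwards [h2.eventually (by simp)] with s hs
    exact hs.differentiableAt one_ne_zero
  obtain ⟨r, hr, hball⟩ := Metric.eventually_nhds_iff.1 (e1.and e2)
  have hb (t : ℂ) (ht : ‖t‖ < r) := hball (y := a + t) (by
    rw [dist_eq_norm, add_sub_cancel_left]; exact ht)
  refine ⟨fun t => φ (a + t), r, hr, by simp [hφa], fun t ht => (hb t ht).1, fun t ht => ?_⟩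
  have ht' : ‖t‖ < r := by simpa using ht
  have h3 : DifferentiableAt ℂ (fun t => a + t) t := (differentiableAt_id.const_add a)
  exact (DifferentiableAt.comp t (hb t ht').2 h3).differentiableWithinAt

lemma differentiableOn_pt {η : ℂ → ℂ} {r : ℝ} (hη : DifferentiableOn ℂ η (Metric.ball 0 r))
    (a : ℂ) (H : ℂ[X][X]) :
    DifferentiableOn ℂ (fun t => pt (a + t) (η t) H) (Metric.ball 0 r) := by
  have h1 : DifferentiableOn ℂ (fun t => (a + t, η t)) (Metric.ball 0 r) :=
    (differentiableOn_id.const_add a).prodMk hη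
  have h2 : Differentiable ℂ (fun v : ℂ × ℂ => pt v.1 v.2 H) :=
    (contDiff_pt H).differentiable one_ne_zero
  exact h2.comp_differentiableOn h1

variable {F : Type*} [Field F] [Algebra ℂ F] [IsFunctionField ℂ F]

/-- a smooth place has a chart -/
theorem Smp.chart {x y : F} {G : ℂ[X][X]} {P : Place ℂ F} (h : Smp x y G P) :
    Nonempty (Chart P) := by
  classical
  obtain ⟨η, r, hr, hη0, hG, hη⟩ := exists_branch h.pt_G h.sm
  set a := value P x with ha
  have hex (t : ℂ) : ∃ Q : Place ℂ F, (t = 0 → Q = P) ∧ (‖t‖ < r →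
      x ∈ Q.toValuationSubring ∧ y ∈ Q.toValuationSubring ∧ value Q x = a + t ∧
        value Q y = η t) := by
    by_cases ht : t = 0
    · subst ht
      exact ⟨P, fun _ => rfl, fun _ => ⟨h.hx, h.hy, by rw [add_zero], hη0.symm⟩⟩
    · by_cases htr : ‖t‖ < r
      · obtain ⟨Q, h1, h2, h3, h4⟩ := h.mdl.exists_place (hG t htr)
        exact ⟨Q, fun e => absurd e ht, fun _ => ⟨h1, h2, h3, h4⟩⟩
      · exact ⟨P, fun _ => rfl, fun e => absurd e htr⟩
  choose Q hQ0 hQ using hex
  have val {t : ℂ} (ht : ‖t‖ < r) (H : ℂ[X][X]) : ev2 x y H ∈ (Q t).toValuationSubring ∧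
      value (Q t) (ev2 x y H) = pt (a + t) (η t) H := by
    obtain ⟨h1, h2, h3, h4⟩ := hQ t ht
    rw [← h3, ← h4]
    exact value_ev2 (Q t) h1 h2 H
  have hu (t : ℂ) (ht : ‖t‖ < r) : x - algebraMap ℂ F a ∈ (Q t).toValuationSubring ∧
      value (Q t) (x - algebraMap ℂ F a) = t := by
    have := val ht (C (X - C a))
    rw [Smp.u_eq, pt_C] at this
    refine ⟨this.1, this.2.trans ?_⟩
    simp
  refine ⟨{ u := x - algebraMap ℂ F a, r := r, r_pos := hr, Q := Q, Q_zero := hQ0 0 rfl,
            ord_u := h.ord_u, u_mem := fun t ht => (hu t ht).1,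
            value_u := fun t ht => (hu t ht).2, reg := ?_ }⟩
  intro f hf
  obtain ⟨A, B, hB, e⟩ := h.reg_form hf
  have dB := differentiableOn_pt hη a B
  have dA := differentiableOn_pt hη a A
  have cB : ContinuousAt (fun t => pt (a + t) (η t) B) 0 :=
    (dB.differentiableAt (Metric.ball_mem_nhds 0 hr)).continuousAt
  have hB0 : (fun t => pt (a + t) (η t) B) 0 ≠ 0 := by
    simp only [add_zero, hη0]
    exact hB
  obtain ⟨δ, hδ, hball⟩ := Metric.eventually_nhds_iff.1 (cB.eventually_ne hB0)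
  have main (t : ℂ) (ht : ‖t‖ < min r δ) : f ∈ (Q t).toValuationSubring ∧
      value (Q t) f = pt (a + t) (η t) A / pt (a + t) (η t) B := by
    have htr : ‖t‖ < r := lt_of_lt_of_le ht (min_le_left _ _)
    have hb : pt (a + t) (η t) B ≠ 0 := hball (by
      rw [dist_zero_right]; exact lt_of_lt_of_le ht (min_le_right _ _))
    obtain ⟨mB, vB⟩ := val htr B
    obtain ⟨mA, vA⟩ := val htr A
    have hv : value (Q t) (ev2 x y B) ≠ 0 := by rw [vB]; exact hb
    obtain ⟨nB, oB⟩ := ord_zero_of_value (Q t) mB hv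
    have hf' : f = ev2 x y A * (ev2 x y B)⁻¹ := by
      rw [← e, mul_assoc, mul_inv_cancel₀ nB, mul_one]
    have hmem : f ∈ (Q t).toValuationSubring := by
      rw [hf']
      refine mul_mem mA ?_
      rw [mem_iff_ord _ (inv_ne_zero nB), (Q t).ord_inv, oB, neg_zero]
    refine ⟨hmem, ?_⟩
    rw [eq_div_iff hb, ← vB, ← vA, ← e, value_mul (Q t) hmem mB]
  refine ⟨min r δ, lt_min hr hδ, fun t ht => (main t ht).1, ?_⟩
  have hsub : Metric.ball (0 : ℂ) (min r δ) ⊆ Metric.ball 0 r :=
    Metric.ball_subset_ball (min_le_left _ _)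
  refine DifferentiableOn.congr ((dA.mono hsub).div (dB.mono hsub) fun t ht => ?_)
    fun t ht => (main t (by simpa using ht)).2
  exact hball (by
    rw [dist_zero_right]
    exact lt_of_lt_of_le (by simpa using ht) (min_le_right _ _))

/-- **(P3-CH)** all but finitely many places have a chart. -/
theorem chartSt (F : Type*) [Field F] [Algebra ℂ F] [IsFunctionField ℂ F] : ChartSt F := by
  obtain ⟨x, y, G, h⟩ := exists_mdl (F := F)
  refine (((finite_support (k := ℂ) x).union (finite_support (k := ℂ) y)).union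
    (finite_zeros (k := ℂ) (ev2 x y (derivative G)))).subset ?_
  intro P hP
  by_contra hcon
  apply hP
  simp only [Set.mem_union, Function.mem_support, ne_eq, Set.mem_setOf_eq, not_or, not_not,
    not_lt] at hcon
  obtain ⟨⟨ox, oy⟩, oG⟩ := hcon
  have mem {z : F} (hz : P.ord z = 0) : z ∈ P.toValuationSubring := by
    by_cases hz0 : z = 0
    · rw [hz0]; exact zero_mem _
    · exact (mem_iff_ord P hz0).2 hz.ge
  have mx := mem ox
  have my := mem oy
  refine Smp.chart (x := x) (y := y) (G := G) ⟨h, mx, my, ?_⟩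
  rw [← (value_ev2 P mx my _).2]
  intro h0
  have := (value_eq_zero_iff_ord P (value_ev2 P mx my _).1 h.sep).1 h0
  omega

end Fermat.Agent.Tor27
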