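import Fermat.Agent.PicFlat.RRDim
import Fermat.Agent.Curves.Affine

/-!
# Nonspecial divisors with distinct generic points
-/

set_option autoImplicit false
set_option linter.unusedSectionVars false

noncomputable section

namespace Fermat.Agent.Tor27

open AlgebraicCurve Fermat.Agent.Curves Fermat.Agent.PicFlat Fermat.Agent.GoodRed

variable {k F : Type*} [Field k] [Field F] [Algebra k F] [IsFunctionField k F] [IsAlgClosed k]

theorem infinite_places_c : (Set.univ : Set (Place k F)).Infinite := by
  obtain ⟨t, ht, -⟩ := IsFunctionField.exists_transcendental (k := k) (F := F)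
  have h1 : ∀ c : k, ∃ w : Place k F, 0 < w.ord (t - algebraMap k F c) := by
    intro c
    refine exists_ord_pos_of_transcendental fun h => ht ?_
    have := h.add (isAlgebraic_algebraMap c)
    rwa [sub_add_cancel] at this
  choose w hw using h1
  have : Infinite k := inferInstance
  refine Set.infinite_of_injective_forall_mem (f := w) (fun c d hcd => ?_) fun c => Set.mem_univ _
  by_contra hne
  have e1 := hw c
  have e2 := hw d
  rw [← hcd] at e2
  have n1 := sub_algebraMap_ne_zero ht c
  have n2 := sub_algebraMap_ne_zero ht d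
  have m1 : (w c).adicValuation (t - algebraMap k F c) < 1 := (val_lt_one_iff _).2 (Or.inr e1)
  have m2 : (w c).adicValuation (t - algebraMap k F d) < 1 := (val_lt_one_iff _).2 (Or.inr e2)
  have m3 : (w c).adicValuation (algebraMap k F (d - c)) < 1 := by
    have : algebraMap k F (d - c) = (t - algebraMap k F c) - (t - algebraMap k F d) := by
      rw [map_sub]; ring
    rw [this]
    exact (Valuation.map_sub _ _ _).trans_lt (max_lt m1 m2)
  rw [val_algebraMap _ (sub_ne_zero.2 (Ne.symm hne))] at m3
  exact lt_irrefl _ m3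

theorem ell_zero_c : ell (0 : Divisor k F) = 1 := by
  have h1 : riemannRochSpace (0 : Divisor k F) = Submodule.span k {1} := by
    refine le_antisymm riemannRochSpace_zero_le ?_
    rw [Submodule.span_singleton_le_iff_mem, mem_iff_of_ne one_ne_zero]
    intro v
    rw [v.ord_one]
    simp
  rw [ell, h1]
  exact finrank_span_singleton one_ne_zero

theorem RR.nonneg {g c : ℤ} (h : RR k F g c) : 0 ≤ g := by
  have := h.le 0
  rw [ell_zero_c, map_zero] at this
  push_cast at this
  omega

theorem exists_of_ell_ne {D : Divisor k F} {P : Place k F}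
    (h : ell (D + Finsupp.single P 1) ≠ ell D) :
    ∃ f ∈ riemannRochSpace (D + Finsupp.single P 1), f ≠ 0 ∧ P.ord f = -(D P + 1) := by
  classical
  by_contra hcon
  push Not at hcon
  apply h
  refine le_antisymm ?_ (ell_mono ?_)
  · refine Submodule.finrank_mono fun f hf => ?_
    rcases eq_or_ne f 0 with rfl | hf0
    · exact Submodule.zero_mem _
    rw [mem_iff_of_ne hf0]
    intro v
    have h3 := (mem_iff_of_ne hf0).1 hf v
    rw [Finsupp.add_apply] at h3
    by_cases hv : v = P
    · subst hv
      have h4 := hcon f hf hf0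
      rw [Finsupp.single_eq_same] at h3
      omega
    · rw [Finsupp.single_eq_of_ne hv] at h3
      omega
  · rw [le_add_iff_nonneg_right, Finsupp.single_nonneg]
    norm_num

/-- many jumps -/
theorem ell_add_sum {D : Divisor k F} (S : Finset (Place k F))
    (hS : ∀ P ∈ S, ell (D + Finsupp.single P 1) ≠ ell D) :
    (ell (D + ∑ P ∈ S, Finsupp.single P 1) : ℤ) = ell D + S.card := by
  classical
  induction S using Finset.induction_on with
  | empty => simp
  | insert P S hP ih =>
    have ih' := ih fun Q hQ => hS Q (Finset.mem_insert_of_mem hQ)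
    obtain ⟨f, hf, hf0, hfP⟩ := exists_of_ell_ne (hS P (Finset.mem_insert_self _ _))
    have e1 : (∑ Q ∈ S, (Finsupp.single Q 1 : Divisor k F)) P = 0 := by
      rw [Finsupp.finsetSum_apply]
      refine Finset.sum_eq_zero fun Q hQ => ?_
      rw [Finsupp.single_eq_of_ne]
      rintro rfl
      exact hP hQ
    have e2 : 0 ≤ ∑ Q ∈ S, (Finsupp.single Q 1 : Divisor k F) :=
      Finset.sum_nonneg fun Q _ => by
        rw [Finsupp.single_nonneg]
        norm_num
    have e3 := ell_sub_single (D := D + ∑ Q ∈ insert P S, Finsupp.single Q 1) (P := P) hf0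
      (by
        refine riemannRochSpace_mono ?_ hf
        rw [Finset.sum_insert hP, ← add_assoc]
        exact le_add_of_nonneg_right e2)
      (by
        rw [hfP, Finset.sum_insert hP, Finsupp.add_apply, Finsupp.add_apply, e1,
          Finsupp.single_eq_same, add_zero])
    rw [e3, Finset.sum_insert hP, Finset.card_insert_of_notMem hP]
    have e4 : D + (Finsupp.single P 1 + ∑ Q ∈ S, Finsupp.single Q 1) - Finsupp.single P 1 =
        D + ∑ Q ∈ S, Finsupp.single Q 1 := by abel
    rw [e4, ih']
    push_cast
    ring

theorem degree_sum_single (S : Finset (Place k F)) :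
    Divisor.degree (∑ P ∈ S, (Finsupp.single P 1 : Divisor k F)) = S.card := by
  rw [map_sum]
  simp_rw [degree_single_one]
  simp

/-- the points where a special divisor jumps are finite in number -/
theorem RR.finite_bad {g c : ℤ} (h : RR k F g c) {D : Divisor k F}
    (hD : (ell D : ℤ) ≠ Divisor.degree D + 1 - g) :
    {P : Place k F | ell (D + Finsupp.single P 1) ≠ ell D}.Finite := by
  classical
  by_contra hinf
  obtain ⟨S, hS, hc⟩ := (Set.Infinite.exists_subset_card_eq hinf (c - Divisor.degree D).toNat)
  have h1 := ell_add_sum S fun P hP => hS hP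
  have h2 := h.eq (D + ∑ P ∈ S, Finsupp.single P 1) (by
    rw [map_add, degree_sum_single, hc]
    have := Int.self_le_toNat (c - Divisor.degree D)
    omega)
  rw [map_add, degree_sum_single] at h2
  omega

/-- nonspeciality is inherited by larger divisors -/
theorem RR.eq_of_le {g c : ℤ} (h : RR k F g c) {D D' : Divisor k F} (hDD' : D ≤ D')
    (hD : (ell D : ℤ) = Divisor.degree D + 1 - g) :
    (ell D' : ℤ) = Divisor.degree D' + 1 - g := by
  have h1 := ell_add_le D (D' - D) (sub_nonneg.2 hDD')
  rw [add_sub_cancel, map_sub] at h1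
  have h2 := h.le D'
  omega

/-- generic points impose independent conditions on differentials -/
theorem RR.exists_points {g c : ℤ} (h : RR k F g c) (n : ℕ) (hn : (n : ℤ) ≤ g)
    {S : Set (Place k F)} (hS : S.Finite) : ∃ P : Fin n → Place k F, Function.Injective P ∧
      (∀ i, P i ∉ S) ∧ ell (∑ i, (Finsupp.single (P i) 1 : Divisor k F)) = 1 := by
  classical
  induction n with
  | zero =>
    refine ⟨Fin.elim0, fun i => i.elim0, fun i => i.elim0, ?_⟩
    simp [ell_zero_c]
  | succ n ih =>
    obtain ⟨P, hP, hPS, hl⟩ := ih (by push_cast at hn; omega)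
    have hdeg : Divisor.degree (∑ i, (Finsupp.single (P i) 1 : Divisor k F)) = n := by
      rw [map_sum]
      simp_rw [degree_single_one]
      simp
    have hfin := RR.finite_bad h (D := ∑ i, (Finsupp.single (P i) 1 : Divisor k F)) (by
      rw [hl, hdeg]
      push_cast at hn ⊢
      omega)
    obtain ⟨Q, -, hQ⟩ := (infinite_places_c (k := k) (F := F)).exists_notMem_finite
      ((hfin.union hS).union (Set.finite_range P))
    simp only [Set.mem_union, not_or, Set.mem_ofPred_eq, not_not, Set.mem_range, not_exists] at hQ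
    obtain ⟨⟨hQ1, hQ2⟩, hQ3⟩ := hQ
    refine ⟨Fin.snoc P Q, ?_, ?_, ?_⟩
    · rw [Fin.snoc_injective_iff]
      exact ⟨hP, by rintro ⟨i, hi⟩; exact hQ3 i hi⟩
    · intro i
      refine Fin.lastCases ?_ (fun i => ?_) i
      · rwa [Fin.snoc_last]
      · rw [Fin.snoc_castSucc]; exact hPS i
    · rw [Fin.sum_univ_castSucc]
      simp only [Fin.snoc_castSucc, Fin.snoc_last]
      rw [hQ1, hl]

/-- the choice of three generic effective divisors of degree `g` -/
theorem RR.choice {g c : ℤ} (h : RR k F g c) {S : Set (Place k F)} (hS : S.Finite) (m : ℕ) :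
    ∃ P : Fin m → Fin g.toNat → Place k F, (∀ j j' i i', P j i = P j' i' → j = j' ∧ i = i') ∧
      (∀ j i, P j i ∉ S) ∧ ∀ j, ell (∑ i, (Finsupp.single (P j i) 1 : Divisor k F)) = 1 := by
  classical
  have hg := RR.nonneg h
  induction m with
  | zero => exact ⟨Fin.elim0, fun j => j.elim0, fun j => j.elim0, fun j => j.elim0⟩
  | succ m ih =>
    obtain ⟨P, h1, h2, h3⟩ := ih
    obtain ⟨Q, q1, q2, q3⟩ := RR.exists_points h g.toNat (by omega)
      (S := S ∪ ⋃ j, Set.range (P j)) (hS.union (Set.finite_iUnion fun j => Set.finite_range _))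
    simp only [Set.mem_union, Set.mem_iUnion, Set.mem_range, not_or, not_exists] at q2
    refine ⟨Fin.snoc P Q, ?_, ?_, ?_⟩
    · intro j j' i i'
      refine Fin.lastCases ?_ (fun j => ?_) j
      · refine Fin.lastCases ?_ (fun j' => ?_) j'
        · rw [Fin.snoc_last]
          intro e
          exact ⟨rfl, q1 e⟩
        · rw [Fin.snoc_last, Fin.snoc_castSucc]
          intro e
          exact absurd e.symm ((q2 i).2 j' i')
      · refine Fin.lastCases ?_ (fun j' => ?_) j'
        · rw [Fin.snoc_last, Fin.snoc_castSucc]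
          intro e
          exact absurd e ((q2 i').2 j i)
        · rw [Fin.snoc_castSucc, Fin.snoc_castSucc]
          intro e
          obtain ⟨rfl, rfl⟩ := h1 _ _ _ _ e
          exact ⟨rfl, rfl⟩
    · intro j i
      refine Fin.lastCases ?_ (fun j => ?_) j
      · rw [Fin.snoc_last]; exact (q2 i).1
      · rw [Fin.snoc_castSucc]; exact h2 j i
    · intro j
      refine Fin.lastCases ?_ (fun j => ?_) j
      · rw [Fin.snoc_last]; exact q3
      · rw [Fin.snoc_castSucc]; exact h3 j

end Fermat.Agent.Tor27
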