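import Fermat.Agent.PicFlat.RRDim
import Fermat.Agent.Curves.Affine

/-!
# Analytic charts on the set of places of a function field over `ℂ`
-/

set_option autoImplicit false

noncomputable section

namespace Fermat.Agent.Tor27

open AlgebraicCurve Fermat.Agent.Curves Fermat.Agent.PicFlat

variable {F : Type*} [Field F] [Algebra ℂ F] [IsFunctionField ℂ F]

/-- An analytic chart at a place `P`: a family of places `Q t`, `‖t‖ < r`, with `Q 0 = P`,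
a uniformizer `u` at `P` with `u (Q t) = t`, every function regular at `P` being
regular and analytic near `P`. -/
structure Chart (P : Place ℂ F) where
  /-- the coordinate -/
  u : F
  /-- the radius -/
  r : ℝ
  r_pos : 0 < r
  /-- the family of places -/
  Q : ℂ → Place ℂ F
  Q_zero : Q 0 = P
  ord_u : P.ord u = 1
  u_mem : ∀ t, ‖t‖ < r → u ∈ (Q t).toValuationSubring
  value_u : ∀ t, ‖t‖ < r → value (Q t) u = t
  reg : ∀ f ∈ P.toValuationSubring, ∃ δ > 0, (∀ t, ‖t‖ < δ → f ∈ (Q t).toValuationSubring) ∧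
    DifferentiableOn ℂ (fun t => value (Q t) f) (Metric.ball 0 δ)

/-- (P3-CH) all but finitely many places have a chart. -/
def ChartSt (F : Type*) [Field F] [Algebra ℂ F] [IsFunctionField ℂ F] : Prop :=
  {P : Place ℂ F | ¬ Nonempty (Chart P)}.Finite

/-- (P3-AN1) local inversion with parameters. -/
def AN1St : Prop := ∀ (κ : Type) [Fintype κ] (H : κ → ℂ → ℂ) (δ : ℝ), 0 < δ →
  (∀ k, DifferentiableOn ℂ (H k) (Metric.ball 0 δ)) →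
  ∃ τ : (κ → ℂ) → ℂ, τ 0 = 0 ∧ ContDiffAt ℂ 2 τ 0 ∧
    HasFDerivAt τ (-∑ k, H k 0 • ContinuousLinearMap.proj (R := ℂ) (φ := fun _ : κ => ℂ) k) 0 ∧
    (∃ ρ > 0, ∀ c, ‖c‖ < ρ → τ c + ∑ k, c k * H k (τ c) = 0) ∧
    ∃ ρ > 0, ∀ c t, ‖c‖ < ρ → ‖t‖ < ρ → t + ∑ k, c k * H k t = 0 → t = τ c

/-- (P3-AN2) the local group law: three families related by `∑ ψ j (τ j c) = 0`. -/
def AN2St : Prop := ∀ (E V J : Type) [NormedAddCommGroup E] [NormedSpace ℂ E]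
  [FiniteDimensional ℂ E] [NormedAddCommGroup V] [NormedSpace ℂ V] [FiniteDimensional ℂ V]
  [AddCommGroup J] (ψ : Fin 3 → E → J) (_ : ∀ j, ψ j 0 = 0)
  (τ : V → Fin 3 → E) (_ : τ 0 = 0) (_ : ContDiffAt ℂ 2 τ 0)
  (τ' : V →L[ℂ] (Fin 3 → E)) (_ : HasFDerivAt τ τ' 0)
  (_ : ∀ j v, (∀ k, k ≠ j → τ' v k = 0) → v = 0)
  (_ : Module.finrank ℂ V = 2 * Module.finrank ℂ E)
  (ρ : ℝ) (_ : 0 < ρ) (_ : ∀ v, ‖v‖ < ρ → ∑ j, ψ j (τ v j) = 0),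
  (∀ j, ∃ r C : ℝ, 0 < r ∧ 0 < C ∧ ∀ x y : E, ‖x‖ < r → ‖y‖ < r →
    ∃ h : E, ψ j h = ψ j y - ψ j x ∧ ‖h - (y - x)‖ ≤ C * (‖x‖ + ‖y‖) * ‖y - x‖) ∧
  (∀ j k, j ≠ k → ∀ ε > 0, ∃ δ > 0, ∀ x, ‖x‖ < δ → ∃ y, ‖y‖ < ε ∧ ψ k y = -ψ j x) ∧
  (∀ j, ∀ ε > 0, ∃ δ > 0, ∀ x, ‖x‖ < δ → ∃ v, ‖v‖ < ε ∧ τ v j = x ∧
    ∃ k, k ≠ j ∧ τ v k = 0)

end Fermat.Agent.Tor27
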