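import Fermat.Agent.Tor27.AT

/-!
# Tori from local group laws: the exponential map
-/

set_option autoImplicit false
set_option linter.unusedSectionVars false

noncomputable section

namespace Fermat.Agent.Tor27

variable {E J : Type*} [NormedAddCommGroup E] [NormedSpace ℝ E] [AddCommGroup J]

/-- the approximating sequence of the exponential -/
def apx (ψ : E → J) (v : E) (k : ℕ) : J := (2 ^ k : ℕ) • ψ (((2 : ℝ) ^ k)⁻¹ • v)

lemma norm_half (v : E) (k : ℕ) : ‖((2 : ℝ) ^ k)⁻¹ • v‖ = ‖v‖ / 2 ^ k := by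
  rw [norm_smul, norm_inv, norm_pow, Real.norm_ofNat, div_eq_inv_mul]

lemma IsLim.shift {ψ : E → J} {a : ℕ → J} {L : J} (K : ℕ) (h : IsLim ψ (fun k => a (K + k)) L) :
    IsLim ψ a L := by
  intro ε hε
  obtain ⟨N, hN⟩ := h ε hε
  refine ⟨K + N, fun k hk => ?_⟩
  have h1 : Small ψ ε (L - a (K + (k - K))) := hN (k - K) (by omega)
  rwa [show K + (k - K) = k by omega] at h1

namespace Dat

variable {ψ : E → J} {ρ C : ℝ} (D : Dat ψ ρ C)

include D

lemma small_pow {A : ℝ} (hA : 0 ≤ A) {k : ℕ} {j : J} (h : Small ψ (A / 4 ^ k) j)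
    (hk : 2 * A / 2 ^ k < ρ) : Small ψ (4 * A / 2 ^ k) (-((2 ^ k : ℕ) • j)) := by
  have e : 2 * (((2 ^ k : ℕ) : ℕ) : ℝ) * (A / 4 ^ k) = 2 * A / 2 ^ k := by
    have h4 : (4 : ℝ) ^ k = 2 ^ k * 2 ^ k := by rw [← mul_pow]; norm_num
    push_cast
    rw [h4]
    field_simp
  have h1 : A / 4 ^ k ≤ 2 * A / 2 ^ k := by
    rw [← e]
    have h0 : (0 : ℝ) ≤ A / 4 ^ k := by positivity
    have h2 : (1 : ℝ) ≤ ((2 ^ k : ℕ) : ℝ) := by exact_mod_cast Nat.one_le_two_pow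
    nlinarith
  have h2 := D.small_nsmul h (by positivity) (2 ^ k) (by rw [e]; exact hk) (h1.trans_lt hk)
  rw [e] at h2
  have h3 := D.small_neg h2 hk
  refine h3.mono (le_of_eq (by ring))

lemma apx_step {v : E} {k : ℕ} (h1 : ‖v‖ / 2 ^ (k + 1) < ρ) (h2 : 12 * C * ‖v‖ ^ 2 / 2 ^ k < ρ) :
    Small ψ (24 * C * ‖v‖ ^ 2 / 2 ^ k) (apx ψ v (k + 1) - apx ψ v k) := by
  have hC := D.Cpos
  set x : E := ((2 : ℝ) ^ (k + 1))⁻¹ • v with hx
  have hxn : ‖x‖ = ‖v‖ / 2 ^ (k + 1) := norm_half v (k + 1)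
  have hxx : x + x = ((2 : ℝ) ^ k)⁻¹ • v := by
    rw [← two_smul ℝ x, hx, smul_smul, pow_succ]
    congr 1
    field_simp
  obtain ⟨h, e1, e2⟩ := D.defect (x := x) (y := x) (by rw [hxn]; exact h1) (by rw [hxn]; exact h1)
  have e3 : ‖h‖ ≤ 6 * C * ‖v‖ ^ 2 / 4 ^ k := by
    refine e2.trans (le_of_eq ?_)
    have h4 : (4 : ℝ) ^ k = 2 ^ k * 2 ^ k := by rw [← mul_pow]; norm_num
    rw [hxn, h4, pow_succ]
    field_simp
    ring
  have e4 := D.small_pow (A := 6 * C * ‖v‖ ^ 2) (by positivity) (k := k) ⟨h, e3, rfl⟩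
    (by convert h2 using 1; ring)
  have e5 : apx ψ v (k + 1) - apx ψ v k = -((2 ^ k : ℕ) • ψ h) := by
    rw [apx, apx, ← hx, ← hxx, e1, pow_succ, mul_smul, two_smul, smul_sub, smul_sub, smul_add]
    abel
  rw [e5]
  exact e4.mono (le_of_eq (by ring))

/-- choice of a shift -/
lemma exists_shift (v : E) : ∃ K : ℕ, ‖v‖ / 2 ^ K < ρ ∧ 96 * C * ‖v‖ ^ 2 / 2 ^ K < ρ := by
  have hρ := D.ρpos
  have hC := D.Cpos
  obtain ⟨K, hK⟩ := exists_pow_lt_of_lt_one
    (show (0 : ℝ) < ρ / (‖v‖ + 96 * C * ‖v‖ ^ 2 + 1) by positivity)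
    (show (1 / 2 : ℝ) < 1 by norm_num)
  rw [lt_div_iff₀ (by positivity), one_div, inv_pow, ← div_eq_inv_mul,
    div_lt_iff₀ (by positivity)] at hK
  refine ⟨K, ?_, ?_⟩
  · rw [div_lt_iff₀ (by positivity)]
    have : 0 ≤ C * ‖v‖ ^ 2 := by positivity
    linarith
  · rw [div_lt_iff₀ (by positivity)]
    have : 0 ≤ ‖v‖ := norm_nonneg _
    linarith

variable [CompleteSpace E]

lemma exists_lim (v : E) (K : ℕ) (h1 : ‖v‖ / 2 ^ K < ρ) (h2 : 96 * C * ‖v‖ ^ 2 / 2 ^ K < ρ) :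
    ∃ s : E, ‖s‖ ≤ 96 * C * ‖v‖ ^ 2 / 2 ^ K ∧ IsLim ψ (apx ψ v) (apx ψ v K + ψ s) := by
  have hρ := D.ρpos
  have hC := D.Cpos
  have h3 : ∀ k, Small ψ (24 * C * ‖v‖ ^ 2 / 2 ^ K / 2 ^ k)
      (apx ψ v (K + (k + 1)) - apx ψ v (K + k)) := by
    intro k
    have e1 : ‖v‖ / 2 ^ (K + k + 1) < ρ := by
      refine lt_of_le_of_lt ?_ h1
      exact div_le_div_of_nonneg_left (norm_nonneg _) (by positivity)
        (pow_le_pow_right₀ (by norm_num) (by omega))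
    have e2 : 12 * C * ‖v‖ ^ 2 / 2 ^ (K + k) < ρ := by
      refine lt_of_le_of_lt ?_ h2
      refine div_le_div₀ (by positivity) ?_ (by positivity)
        (pow_le_pow_right₀ (by norm_num) (by omega))
      have : 0 ≤ C * ‖v‖ ^ 2 := by positivity
      linarith
    have e3 := D.apx_step e1 e2
    rw [div_div, ← pow_add, ← add_assoc]
    exact e3
  obtain ⟨s, hs, hs'⟩ := D.complete (a := fun k => apx ψ v (K + k))
    (M := 24 * C * ‖v‖ ^ 2 / 2 ^ K) (by positivity)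
    (by rw [← mul_div_assoc]; convert h2 using 2; ring) h3
  refine ⟨s, hs.trans (le_of_eq (by ring)), IsLim.shift K ?_⟩
  simpa using hs'

/-- the exponential map (as a function) -/
def expf (v : E) : J :=
  (D.exists_lim v (D.exists_shift v).choose (D.exists_shift v).choose_spec.1
    (D.exists_shift v).choose_spec.2).choose |> ψ |> (apx ψ v (D.exists_shift v).choose + ·)

lemma isLim_expf (v : E) : IsLim ψ (apx ψ v) (D.expf v) :=
  (D.exists_lim v (D.exists_shift v).choose (D.exists_shift v).choose_spec.1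
    (D.exists_shift v).choose_spec.2).choose_spec.2

lemma expf_add (v w : E) : D.expf (v + w) = D.expf v + D.expf w := by
  have hρ := D.ρpos
  have hC := D.Cpos
  refine D.lim_unique (D.isLim_expf (v + w)) (D.lim_add (D.isLim_expf v) (D.isLim_expf w) ?_)
  intro ε hε
  set A : ℝ := 6 * C * (‖v‖ + ‖w‖) ^ 2 with hA
  have hA0 : 0 ≤ A := by positivity
  obtain ⟨K, hK⟩ := exists_pow_lt_of_lt_one
    (show (0 : ℝ) < (min ρ ε) / (‖v‖ + ‖w‖ + 4 * A + 1) by positivity)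
    (show (1 / 2 : ℝ) < 1 by norm_num)
  rw [lt_div_iff₀ (by positivity), one_div, inv_pow, ← div_eq_inv_mul] at hK
  have m1 := min_le_left ρ ε
  have m2 := min_le_right ρ ε
  refine ⟨K, fun k hk => ?_⟩
  have hk' : (‖v‖ + ‖w‖ + 4 * A + 1) / 2 ^ k < min ρ ε := by
    refine lt_of_le_of_lt ?_ hK
    exact div_le_div_of_nonneg_left (by positivity) (by positivity)
      (pow_le_pow_right₀ (by norm_num) (by omega))
  rw [div_lt_iff₀ (by positivity)] at hk'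
  have n1 := norm_nonneg v
  have n2 := norm_nonneg w
  have p : (0 : ℝ) < 2 ^ k := by positivity
  have hv : ‖((2 : ℝ) ^ k)⁻¹ • v‖ < ρ := by
    rw [norm_half, div_lt_iff₀ (by positivity)]
    nlinarith
  have hw : ‖((2 : ℝ) ^ k)⁻¹ • w‖ < ρ := by
    rw [norm_half, div_lt_iff₀ (by positivity)]
    nlinarith
  obtain ⟨h, e1, e2⟩ := D.defect hv hw
  have e3 : ‖h‖ ≤ A / 4 ^ k := by
    refine e2.trans (le_of_eq ?_)
    have h4 : (4 : ℝ) ^ k = 2 ^ k * 2 ^ k := by rw [← mul_pow]; norm_num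
    rw [norm_half, norm_half, h4, hA]
    field_simp
  have e4 := D.small_pow (A := A) hA0 (k := k) ⟨h, e3, rfl⟩
    (by rw [div_lt_iff₀ (by positivity)]; nlinarith)
  have e5 : apx ψ v k + apx ψ w k - apx ψ (v + w) k = -((2 ^ k : ℕ) • ψ h) := by
    rw [apx, apx, apx, smul_add ((2 : ℝ) ^ k)⁻¹, e1, smul_sub, smul_sub]
    abel
  rw [e5]
  refine e4.mono ?_
  rw [div_le_iff₀ (by positivity)]
  nlinarith

/-- the exponential map -/
def exp : E →+ J where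
  toFun := D.expf
  map_zero' := by
    have := D.expf_add 0 0
    rw [add_zero] at this
    exact left_eq_add.mp this
  map_add' := D.expf_add

lemma isLim_exp (v : E) : IsLim ψ (apx ψ v) (D.exp v) := D.isLim_expf v

lemma exp_small {v : E} (hv : ‖v‖ ≤ ρ / 32) : ∃ s : E, ‖s‖ ≤ 96 * C * ‖v‖ ^ 2 ∧
    D.exp v = ψ v + ψ s := by
  have hρ := D.ρpos
  have hC := D.Cpos
  have hs := D.small
  have h0 := norm_nonneg v
  have e1 : C * ‖v‖ ≤ 1 / 1024 := by nlinarith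
  obtain ⟨s, h1, h2⟩ := D.exists_lim v 0 (by rw [pow_zero, div_one]; linarith)
    (by rw [pow_zero, div_one]; nlinarith)
  rw [pow_zero, div_one] at h1
  refine ⟨s, h1, ?_⟩
  have := D.lim_unique (D.isLim_exp v) h2
  rw [this, apx, pow_zero, pow_zero, inv_one, one_smul, one_smul]

lemma exp_eq_ψ {v : E} (hv : ‖v‖ ≤ ρ / 32) : ∃ w : E, ‖w - v‖ ≤ 1 / 2 * ‖v‖ ∧ D.exp v = ψ w := by
  have hρ := D.ρpos
  have hC := D.Cpos
  have hs := D.small
  have h0 := norm_nonneg v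
  have e1 : C * ‖v‖ ≤ 1 / 1024 := by nlinarith
  obtain ⟨s, h1, h2⟩ := D.exp_small hv
  have e2 : 96 * C * ‖v‖ ^ 2 ≤ 96 / 1024 * ‖v‖ := by nlinarith
  obtain ⟨w, h3, h4, -⟩ := D.add (s := v) (δ := s) (by linarith) (by linarith)
  exact ⟨w, by linarith, by rw [h2, h3]⟩

lemma eq_zero_of_exp {v : E} (hv : ‖v‖ ≤ ρ / 32) (h : D.exp v = 0) : v = 0 := by
  have hρ := D.ρpos
  obtain ⟨w, h1, h2⟩ := D.exp_eq_ψ hv
  have h3 : ‖w‖ ≤ ‖w - v‖ + ‖v‖ := by
    have := norm_add_le (w - v) v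
    rwa [sub_add_cancel] at this
  have h4 : w = 0 := D.inj _ _ (by linarith) (by rw [norm_zero]; linarith)
    (by rw [← h2, h, D.zero])
  rw [h4, zero_sub, norm_neg] at h1
  have h5 : ‖v‖ ≤ 0 := by linarith [norm_nonneg v]
  rwa [norm_le_zero_iff] at h5

/-- Newton step -/
lemma newton_step {x : E} (hx : ‖x‖ ≤ ρ / 32) : ∃ y : E, ‖y‖ ≤ 1 / 2 * ‖x‖ ∧
    ψ x = D.exp x + ψ y := by
  have hρ := D.ρpos
  have hC := D.Cpos
  have hs := D.small
  have h0 := norm_nonneg x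
  have e1 : C * ‖x‖ ≤ 1 / 1024 := by nlinarith
  obtain ⟨s, h1, h2⟩ := D.exp_small hx
  have e2 : 96 * C * ‖x‖ ^ 2 ≤ 96 / 1024 * ‖x‖ := by nlinarith
  obtain ⟨y, h3, -, h4⟩ := D.neg (x := s) (by linarith)
  exact ⟨y, by linarith, by rw [h2, h3]; abel⟩

/-- `ψ` is `exp` locally -/
lemma ψ_eq_exp {x : E} (hx : ‖x‖ ≤ ρ / 128) : ∃ X : E, ‖X‖ ≤ 2 * ‖x‖ ∧ ψ x = D.exp X := by
  have hρ := D.ρpos
  have hex : ∀ x : E, ∃ y : E, ‖x‖ ≤ ρ / 32 → ‖y‖ ≤ 1 / 2 * ‖x‖ ∧ ψ x = D.exp x + ψ y := by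
    intro x
    by_cases hx : ‖x‖ ≤ ρ / 32
    · obtain ⟨y, hy⟩ := D.newton_step hx
      exact ⟨y, fun _ => hy⟩
    · exact ⟨0, fun h => absurd h hx⟩
  choose nx hnx using hex
  let u : ℕ → E := fun k => nx^[k] x
  have hu0 : u 0 = x := rfl
  have hus : ∀ k, u (k + 1) = nx (u k) := fun k => Function.iterate_succ_apply' _ _ _
  have hub : ∀ k, ‖u k‖ ≤ ‖x‖ / 2 ^ k := by
    intro k
    induction k with
    | zero => rw [hu0, pow_zero, div_one]
    | succ k ih =>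
      have h1 : ‖u k‖ ≤ ρ / 32 := by
        have : ‖x‖ / 2 ^ k ≤ ‖x‖ := div_le_self (norm_nonneg _) (one_le_pow₀ (by norm_num))
        linarith
      have h2 := (hnx _ h1).1
      rw [← hus] at h2
      rw [pow_succ, ← div_div]
      linarith
  have hus' : ∀ k, ‖u k‖ ≤ ρ / 128 := by
    intro k
    have : ‖x‖ / 2 ^ k ≤ ‖x‖ := div_le_self (norm_nonneg _) (one_le_pow₀ (by norm_num))
    linarith [hub k]
  let S : ℕ → E := fun k => ∑ i ∈ Finset.range k, u i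
  have hψ : ∀ k, ψ x = D.exp (S k) + ψ (u k) := by
    intro k
    induction k with
    | zero => simp [S, hu0]
    | succ k ih =>
      have h2 := (hnx (u k) (by linarith [hus' k])).2
      rw [← hus] at h2
      rw [ih, h2]
      simp only [S]
      rw [Finset.sum_range_succ, map_add]
      abel
  have hd : ∀ k, dist (S k) (S (k + 1)) ≤ 2 * ‖x‖ / 2 / 2 ^ k := by
    intro k
    rw [dist_comm, dist_eq_norm]
    have : S (k + 1) - S k = u k := by
      simp only [S]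
      rw [Finset.sum_range_succ]
      abel
    rw [this]
    refine (hub k).trans (le_of_eq ?_)
    ring
  obtain ⟨X, hX⟩ := cauchySeq_tendsto_of_complete (cauchySeq_of_le_geometric_two hd)
  have hXd : ∀ k, ‖X - S k‖ ≤ 2 * ‖x‖ / 2 ^ k := by
    intro k
    have := dist_le_of_le_geometric_two_of_tendsto hd hX k
    rwa [dist_comm, dist_eq_norm] at this
  refine ⟨X, ?_, ?_⟩
  · have := hXd 0
    simpa [S] using this
  · rw [← sub_eq_zero]
    refine D.small_eq_zero fun ε hε => ?_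
    obtain ⟨k, hk⟩ := exists_pow_lt_of_lt_one
      (show (0 : ℝ) < (min ρ ε) / (16 * ‖x‖ + 1) by positivity)
      (show (1 / 2 : ℝ) < 1 by norm_num)
    rw [lt_div_iff₀ (by positivity), one_div, inv_pow, ← div_eq_inv_mul] at hk
    have m1 := min_le_left ρ ε
    have m2 := min_le_right ρ ε
    rw [div_lt_iff₀ (by positivity)] at hk
    have p : (0 : ℝ) < 2 ^ k := by positivity
    have h0 := norm_nonneg x
    have h1 : ‖x‖ / 2 ^ k ≤ (min ρ ε) / 16 := by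
      rw [div_le_div_iff₀ (by positivity) (by positivity)]
      linarith
    have h2 := hXd k
    have h3 := hub k
    rw [mul_div_assoc] at h2
    have h4 := hus' k
    have h5 : 2 * (‖x‖ / 2 ^ k) ≤ ρ / 32 := by
      have : ‖x‖ / 2 ^ k ≤ ‖x‖ := div_le_self (norm_nonneg _) (one_le_pow₀ (by norm_num))
      linarith
    obtain ⟨w, w1, w2⟩ := D.exp_eq_ψ (v := X - S k) (h2.trans h5)
    have w3 : ‖w‖ ≤ ‖w - (X - S k)‖ + ‖X - S k‖ := by
      have := norm_add_le (w - (X - S k)) (X - S k)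
      rwa [sub_add_cancel] at this
    have w4 : ‖w‖ ≤ 3 * (‖x‖ / 2 ^ k) := by linarith
    obtain ⟨z, z1, -, -, z2⟩ := D.sub' (x := w) (y := u k) (by linarith) (by linarith)
    have z3 : ‖u k - w‖ ≤ ‖u k‖ + ‖w‖ := norm_sub_le _ _
    refine ⟨z, by linarith, ?_⟩
    rw [z1, ← w2, hψ k, map_sub]
    abel

end Dat

end Fermat.Agent.Tor27
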