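import Fermat.Agent.Tor27.Open

/-!
# Compactness and generation of the group of divisor classes
-/

set_option autoImplicit false
set_option linter.unusedSectionVars false
set_option linter.style.haveILetI false

noncomputable section

namespace Fermat.Agent.Tor27

open AlgebraicCurve Fermat.Agent.Curves Fermat.Agent.PicFlat Topology Filter

section Pic

variable {k F : Type*} [Field k] [Field F] [Algebra k F] [IsFunctionField k F] [IsAlgClosed k]

/-- the class of a difference of places -/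
def dP (P R : Place k F) : Pic0 k F :=
  Pic0.mk ⟨Finsupp.single P 1 - Finsupp.single R 1, by
    rw [Divisor.mem_degZero, map_sub, degree_single_one, degree_single_one, sub_self]⟩

theorem dP_self (P : Place k F) : dP P P = 0 := by
  rw [dP, ← Pic0.mk_zero]
  congr 1
  exact Subtype.ext (sub_self _)

theorem dP_add (P Q R : Place k F) : dP P Q + dP Q R = dP P R := by
  rw [dP, dP, ← Pic0.mk_add]
  rw [dP]
  congr 1
  apply Subtype.ext
  change (Finsupp.single P 1 - Finsupp.single Q 1 : Divisor k F) +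
    (Finsupp.single Q 1 - Finsupp.single R 1) = _
  exact sub_add_sub_cancel _ _ _

theorem mk_sum7 {ι : Type*} (s : Finset ι) (D : ι → Divisor.degZero (K := k) (F := F)) :
    Pic0.mk (∑ i ∈ s, D i) = ∑ i ∈ s, Pic0.mk (D i) := by
  classical
  induction s using Finset.induction_on with
  | empty => simp
  | insert a s ha ih => rw [Finset.sum_insert ha, Finset.sum_insert ha, Pic0.mk_add, ih]

/-- effective divisors are sums of places -/
theorem exists_points : ∀ (m : ℕ) (E : Divisor k F), 0 ≤ E → Divisor.degree E = m →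
    ∃ p : Fin m → Place k F, E = ∑ i, Finsupp.single (p i) 1 := by
  classical
  intro m
  induction m with
  | zero =>
    intro E hE hd
    refine ⟨Fin.elim0, ?_⟩
    rw [Finset.univ_eq_empty, Finset.sum_empty]
    by_contra hne
    obtain ⟨P, hP⟩ := Finsupp.ne_iff.1 hne
    have hP1 : 1 ≤ E P := by
      have := hE P
      rw [Finsupp.zero_apply] at hP this
      omega
    have h1 : 0 ≤ E - Finsupp.single P 1 := by
      intro v
      rw [Finsupp.sub_apply, Finsupp.zero_apply]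
      by_cases hv : v = P
      · subst hv
        rw [Finsupp.single_eq_same]; omega
      · rw [Finsupp.single_eq_of_ne hv, sub_zero]
        exact hE v
    have h2 := pos_of_nonneg_degree _ h1
    rw [map_sub, degree_single_one, hd] at h2
    norm_num at h2
  | succ m ih =>
    intro E hE hd
    have hne : E ≠ 0 := by
      rintro rfl
      rw [map_zero] at hd
      omega
    obtain ⟨P, hP⟩ := Finsupp.ne_iff.1 hne
    have hP1 : 1 ≤ E P := by
      have := hE P
      rw [Finsupp.zero_apply] at hP this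
      omega
    have h1 : 0 ≤ E - Finsupp.single P 1 := by
      intro v
      rw [Finsupp.sub_apply, Finsupp.zero_apply]
      by_cases hv : v = P
      · subst hv
        rw [Finsupp.single_eq_same]; omega
      · rw [Finsupp.single_eq_of_ne hv, sub_zero]
        exact hE v
    obtain ⟨p, hp⟩ := ih (E - Finsupp.single P 1) h1 (by
      rw [map_sub, degree_single_one, hd]; push_cast; ring)
    refine ⟨Fin.cons P p, ?_⟩
    rw [Fin.sum_univ_succ]
    simp only [Fin.cons_zero, Fin.cons_succ]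
    rw [← hp]
    abel

/-- every class is a sum of boundedly many differences -/
theorem exists_sum {g c : ℤ} (rr : RR k F g c) (P₀ : Place k F) : ∃ m : ℕ, ∀ x : Pic0 k F,
    ∃ p : Fin m → Place k F, x = ∑ i, dP (p i) P₀ := by
  refine ⟨g.toNat, fun x => ?_⟩
  obtain ⟨⟨D, hD⟩, rfl⟩ := Pic0.mk_surjective x
  rw [Divisor.mem_degZero] at hD
  have h1 : 0 < ell (D + Finsupp.single P₀ (g.toNat : ℤ)) := by
    have h2 := rr.le (D + Finsupp.single P₀ (g.toNat : ℤ))
    rw [map_add, hD, degree_single_one] at h2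
    have h3 := Int.self_le_toNat g
    omega
  obtain ⟨f, hf0, hf⟩ := Fermat.Agent.GoodRed.exists_mem_of_finrank_pos h1
  obtain ⟨p, hp⟩ := exists_points g.toNat _ hf (by
    rw [map_add, degree_divisorOf, map_add, hD, degree_single_one, zero_add, zero_add])
  refine ⟨p, ?_⟩
  simp only [dP]
  rw [← mk_sum7]
  refine QuotientAddGroup.eq.2 ?_
  rw [AddSubgroup.mem_addSubgroupOf]
  refine ⟨f, hf0, fun v => ?_⟩
  have h4 : ((∑ i, (⟨Finsupp.single (p i) 1 - Finsupp.single P₀ 1, by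
      rw [Divisor.mem_degZero, map_sub, degree_single_one, degree_single_one, sub_self]⟩ :
      Divisor.degZero (K := k) (F := F)) : Divisor.degZero (K := k) (F := F)) : Divisor k F) =
      divisorOf f + D := by
    rw [AddSubgroup.val_finsetSum, Finset.sum_sub_distrib, ← hp, Finset.sum_const,
      Finset.card_univ, Fintype.card_fin, Finsupp.smul_single, nsmul_eq_mul, mul_one]
    abel
  change (-D + _ : Divisor k F) v = _
  rw [h4]
  have h5 : (-D + (divisorOf f + D) : Divisor k F) = divisorOf f := by abel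
  change (-D + (divisorOf f + D) : Divisor k F) v = _
  rw [h5]
  rfl

theorem closure_top {g c : ℤ} (rr : RR k F g c) (P₀ : Place k F) {H : AddSubgroup (Pic0 k F)}
    (h : ∀ P, dP P P₀ ∈ H) : H = ⊤ := by
  obtain ⟨m, hm⟩ := exists_sum rr P₀
  rw [eq_top_iff]
  intro x _
  obtain ⟨p, rfl⟩ := hm x
  exact sum_mem fun i _ => h _

end Pic

section Small

variable {E J : Type*} [NormedAddCommGroup E] [NormedSpace ℝ E] [AddCommGroup J] {ψ : E → J}
  (H1 : ∃ r C : ℝ, 0 < r ∧ 0 < C ∧ ∀ x y : E, ‖x‖ < r → ‖y‖ < r →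
    ∃ h : E, ψ h = ψ y - ψ x ∧ ‖h - (y - x)‖ ≤ C * (‖x‖ + ‖y‖) * ‖y - x‖)

include H1 in
theorem psi_zero7 : ψ 0 = 0 := by
  obtain ⟨r, C, hr, hC, h⟩ := H1
  obtain ⟨x, hx, hx'⟩ := h 0 0 (by rwa [norm_zero]) (by rwa [norm_zero])
  rw [sub_self, norm_zero, mul_zero, sub_zero] at hx'
  have : x = 0 := norm_le_zero_iff.1 hx'
  rw [this, sub_self] at hx
  exact hx

include H1 in
theorem small_sub7 {ε : ℝ} (hε : 0 < ε) : ∃ δ > 0, ∀ x y : E, ‖x‖ < δ → ‖y‖ < δ →
    ∃ h : E, ‖h‖ < ε ∧ ψ h = ψ y - ψ x := by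
  obtain ⟨r, C, hr, hC, h⟩ := H1
  refine ⟨min (min r 1) (ε / (2 * (1 + 2 * C))), by positivity, fun x y hx hy => ?_⟩
  have hx1 := hx.trans_le ((min_le_left _ _).trans (min_le_left _ _))
  have hy1 := hy.trans_le ((min_le_left _ _).trans (min_le_left _ _))
  have hx2 := hx.trans_le ((min_le_left _ _).trans (min_le_right _ _))
  have hy2 := hy.trans_le ((min_le_left _ _).trans (min_le_right _ _))
  have hx3 := hx.trans_le (min_le_right _ _)
  have hy3 := hy.trans_le (min_le_right _ _)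
  obtain ⟨z, hz, hz'⟩ := h x y hx1 hy1
  refine ⟨z, ?_, hz⟩
  have h1 : ‖z‖ ≤ ‖z - (y - x)‖ + ‖y - x‖ := by
    have := norm_add_le (z - (y - x)) (y - x)
    rwa [sub_add_cancel] at this
  have h2 : ‖y - x‖ < 2 * (ε / (2 * (1 + 2 * C))) := by
    have := norm_sub_le y x
    linarith
  have h3 : C * (‖x‖ + ‖y‖) * ‖y - x‖ ≤ 2 * C * ‖y - x‖ := by
    refine mul_le_mul_of_nonneg_right ?_ (norm_nonneg _)
    have : ‖x‖ + ‖y‖ ≤ 2 := by linarith
    nlinarith
  have h4 : 2 * (ε / (2 * (1 + 2 * C))) * (1 + 2 * C) = ε := by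
    have : (1 + 2 * C) ≠ 0 := by positivity
    field_simp
  have h5 : ‖y - x‖ * (1 + 2 * C) < ε := by
    rw [← h4]
    exact mul_lt_mul_of_pos_right h2 (by positivity)
  linarith

include H1 in
theorem small_add7 {ε : ℝ} (hε : 0 < ε) : ∃ δ > 0, ∀ x y : E, ‖x‖ < δ → ‖y‖ < δ →
    ∃ h : E, ‖h‖ < ε ∧ ψ h = ψ x + ψ y := by
  obtain ⟨δ, hδ, h⟩ := small_sub7 H1 hε
  obtain ⟨δ', hδ', h'⟩ := small_sub7 H1 hδ
  refine ⟨min δ δ', lt_min hδ hδ', fun x y hx hy => ?_⟩
  obtain ⟨z, hz, hz'⟩ := h' y 0 (hy.trans_le (min_le_right _ _)) (by rwa [norm_zero])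
  rw [psi_zero7 H1, zero_sub] at hz'
  obtain ⟨w, hw, hw'⟩ := h z x hz (hx.trans_le (min_le_left _ _))
  exact ⟨w, hw, by rw [hw', hz', sub_neg_eq_add]⟩

include H1 in
theorem small_sum7 (m : ℕ) : ∀ {ε : ℝ}, 0 < ε → ∃ δ > 0, ∀ x : Fin m → E, (∀ i, ‖x i‖ < δ) →
    ∃ h : E, ‖h‖ < ε ∧ ψ h = ∑ i, ψ (x i) := by
  induction m with
  | zero =>
    intro ε hε
    exact ⟨1, one_pos, fun x _ => ⟨0, by rwa [norm_zero], by
      rw [psi_zero7 H1, Finset.univ_eq_empty, Finset.sum_empty]⟩⟩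
  | succ m ih =>
    intro ε hε
    obtain ⟨δ, hδ, h⟩ := small_add7 H1 hε
    obtain ⟨δ', hδ', h'⟩ := ih hδ
    refine ⟨min δ δ', lt_min hδ hδ', fun x hx => ?_⟩
    obtain ⟨z, hz, hz'⟩ := h' (fun i => x i.succ) fun i => (hx _).trans_le (min_le_right _ _)
    obtain ⟨w, hw, hw'⟩ := h (x 0) z ((hx 0).trans_le (min_le_left _ _)) hz
    exact ⟨w, hw, by rw [hw', hz', Fin.sum_univ_succ]⟩

end Small

section Main

variable {F : Type*} [Field F] [Algebra ℂ F] [IsFunctionField ℂ F]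
  {E : Type*} [NormedAddCommGroup E] [NormedSpace ℝ E] {ψ : E → Pic0 ℂ F}
  (H1 : ∃ r C : ℝ, 0 < r ∧ 0 < C ∧ ∀ x y : E, ‖x‖ < r → ‖y‖ < r →
    ∃ h : E, ψ h = ψ y - ψ x ∧ ‖h - (y - x)‖ ≤ C * (‖x‖ + ‖y‖) * ‖y - x‖)
  (G5 : ∀ R : Place ℂ F, ∀ ε > 0, ∀ᶠ R' in 𝓝 R, ∃ x : E, ‖x‖ < ε ∧ ψ x = dP R' R)
  {g c : ℤ} (rr : RR ℂ F g c)

include rr in
theorem nonempty_place : Nonempty (Place ℂ F) := by
  obtain ⟨t, ht, -⟩ := IsFunctionField.exists_transcendental (k := ℂ) (F := F)
  obtain ⟨v, -⟩ := exists_ord_pos_of_transcendental ht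
  exact ⟨v⟩

include H1 G5 rr in
/-- **compactness** -/
theorem h3_pic : ∀ ε > 0, ∃ S : Set (Pic0 ℂ F), S.Finite ∧ ∀ j, ∃ s ∈ S, ∃ x : E,
    ‖x‖ < ε ∧ j = s + ψ x := by
  classical
  intro ε hε
  obtain ⟨P₀⟩ := nonempty_place rr
  obtain ⟨m, hm⟩ := exists_sum rr P₀
  obtain ⟨δ, hδ, hsum⟩ := small_sum7 H1 m hε
  obtain ⟨t, -, ht⟩ := (isCompact_univ (X := Place ℂ F)).elim_nhds_subcover
    (fun R => {R' | ∃ x : E, ‖x‖ < δ ∧ ψ x = dP R' R}) fun R _ => G5 R δ hδ
  refine ⟨Set.range fun r : Fin m → t => ∑ i, dP (r i : Place ℂ F) P₀, Set.finite_range _,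
    fun j => ?_⟩
  obtain ⟨p, rfl⟩ := hm j
  have h1 : ∀ i, ∃ r : t, ∃ x : E, ‖x‖ < δ ∧ ψ x = dP (p i) r := by
    intro i
    obtain ⟨R, hR, hR'⟩ := Set.mem_iUnion₂.1 (ht (Set.mem_univ (p i)))
    exact ⟨⟨R, hR⟩, hR'⟩
  choose r x hx hxr using h1
  obtain ⟨z, hz, hz'⟩ := hsum x hx
  refine ⟨_, ⟨r, rfl⟩, z, hz, ?_⟩
  rw [hz']
  simp only [hxr]
  rw [← Finset.sum_add_distrib]
  refine Finset.sum_congr rfl fun i _ => ?_
  rw [add_comm, dP_add]

include G5 rr in
/-- **generation** -/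
theorem h4_pic : ∀ ε > 0, AddSubgroup.closure (ψ '' Metric.ball 0 ε) = ⊤ := by
  intro ε hε
  obtain ⟨P₀⟩ := nonempty_place rr
  haveI := preconnected rr
  obtain ⟨H, hH⟩ : ∃ H, H = AddSubgroup.closure (ψ '' Metric.ball 0 ε) := ⟨_, rfl⟩
  rw [← hH]
  have hloc : ∀ P : Place ℂ F, ∀ᶠ P' in 𝓝 P, dP P' P ∈ H := by
    intro P
    filter_upwards [G5 P ε hε] with P' hP'
    obtain ⟨x, hx, hx'⟩ := hP'
    rw [← hx', hH]
    exact AddSubgroup.subset_closure ⟨x, by rwa [Metric.mem_ball, dist_zero_right], rfl⟩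
  have hA : IsClopen {P : Place ℂ F | dP P P₀ ∈ H} := by
    constructor
    · rw [← isOpen_compl_iff, isOpen_iff_mem_nhds]
      intro P hP
      filter_upwards [hloc P] with P' hP' h
      apply hP
      change dP P P₀ ∈ H
      have h1 : dP P P₀ = dP P' P₀ - dP P' P := by rw [← dP_add P' P P₀]; abel
      rw [h1]
      exact sub_mem h hP'
    · rw [isOpen_iff_mem_nhds]
      intro P hP
      filter_upwards [hloc P] with P' hP'
      change dP P' P₀ ∈ H
      rw [← dP_add P' P P₀]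
      exact add_mem hP' hP
  have h2 : {P : Place ℂ F | dP P P₀ ∈ H} = Set.univ := by
    rcases isClopen_iff.1 hA with h | h
    · exfalso
      have : P₀ ∈ {P : Place ℂ F | dP P P₀ ∈ H} := by
        change dP P₀ P₀ ∈ H
        rw [dP_self]
        exact zero_mem _
      rw [h] at this
      exact this
    · exact h
  refine closure_top rr P₀ fun P => ?_
  have : P ∈ {P : Place ℂ F | dP P P₀ ∈ H} := by rw [h2]; exact Set.mem_univ _
  exact this

end Main

end Fermat.Agent.Tor27
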