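import Fermat.Agent.Tor27.H12
import Fermat.Agent.Tor27.PicSum
import Fermat.Agent.Tor27.Card
import Fermat.Agent.Tor27.Ch3
import Fermat.Agent.Tor27.An2

/-!
# Torsion of the divisor class group over `ℂ`: the final assembly
-/

set_option autoImplicit false

noncomputable section

open scoped Topology

namespace Fermat.Agent.Tor27

open AlgebraicCurve Fermat.Agent.Curves Fermat.Agent.PicFlat

/-- the torsion of the group of divisor classes of degree zero over `ℂ` -/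
def TorusSt : Prop := ∀ (F : Type) [Field F] [Algebra ℂ F] [IsFunctionField ℂ F] (g c : ℤ),
  RR ℂ F g c → ∀ n : ℕ, 1 ≤ n → Nat.card {x : Pic0 ℂ F // n • x = 0} = n ^ (2 * g).toNat

variable {F : Type} [Field F] [Algebra ℂ F] [IsFunctionField ℂ F]

theorem card_of_tri {m : ℕ} (T : Tri F m) {g c : ℤ} (rr : RR ℂ F g c) (hm : (m : ℤ) = g)
    (H1 : ∃ r C : ℝ, 0 < r ∧ 0 < C ∧ ∀ x y : Fin m → ℂ, ‖x‖ < r → ‖y‖ < r →
      ∃ h : Fin m → ℂ, T.psi 0 h = T.psi 0 y - T.psi 0 x ∧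
        ‖h - (y - x)‖ ≤ C * (‖x‖ + ‖y‖) * ‖y - x‖)
    (H2 : ∃ r > 0, Set.InjOn (T.psi 0) (Metric.ball 0 r))
    (G5 : ∀ R : Place ℂ F, ∀ ε > 0, ∀ᶠ R' in 𝓝 R, ∃ x : Fin m → ℂ, ‖x‖ < ε ∧
      T.psi 0 x = dP R' R)
    (n : ℕ) (hn : 1 ≤ n) : Nat.card {x : Pic0 ℂ F // n • x = 0} = n ^ (2 * g).toNat := by
  have h := card_torsion (E := Fin m → ℂ) (T.psi 0) H1 H2 (h3_pic H1 G5 rr) (h4_pic G5 rr) n
    (by omega)
  rw [h]
  congr 1
  rw [← hm, Module.finrank_pi_fintype, Finset.sum_const, Finset.card_univ, Fintype.card_fin,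
    Complex.finrank_real_complex, smul_eq_mul]
  omega

end Fermat.Agent.Tor27
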