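import Fermat.Agent.Tor27.Trk
import Fermat.Agent.Tor27.An2

/-!
# (H1) and (H2)
-/

set_option autoImplicit false

noncomputable section

namespace Fermat.Agent.Tor27

open AlgebraicCurve Fermat.Agent.Curves Fermat.Agent.PicFlat Fermat.Agent.GoodRed Filter Topology

variable {F : Type*} [Field F] [Algebra ℂ F] [IsFunctionField ℂ F]

namespace Tri

variable {n : ℕ} (T : Tri F n)

/-- the partial derivative with block `l` removed -/
def resl (l : Fin 3) : (Fin (2 * n) → ℂ) →ₗ[ℂ] (Fin 3 → Fin n → ℂ) where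
  toFun c j i := if j = l then 0 else ∑ k, c k * T.res j i k
  map_add' c c' := by
    funext j i
    simp only [Pi.add_apply]
    split_ifs
    · simp
    · simp [add_mul, Finset.sum_add_distrib]
  map_smul' a c := by
    funext j i
    simp only [Pi.smul_apply, smul_eq_mul, RingHom.id_apply]
    split_ifs
    · simp
    · rw [Finset.mul_sum]
      exact Finset.sum_congr rfl fun k _ => mul_assoc _ _ _

theorem resl_anti (l : Fin 3) : ∃ K : ℝ, 0 < K ∧ ∀ c, ‖c‖ ≤ K * ‖T.resl l c‖ := by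
  obtain ⟨K, hK, hA⟩ := LinearMap.exists_antilipschitzWith (T.resl l) (by
    rw [LinearMap.ker_eq_bot']
    intro c hc
    refine T.eq_zero_of_res l c fun j hj i => ?_
    have := congrFun (congrFun hc j) i
    simpa [resl, hj] using this)
  refine ⟨K, hK, fun c => ?_⟩
  have := hA.le_mul_dist c 0
  rwa [map_zero, dist_zero_right, dist_zero_right] at this

theorem val_cont (j : Fin 3) (i : Fin n) (k : Fin (2 * n)) (ε : ℝ) (hε : 0 < ε) :
    ∃ δ > 0, ∀ t, ‖t‖ < δ → (T.ch j i).u * T.h k ∈ ((T.ch j i).Q t).toValuationSubring ∧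
      ‖value ((T.ch j i).Q t) ((T.ch j i).u * T.h k) - T.res j i k‖ ≤ ε := by
  obtain ⟨δ, hδ, h1, h2⟩ := (T.ch j i).reg _ (T.u_h_mem j i k)
  have h3 : ContinuousAt (fun t => value ((T.ch j i).Q t) ((T.ch j i).u * T.h k)) 0 :=
    (h2.continuousOn).continuousAt (Metric.ball_mem_nhds 0 hδ)
  rw [Metric.continuousAt_iff] at h3
  obtain ⟨δ', hδ', h4⟩ := h3 ε hε
  refine ⟨min δ δ', lt_min hδ hδ', fun t ht => ⟨h1 t (ht.trans_le (min_le_left _ _)), ?_⟩⟩
  have h5 := h4 (x := t) (by rw [dist_zero_right]; exact ht.trans_le (min_le_right _ _))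
  rw [(T.ch j i).Q_zero, dist_eq_norm] at h5
  exact h5.le

theorem value_fn {j : Fin 3} {i : Fin n} {t : ℂ} (ht : ‖t‖ < (T.ch j i).r)
    (hmem : ∀ k, (T.ch j i).u * T.h k ∈ ((T.ch j i).Q t).toValuationSubring) (c₀ : ℂ)
    (c : Fin (2 * n) → ℂ) :
    value ((T.ch j i).Q t) ((T.ch j i).u * (c₀ • (1 : F) + ∑ k, c k • T.h k)) =
      c₀ * t + ∑ k, c k * value ((T.ch j i).Q t) ((T.ch j i).u * T.h k) := by
  have h1 := value_sum ((T.ch j i).Q t) Finset.univ c (fun k => (T.ch j i).u * T.h k)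
    fun k _ => hmem k
  have hu := (T.ch j i).u_mem t ht
  have e : (T.ch j i).u * (c₀ • (1 : F) + ∑ k, c k • T.h k) =
      algebraMap ℂ F c₀ * (T.ch j i).u + ∑ k, c k • ((T.ch j i).u * T.h k) := by
    rw [mul_add, Finset.mul_sum, Algebra.smul_def, mul_one, mul_comm]
    simp only [mul_smul_comm]
  have hc := ((T.ch j i).Q t).algebraMap_mem' c₀
  rw [e, value_add _ (mul_mem hc hu) h1.1, h1.2, value_mul _ hc hu, value_algebraMap,
    (T.ch j i).value_u t ht]

/-- the coefficients of a function with prescribed small zeros are small -/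
theorem uniq_bound (l : Fin 3) : ∃ δ > 0, (∀ j i, δ ≤ (T.ch j i).r) ∧ ∃ C : ℝ, 0 ≤ C ∧
    ∀ (t : Fin 3 → Fin n → ℂ) (c₀ : ℂ) (c : Fin (2 * n) → ℂ), (∀ j i, ‖t j i‖ < δ) →
      (∀ j, j ≠ l → ∀ i, value ((T.ch j i).Q (t j i))
        ((T.ch j i).u * (c₀ • (1 : F) + ∑ k, c k • T.h k)) = 0) →
      ‖c‖ ≤ C * (‖c₀‖ * ‖t‖) := by
  obtain ⟨K, hK, hA⟩ := T.resl_anti l
  set ε : ℝ := 1 / (2 * K * (2 * n + 1)) with hεdef
  have hε : 0 < ε := by positivity
  choose δ hδ h1 using fun j i k => T.val_cont j i k ε hε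
  obtain ⟨δ₀, hδ₀, hδ₀le⟩ : ∃ δ₀ > 0, (∀ j i k, δ₀ ≤ δ j i k) ∧ ∀ j i, δ₀ ≤ (T.ch j i).r := by
    have a1 : ∀ᶠ x : ℝ in 𝓝[>] 0, ∀ j i k, x ≤ δ j i k := by
      simp only [eventually_all]
      intro j i k
      filter_upwards [Ioo_mem_nhdsGT (hδ j i k)] with x hx using hx.2.le
    have a2 : ∀ᶠ x : ℝ in 𝓝[>] 0, ∀ j i, x ≤ (T.ch j i).r := by
      simp only [eventually_all]
      intro j i
      filter_upwards [Ioo_mem_nhdsGT (T.ch j i).r_pos] with x hx using hx.2.le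
    obtain ⟨x, hx⟩ := ((a1.and a2).and self_mem_nhdsWithin).exists
    exact ⟨x, hx.2, hx.1⟩
  refine ⟨δ₀, hδ₀, hδ₀le.2, 2 * K, by positivity, fun t c₀ c ht hv => ?_⟩
  have h2 : ‖T.resl l c‖ ≤ ‖c₀‖ * ‖t‖ + (2 * n) * (ε * ‖c‖) := by
    rw [pi_norm_le_iff_of_nonneg (by positivity)]
    intro j
    rw [pi_norm_le_iff_of_nonneg (by positivity)]
    intro i
    by_cases hj : j = l
    · simp only [resl, LinearMap.coe_mk, AddHom.coe_mk, if_pos hj, norm_zero]
      positivity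
    · simp only [resl, LinearMap.coe_mk, AddHom.coe_mk, if_neg hj]
      have htr : ‖t j i‖ < (T.ch j i).r := (ht j i).trans_le (hδ₀le.2 j i)
      have hk : ∀ k, ‖t j i‖ < δ j i k := fun k => (ht j i).trans_le (hδ₀le.1 j i k)
      have h3 := hv j hj i
      rw [T.value_fn htr (fun k => (h1 j i k _ (hk k)).1)] at h3
      have h4 : ∑ k, c k * T.res j i k = -(c₀ * t j i) -
          ∑ k, c k * (value ((T.ch j i).Q (t j i)) ((T.ch j i).u * T.h k) - T.res j i k) := by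
        simp only [mul_sub, Finset.sum_sub_distrib]
        linear_combination h3
      rw [h4]
      refine (norm_sub_le _ _).trans (add_le_add ?_ ?_)
      · rw [norm_neg, norm_mul]
        gcongr
        exact (norm_le_pi_norm (t j) i).trans (norm_le_pi_norm t j)
      · refine (norm_sum_le _ _).trans ?_
        calc ∑ k, ‖c k * (value ((T.ch j i).Q (t j i)) ((T.ch j i).u * T.h k) - T.res j i k)‖
            ≤ ∑ _k : Fin (2 * n), ε * ‖c‖ := by
              refine Finset.sum_le_sum fun k _ => ?_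
              rw [norm_mul, mul_comm]
              exact mul_le_mul (h1 j i k _ (hk k)).2 (norm_le_pi_norm c k) (norm_nonneg _) hε.le
          _ = (2 * n) * (ε * ‖c‖) := by
              rw [Finset.sum_const, Finset.card_univ, Fintype.card_fin, nsmul_eq_mul]
              push_cast
              ring
  have h3 := hA c
  have h4 : K * ((2 * n) * (ε * ‖c‖)) ≤ 1 / 2 * ‖c‖ := by
    have : K * ((2 * n) * (ε * ‖c‖)) = (K * (2 * n) * ε) * ‖c‖ := by ring
    rw [this]
    gcongr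
    rw [hεdef]
    rw [mul_one_div, div_le_div_iff₀ (by positivity) (by positivity)]
    nlinarith
  have h5 : K * ‖T.resl l c‖ ≤ K * (‖c₀‖ * ‖t‖ + (2 * n) * (ε * ‖c‖)) :=
    mul_le_mul_of_nonneg_left h2 hK.le
  rw [mul_add] at h5
  linarith

end Tri

namespace Trk

variable {n : ℕ} {T : Tri F n} (R : Trk T)

include R

/-- local injectivity of two blocks -/
theorem local_inj (l : Fin 3) : ∃ ρ' > 0, ∀ v v', ‖v‖ < ρ' → ‖v'‖ < ρ' →
    (∀ j, j ≠ l → R.τ v j = R.τ v' j) → v = v' := by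
  obtain ⟨K, hK, hA⟩ := T.resl_anti l
  have hs : HasStrictFDerivAt R.τ T.dtau 0 := R.smooth.hasStrictFDerivAt' R.deriv (by norm_num)
  rw [hasStrictFDerivAt_iff_isLittleO] at hs
  have h1 := hs.def (c := 1 / (2 * K)) (by positivity)
  rw [nhds_prod_eq, Metric.nhds_basis_ball.prod_self.eventually_iff] at h1
  obtain ⟨ρ', hρ', h2⟩ := h1
  refine ⟨ρ', hρ', fun v v' hv hv' he => ?_⟩
  have h3 := h2 (x := (v, v')) ⟨by simpa using hv, by simpa using hv'⟩
  have h4 : ‖T.resl l (v - v')‖ ≤ 1 / (2 * K) * ‖v - v'‖ := by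
    refine le_trans ?_ h3
    rw [pi_norm_le_iff_of_nonneg (norm_nonneg _)]
    intro j
    rw [pi_norm_le_iff_of_nonneg (norm_nonneg _)]
    intro i
    by_cases hj : j = l
    · simp only [Tri.resl, LinearMap.coe_mk, AddHom.coe_mk, if_pos hj, norm_zero]
      exact norm_nonneg _
    · have hw : ‖(R.τ v - R.τ v' - T.dtau (v - v')) j i‖ ≤ ‖R.τ v - R.τ v' - T.dtau (v - v')‖ :=
        (norm_le_pi_norm ((R.τ v - R.τ v' - T.dtau (v - v')) j) i).trans
          (norm_le_pi_norm (R.τ v - R.τ v' - T.dtau (v - v')) j)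
      refine le_trans (le_of_eq ?_) hw
      have hz : (R.τ v - R.τ v') j i = 0 := by
        rw [Pi.sub_apply, Pi.sub_apply, he j hj, sub_self]
      rw [Pi.sub_apply, Pi.sub_apply, hz, zero_sub, T.dtau_apply, neg_neg]
      simp only [Tri.resl, LinearMap.coe_mk, AddHom.coe_mk, if_neg hj]
  have h5 := hA (v - v')
  have h6 : K * (1 / (2 * K) * ‖v - v'‖) = 1 / 2 * ‖v - v'‖ := by field_simp
  have h7 : ‖v - v'‖ ≤ 1 / 2 * ‖v - v'‖ := by
    rw [← h6]
    exact h5.trans (mul_le_mul_of_nonneg_left h4 hK.le)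
  have h8 : ‖v - v'‖ = 0 := by
    have := norm_nonneg (v - v')
    linarith
  exact sub_eq_zero.1 (norm_eq_zero.1 h8)

/-- local surjectivity of two blocks -/
theorem local_surj {l a b : Fin 3} (hla : l ≠ a) (hlb : l ≠ b) (hab : a ≠ b) (ε : ℝ)
    (hε : 0 < ε) : ∃ δ > 0, ∀ x y : Fin n → ℂ, ‖x‖ < δ → ‖y‖ < δ →
      ∃ v, ‖v‖ < ε ∧ R.τ v a = x ∧ R.τ v b = y := by
  have hs : HasStrictFDerivAt R.τ T.dtau 0 := R.smooth.hasStrictFDerivAt' R.deriv (by norm_num)
  let pr : (Fin 3 → Fin n → ℂ) →L[ℂ] (Fin n → ℂ) × (Fin n → ℂ) :=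
    (ContinuousLinearMap.proj (R := ℂ) (φ := fun _ : Fin 3 => Fin n → ℂ) a).prod
      (ContinuousLinearMap.proj (R := ℂ) (φ := fun _ : Fin 3 => Fin n → ℂ) b)
  have hs2 : HasStrictFDerivAt (fun v => pr (R.τ v)) (pr.comp T.dtau) 0 :=
    pr.hasStrictFDerivAt.comp 0 hs
  have hsurj : Function.Surjective ((pr.comp T.dtau).toLinearMap) := by
    rw [← LinearMap.injective_iff_surjective_of_finrank_eq_finrank (by
      rw [Module.finrank_prod]; simp; ring)]
    rw [← LinearMap.ker_eq_bot, LinearMap.ker_eq_bot']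
    intro c hc
    have hc1 : T.dtau c a = 0 := congrArg Prod.fst hc
    have hc2 : T.dtau c b = 0 := congrArg Prod.snd hc
    refine T.dtau_inj l c fun j hj => ?_
    have : j = a ∨ j = b := by
      revert hla hlb hab hj
      fin_cases j <;> fin_cases l <;> fin_cases a <;> fin_cases b <;> simp
    rcases this with rfl | rfl
    · exact hc1
    · exact hc2
  have hm := hs2.map_nhds_eq_of_surj (LinearMap.range_eq_top.2 hsurj)
  have h1 : (fun v => pr (R.τ v)) '' Metric.ball 0 ε ∈ 𝓝 (pr (R.τ 0)) := by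
    rw [← hm]
    exact image_mem_map (Metric.ball_mem_nhds 0 hε)
  rw [R.τ_zero, map_zero] at h1
  obtain ⟨δ, hδ, h2⟩ := Metric.mem_nhds_iff.1 h1
  refine ⟨δ, hδ, fun x y hx hy => ?_⟩
  obtain ⟨v, hv, he⟩ := h2 (show (x, y) ∈ Metric.ball (0 : (Fin n → ℂ) × (Fin n → ℂ)) δ by
    rw [mem_ball_zero_iff, Prod.norm_def]
    exact max_lt hx hy)
  exact ⟨v, mem_ball_zero_iff.1 hv, congrArg Prod.fst he, congrArg Prod.snd he⟩

/-- the relation -/
theorem sum_psi (v : Fin (2 * n) → ℂ) (hv : ‖v‖ < R.ρ) : ∑ j, T.psi j (R.τ v j) = 0 := by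
  unfold Tri.psi
  rw [← Fintype.sum_prod_type' (fun j i => pcls ((T.ch j i).Q (R.τ v j i)) (T.P j i)),
    sum_pcls]
  refine ⟨T.fn v, R.fn_ne v hv, ?_⟩
  rw [R.div v hv, Fintype.sum_prod_type, Fintype.sum_prod_type]
  rfl

end Trk

end Fermat.Agent.Tor27
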