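import Mathlib.Analysis.Normed.Group.Basic
import Mathlib.Topology.LocallyConstant.Basic
import Mathlib.Topology.Compactness.Compact
import Mathlib.GroupTheory.QuotientGroup.Basic
import Mathlib.Analysis.Normed.Module.Basic
import Mathlib.Algebra.BigOperators.Fin
import Mathlib.Algebra.Group.Submonoid.BigOperators
import Mathlib.Tactic.Positivity
import Mathlib.Tactic.Linarith

/-!
# (H3) and (H4) from the local statement on places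
-/

set_option autoImplicit false

noncomputable section

namespace Fermat.Agent.Tor27

open Topology Filter

section

variable {E J X : Type*} [NormedAddCommGroup E] [AddCommGroup J] [TopologicalSpace X]

/-- the estimate (H1) -/
def H1St (ψ : E → J) : Prop := ∃ r C : ℝ, 0 < r ∧ 0 < C ∧ ∀ x y : E, ‖x‖ < r → ‖y‖ < r →
  ∃ h : E, ψ h = ψ y - ψ x ∧ ‖h - (y - x)‖ ≤ C * (‖x‖ + ‖y‖) * ‖y - x‖

variable {ψ : E → J}

theorem H1St.zero (H1 : H1St ψ) : ψ 0 = 0 := by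
  obtain ⟨r, C, hr, hC, h⟩ := H1
  obtain ⟨x, hx, hx'⟩ := h 0 0 (by simpa using hr) (by simpa using hr)
  rw [sub_self] at hx hx'
  rw [sub_zero, norm_zero, add_zero, mul_zero] at hx'
  have : x = 0 := by simpa using le_antisymm hx' (norm_nonneg x)
  rw [this] at hx
  exact hx

theorem H1St.sub_small (H1 : H1St ψ) {ε : ℝ} (hε : 0 < ε) : ∃ δ > 0, δ ≤ ε ∧ ∀ x y : E,
    ‖x‖ < δ → ‖y‖ < δ → ∃ h : E, ‖h‖ < ε ∧ ψ h = ψ y - ψ x := by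
  obtain ⟨r, C, hr, hC, h⟩ := H1
  set δ := min (min r (ε / 4)) (1 / (2 * C)) with hδ
  have hδ0 : 0 < δ := lt_min (lt_min hr (by positivity)) (by positivity)
  have hδr : δ ≤ r := (min_le_left _ _).trans (min_le_left _ _)
  have hδε : δ ≤ ε / 4 := (min_le_left _ _).trans (min_le_right _ _)
  have hδC : δ ≤ 1 / (2 * C) := min_le_right _ _
  refine ⟨δ, hδ0, by linarith, fun x y hx hy => ?_⟩
  obtain ⟨z, hz, hz'⟩ := h x y (lt_of_lt_of_le hx hδr) (lt_of_lt_of_le hy hδr)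
  refine ⟨z, ?_, hz⟩
  have h1 : ‖z‖ ≤ ‖z - (y - x)‖ + ‖y - x‖ := by
    calc ‖z‖ = ‖(z - (y - x)) + (y - x)‖ := by rw [sub_add_cancel]
      _ ≤ _ := norm_add_le _ _
  have h2 : ‖y - x‖ ≤ ‖y‖ + ‖x‖ := norm_sub_le _ _
  have h3 : C * (‖x‖ + ‖y‖) ≤ 1 := by
    have h4 : C * δ ≤ 1 / 2 := by
      have := mul_le_mul_of_nonneg_left hδC hC.le
      have e : C * (1 / (2 * C)) = 1 / 2 := by field_simp
      linarith
    nlinarith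
  have h5 : C * (‖x‖ + ‖y‖) * ‖y - x‖ ≤ 1 * ‖y - x‖ :=
    mul_le_mul_of_nonneg_right h3 (norm_nonneg _)
  linarith

theorem H1St.neg_small (H1 : H1St ψ) {ε : ℝ} (hε : 0 < ε) : ∃ δ > 0, δ ≤ ε ∧ ∀ x : E,
    ‖x‖ < δ → ∃ h : E, ‖h‖ < ε ∧ ψ h = -ψ x := by
  obtain ⟨δ, hδ, hδε, h⟩ := H1.sub_small hε
  refine ⟨δ, hδ, hδε, fun x hx => ?_⟩
  obtain ⟨z, hz, hz'⟩ := h x 0 hx (by simpa using hδ)
  refine ⟨z, hz, ?_⟩
  rw [hz', H1.zero, zero_sub]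

theorem H1St.add_small (H1 : H1St ψ) {ε : ℝ} (hε : 0 < ε) : ∃ δ > 0, δ ≤ ε ∧ ∀ x y : E,
    ‖x‖ < δ → ‖y‖ < δ → ∃ h : E, ‖h‖ < ε ∧ ψ h = ψ x + ψ y := by
  obtain ⟨δ₁, hδ₁, hδ₁ε, h₁⟩ := H1.sub_small hε
  obtain ⟨δ₂, hδ₂, hδ₂ε, h₂⟩ := H1.neg_small hδ₁
  refine ⟨δ₂, hδ₂, hδ₂ε.trans hδ₁ε, fun x y hx hy => ?_⟩
  obtain ⟨z, hz, hz'⟩ := h₂ x hx
  obtain ⟨w, hw, hw'⟩ := h₁ z y hz (lt_of_lt_of_le hy hδ₂ε)
  refine ⟨w, hw, ?_⟩
  rw [hw', hz', sub_neg_eq_add, add_comm]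

theorem H1St.sum_small (H1 : H1St ψ) (n : ℕ) : ∀ {ε : ℝ}, 0 < ε → ∃ δ > 0, ∀ x : Fin n → E,
    (∀ i, ‖x i‖ < δ) → ∃ h : E, ‖h‖ < ε ∧ ψ h = ∑ i, ψ (x i) := by
  induction n with
  | zero =>
    intro ε hε
    refine ⟨1, one_pos, fun x _ => ⟨0, by simpa using hε, ?_⟩⟩
    rw [H1.zero]; simp
  | succ n ih =>
    intro ε hε
    obtain ⟨δ₁, hδ₁, hδ₁ε, h₁⟩ := H1.add_small hε
    obtain ⟨δ₂, hδ₂, h₂⟩ := ih hδ₁
    refine ⟨min δ₁ δ₂, lt_min hδ₁ hδ₂, fun x hx => ?_⟩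
    obtain ⟨z, hz, hz'⟩ := h₂ (fun i => x i.succ) fun i => lt_of_lt_of_le (hx _) (min_le_right _ _)
    obtain ⟨w, hw, hw'⟩ := h₁ (x 0) z (lt_of_lt_of_le (hx _) (min_le_left _ _)) hz
    refine ⟨w, hw, ?_⟩
    rw [hw', hz', Fin.sum_univ_succ]

variable {cl : X → J} {g : ℕ}

/-- **(H3)** -/
theorem H3_of [CompactSpace X] (H1 : H1St ψ)
    (hloc : ∀ (R : X) (ε : ℝ), 0 < ε → ∀ᶠ R' in 𝓝 R, ∃ x : E, ‖x‖ < ε ∧ ψ x = cl R' - cl R)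
    (hsurj : ∀ j : J, ∃ R : Fin g → X, j = ∑ i, cl (R i)) {ε : ℝ} (hε : 0 < ε) :
    ∃ S : Set J, S.Finite ∧ ∀ j : J, ∃ s ∈ S, ∃ x : E, ‖x‖ < ε ∧ j = s + ψ x := by
  classical
  obtain ⟨δ, hδ, hδ'⟩ := H1.sum_small g hε
  set U : (Fin g → X) → Set (Fin g → X) := fun R =>
    {R' | ∀ i, ∃ x : E, ‖x‖ < δ ∧ ψ x = cl (R' i) - cl (R i)} with hU
  have hUn : ∀ R, U R ∈ 𝓝 R := by
    intro R
    have h1 : ∀ i, ∀ᶠ R' in 𝓝 R, ∃ x : E, ‖x‖ < δ ∧ ψ x = cl (R' i) - cl (R i) := fun i =>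
      ((continuous_apply i).tendsto R).eventually (hloc (R i) δ hδ)
    exact Filter.eventually_all.2 h1
  obtain ⟨t, ht⟩ := CompactSpace.elim_nhds_subcover U hUn
  refine ⟨(fun R : Fin g → X => ∑ i, cl (R i)) '' (t : Set (Fin g → X)),
    t.finite_toSet.image _, fun j => ?_⟩
  obtain ⟨R', rfl⟩ := hsurj j
  have h2 : R' ∈ ⋃ x ∈ t, U x := by rw [ht]; trivial
  simp only [Set.mem_iUnion] at h2
  obtain ⟨R, hR, hR'⟩ := h2
  choose x hx hx' using hR'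
  obtain ⟨y, hy, hy'⟩ := hδ' x hx
  refine ⟨_, ⟨R, hR, rfl⟩, y, hy, ?_⟩
  change _ = ∑ i, cl (R i) + ψ y
  rw [hy', ← Finset.sum_add_distrib]
  refine Finset.sum_congr rfl fun i _ => ?_
  rw [hx']; abel

/-- **(H4)** -/
theorem H4_of [PreconnectedSpace X]
    (hloc : ∀ (R : X) (ε : ℝ), 0 < ε → ∀ᶠ R' in 𝓝 R, ∃ x : E, ‖x‖ < ε ∧ ψ x = cl R' - cl R)
    (hsurj : ∀ j : J, ∃ R : Fin g → X, j = ∑ i, cl (R i)) (P₀ : X) (hP₀ : cl P₀ = 0)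
    {ε : ℝ} (hε : 0 < ε) : AddSubgroup.closure (ψ '' Metric.ball 0 ε) = ⊤ := by
  set H := AddSubgroup.closure (ψ '' Metric.ball 0 ε) with hH
  have h1 : IsLocallyConstant fun R : X => (QuotientAddGroup.mk (cl R) : J ⧸ H) := by
    rw [IsLocallyConstant.iff_eventually_eq]
    intro R
    filter_upwards [hloc R ε hε] with R' hR'
    obtain ⟨x, hx, hx'⟩ := hR'
    rw [eq_comm, QuotientAddGroup.eq]
    have : -cl R + cl R' = ψ x := by rw [hx']; abel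
    rw [this]
    exact AddSubgroup.subset_closure ⟨x, by simpa using hx, rfl⟩
  have h2 : ∀ R, cl R ∈ H := by
    intro R
    have h3 := h1.apply_eq_of_preconnectedSpace R P₀
    have h4 : (QuotientAddGroup.mk (cl R) : J ⧸ H) = QuotientAddGroup.mk (cl P₀) := h3
    rw [hP₀, QuotientAddGroup.mk_zero] at h4
    exact (QuotientAddGroup.eq_zero_iff _).1 h4
  rw [eq_top_iff]
  intro j _
  obtain ⟨R, rfl⟩ := hsurj j
  exact sum_mem fun i _ => h2 _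

end

end Fermat.Agent.Tor27
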