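import Fermat.Agent.Tor27.Top
import Fermat.Agent.Carayol.Icr3
import Fermat.Agent.MWH.Span

/-!
# Open mapping and connectedness
-/

set_option autoImplicit false
set_option linter.unusedSectionVars false
set_option linter.style.haveILetI false

noncomputable section

namespace Fermat.Agent.Tor27

open AlgebraicCurve Fermat.Agent.Curves Topology Filter OnePoint Polynomial
open Fermat.Agent.GoodRed Fermat.Agent.Models

variable {F : Type*} [Field F] [Algebra ℂ F] [IsFunctionField ℂ F]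

theorem val_lt_of_nonunit {Q : Place ℂ F} {x : F} (h1 : x ∈ Q.toValuationSubring.nonunits) :
    x ∈ Q.toValuationSubring ∧ Q.adicValuation x < 1 := by
  rw [ValuationSubring.mem_nonunits_iff_exists_mem_maximalIdeal] at h1
  obtain ⟨h2, h3⟩ := h1
  rw [IsLocalRing.mem_maximalIdeal, mem_nonunits_iff, ← Q.adicValuation_coe_eq_one_iff] at h3
  exact ⟨h2, lt_of_le_of_ne ((mem_iff_val Q).mp h2) h3⟩

theorem exists_model {f h : F} (hf : Transcendental ℂ f) (hh : h ∈ affineRing ℂ f) :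
    ∃ m : ℂ[X][X], m.Monic ∧ eval₂ (aeval f : ℂ[X] →ₐ[ℂ] F).toRingHom h m = 0 ∧
      ∀ c l : ℂ, (m.map (evalRingHom c)).eval l = 0 → ∃ Q : Place ℂ F,
        f ∈ Q.toValuationSubring ∧ h ∈ Q.toValuationSubring ∧ value Q f = c ∧ value Q h = l := by
  letI := polyAlg ℂ f
  haveI := polyAlg_tower ℂ f
  have hX : algebraMap ℂ[X] F X = f := polyAlg_X ℂ f
  have halg : ∀ p : ℂ[X], algebraMap ℂ[X] F p = aeval f p := fun p => by
    rw [← hX]; exact (aeval_X_eq p).symm
  have hint : IsIntegral ℂ[X] h := by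
    rw [isIntegral_iff_mem_affineRing, hX]
    exact hh
  haveI : FaithfulSMul ℂ[X] F := by
    rw [faithfulSMul_iff_algebraMap_injective]
    intro p q hpq
    rw [halg, halg] at hpq
    exact transcendental_iff_injective.1 hf hpq
  haveI : Module.IsTorsionFree ℂ[X] F := inferInstance
  refine ⟨minpoly ℂ[X] h, minpoly.monic hint, ?_, fun c l hroot => ?_⟩
  · have h1 := minpoly.aeval ℂ[X] h
    rw [aeval_def] at h1
    exact h1
  obtain ⟨E, hE⟩ : ∃ E : ℂ[X][X] →+* F, E = (aeval h : ℂ[X][X] →ₐ[ℂ[X]] F).toRingHom := ⟨_, rfl⟩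
  have hE1 : E (C (X - C c)) = f - algebraMap ℂ F c := by
    rw [hE]
    change aeval h (C (X - C c)) = _
    rw [aeval_C, halg]
    simp
  have hE2 : E (X - C (C l)) = h - algebraMap ℂ F l := by
    rw [hE]
    change aeval h (X - C (C l)) = _
    rw [map_sub, aeval_X, aeval_C, halg]
    simp
  have hEc : ∀ a : ℂ, E (C (C a)) = algebraMap ℂ F a := by
    intro a
    rw [hE]
    change aeval h (C (C a)) = _
    rw [aeval_C, halg]
    simp
  let I : Ideal E.range := Ideal.span {⟨_, C (X - C c), hE1⟩, ⟨_, X - C (C l), hE2⟩}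
  have hI : I ≠ ⊤ := by
    intro htop
    rw [Ideal.eq_top_iff_one, Ideal.mem_span_pair] at htop
    obtain ⟨⟨a, p, hp⟩, ⟨b, r, hr⟩, hab⟩ := htop
    have h1 : a * (f - algebraMap ℂ F c) + b * (h - algebraMap ℂ F l) = 1 :=
      congrArg Subtype.val hab
    have h2 : E (p * C (X - C c) + r * (X - C (C l)) - 1) = 0 := by
      rw [map_sub, map_add, map_mul, map_mul, hE1, hE2, hp, hr, map_one, h1, sub_self]
    rw [hE] at h2
    obtain ⟨s, hs⟩ := minpoly.isIntegrallyClosed_dvd hint (p := p * C (X - C c) +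
      r * (X - C (C l)) - 1) h2
    have h3 := congrArg (fun z => (z.map (evalRingHom c)).eval l) hs
    simp only [Polynomial.map_mul, eval_mul, hroot, zero_mul] at h3
    simp at h3
  obtain ⟨V, hAV, hIV⟩ := Ideal.image_subset_nonunits_valuationSubring I hI
  have hfV : f - algebraMap ℂ F c ∈ V.nonunits :=
    hIV ⟨_, Ideal.subset_span (Set.mem_insert _ _), rfl⟩
  have hhV : h - algebraMap ℂ F l ∈ V.nonunits :=
    hIV ⟨_, Ideal.subset_span (Set.mem_insert_of_mem _ rfl), rfl⟩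
  have hVtop : V ≠ ⊤ := by
    rintro rfl
    rw [ValuationSubring.mem_nonunits_iff] at hfV
    have h0 := sub_algebraMap_ne_zero hf c
    have h2 : (f - algebraMap ℂ F c)⁻¹ ∈ (⊤ : ValuationSubring F) := ValuationSubring.mem_top _
    rw [← ValuationSubring.valuation_le_one_iff, map_inv₀, inv_le_one₀
      (zero_lt_iff.mpr (((⊤ : ValuationSubring F).valuation.ne_zero_iff).mpr h0))] at h2
    exact absurd hfV (not_lt.mpr h2)
  obtain ⟨Q, rfl⟩ := exists_place_of_valuationSubring V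
    (fun a => hAV ⟨_, hEc a⟩) hVtop
  have h1 := val_lt_of_nonunit hfV
  have h2 := val_lt_of_nonunit hhV
  have hfQ : f ∈ Q.toValuationSubring := by
    have := add_mem h1.1 (Q.algebraMap_mem' c)
    rwa [sub_add_cancel] at this
  have hhQ : h ∈ Q.toValuationSubring := by
    have := add_mem h2.1 (Q.algebraMap_mem' l)
    rwa [sub_add_cancel] at this
  exact ⟨Q, hfQ, hhQ, (value_eq_iff Q hfQ c).2 h1.2, (value_eq_iff Q hhQ l).2 h2.2⟩

/-- a root of small modulus -/
theorem exists_small_root {p : ℂ[X]} (hp : p.Monic) (hd : 0 < p.natDegree) {ε : ℝ} (hε : 0 < ε)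
    (h : ‖p.coeff 0‖ < ε ^ p.natDegree) : ∃ l : ℂ, ‖l‖ < ε ∧ p.eval l = 0 := by
  by_contra hcon
  push Not at hcon
  have h1 : ∀ l ∈ p.roots, ε ≤ ‖l‖ := by
    intro l hl
    by_contra h2
    exact hcon l (not_le.1 h2) ((mem_roots hp.ne_zero).1 hl)
  have hs := IsAlgClosed.splits p
  have hcard : p.roots.card = p.natDegree := (splits_iff_card_roots.1 hs)
  have h2 : p.coeff 0 = (-1) ^ p.natDegree * p.roots.prod := by
    rw [hs.coeff_zero_eq_prod_roots_of_monic hp]
  have h3 : ∀ s : Multiset ℂ, (∀ l ∈ s, ε ≤ ‖l‖) → ε ^ s.card ≤ ‖s.prod‖ := by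
    intro s
    induction s using Multiset.induction_on with
    | empty => intro _; simp
    | cons a s ih =>
      intro hs
      rw [Multiset.card_cons, Multiset.prod_cons, norm_mul, pow_succ']
      exact mul_le_mul (hs a (Multiset.mem_cons_self _ _))
        (ih fun l hl => hs l (Multiset.mem_cons_of_mem hl)) (pow_nonneg hε.le _) (norm_nonneg _)
  have h4 := h3 _ h1
  rw [h2, norm_mul, norm_pow, norm_neg, norm_one, one_pow, one_mul] at h
  rw [hcard] at h4
  exact absurd h (not_lt.2 h4)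

/-- **the open mapping property** -/
theorem open_value {P : Place ℂ F} {f : F} (hf : Transcendental ℂ f)
    (hfP : f ∈ P.toValuationSubring) {U : Set (Place ℂ F)} (hU : U ∈ 𝓝 P) :
    {c : ℂ | ∃ Q ∈ U, f ∈ Q.toValuationSubring ∧ value Q f = c} ∈ 𝓝 (value P f) := by
  obtain ⟨U', hU', hUo, hPU⟩ := mem_nhds_iff.1 hU
  obtain ⟨h, hh, hh0, hPh, hQh⟩ := exists_unif hf hfP
  obtain ⟨m, hm, hm0, hroots⟩ := exists_model hf hh
  have hhP : h ∈ P.toValuationSubring := hh P hfP
  have hvh : value P h = 0 := by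
    rw [value_eq_zero_iff P hhP, val_lt_one_iff]
    right; omega
  -- the constant term vanishes
  have hroot0 : (m.map (evalRingHom (value P f))).eval 0 = 0 := by
    let B := affineRing ℂ f
    let f' : B := ⟨f, self_mem_affineRing f⟩
    let h' : B := ⟨h, hh⟩
    let vh : B →ₐ[ℂ] ℂ := valueHom P B fun x hx => hx P hfP
    have h1 : eval₂ (aeval f' : ℂ[X] →ₐ[ℂ] B).toRingHom h' m = 0 := by
      apply Subtype.val_injective
      have h2 := Polynomial.hom_eval₂ m (aeval f' : ℂ[X] →ₐ[ℂ] B).toRingHom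
        B.val.toRingHom h'
      have h3 : (B.val.toRingHom).comp (aeval f' : ℂ[X] →ₐ[ℂ] B).toRingHom =
          (aeval f : ℂ[X] →ₐ[ℂ] F).toRingHom := by
        ext x
        · simp
        · simp [f']
      rw [h3] at h2
      exact h2.trans hm0
    have h4 := Polynomial.hom_eval₂ m (aeval f' : ℂ[X] →ₐ[ℂ] B).toRingHom vh.toRingHom h'
    rw [h1, map_zero] at h4
    have h5 : (vh.toRingHom).comp (aeval f' : ℂ[X] →ₐ[ℂ] B).toRingHom =
        evalRingHom (value P f) := by
      ext x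
      · simp
      · simp [f', vh]
    have h6 : vh.toRingHom h' = 0 := hvh
    rw [h5, h6] at h4
    rw [eval_map]
    exact h4.symm
  have hd : 0 < m.natDegree := by
    rcases Nat.eq_zero_or_pos m.natDegree with h0 | h0
    · have h1 : m = 1 := Polynomial.eq_one_of_monic_natDegree_zero hm h0
      rw [h1] at hroot0
      simp at hroot0
    · exact h0
  have hmc : ∀ c, (m.map (evalRingHom c)).Monic := fun c => hm.map _
  have hdc : ∀ c, (m.map (evalRingHom c)).natDegree = m.natDegree := fun c => hm.natDegree_map _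
  have hcoeff : ∀ c, (m.map (evalRingHom c)).coeff 0 = (m.coeff 0).eval c := fun c => by
    rw [coeff_map]; rfl
  -- small values
  have hsmall : ∀ ε > 0, ∀ᶠ c in 𝓝 (value P f), ∃ Q : Place ℂ F, f ∈ Q.toValuationSubring ∧
      h ∈ Q.toValuationSubring ∧ value Q f = c ∧ ‖value Q h‖ < ε := by
    intro ε hε
    have h1 : Tendsto (fun c => ‖(m.coeff 0).eval c‖) (𝓝 (value P f)) (𝓝 0) := by
      have h2 : ContinuousAt (fun c => ‖(m.coeff 0).eval c‖) (value P f) :=
        (m.coeff 0).continuous.norm.continuousAt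
      have h3 : ‖(m.coeff 0).eval (value P f)‖ = 0 := by
        rw [← hcoeff, coeff_zero_eq_eval_zero, hroot0, norm_zero]
      rw [← h3]
      exact h2
    filter_upwards [h1.eventually (gt_mem_nhds (pow_pos hε m.natDegree))] with c hc
    obtain ⟨l, hl, hl0⟩ := exists_small_root (hmc c) (by rw [hdc]; exact hd) hε
      (by rw [hcoeff, hdc]; exact hc)
    obtain ⟨Q, h1, h2, h3, h4⟩ := hroots c l hl0
    exact ⟨Q, h1, h2, h3, by rw [h4]; exact hl⟩
  -- compactness
  have hK : IsCompact U'ᶜ := hUo.isClosed_compl.isCompact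
  let G : Place ℂ F → OnePoint ℂ × OnePoint ℂ := fun Q => (ev Q f, ev Q h)
  have hG : Continuous G := (continuous_ev f).prodMk (continuous_ev h)
  have hGK : IsClosed (G '' U'ᶜ) := (hK.image hG).isClosed
  have hnot : (((value P f : ℂ) : OnePoint ℂ), ((0 : ℂ) : OnePoint ℂ)) ∉ G '' U'ᶜ := by
    rintro ⟨Q, hQ, hGQ⟩
    have h1 : ev Q f = ((value P f : ℂ) : OnePoint ℂ) := congrArg Prod.fst hGQ
    have h2 : ev Q h = ((0 : ℂ) : OnePoint ℂ) := congrArg Prod.snd hGQ
    have hfQ : f ∈ Q.toValuationSubring := ev_ne_infty.1 (by rw [h1]; exact coe_ne_infty _)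
    have hhQ : h ∈ Q.toValuationSubring := ev_ne_infty.1 (by rw [h2]; exact coe_ne_infty _)
    rw [ev_of_mem hfQ] at h1
    rw [ev_of_mem hhQ] at h2
    have h3 : value Q f = value P f := OnePoint.coe_injective h1
    have h4 : value Q h = 0 := OnePoint.coe_injective h2
    have hne : Q ≠ P := by
      rintro rfl
      exact hQ hPU
    have h5 := hQh Q hne ((ord_sub_pos_iff hf hfQ _).2 h3)
    rw [value_eq_zero_iff Q hhQ, val_lt_one_iff] at h4
    rcases h4 with h4 | h4
    · exact hh0 h4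
    · omega
  let g : ℂ × ℂ → OnePoint ℂ × OnePoint ℂ := fun z => ((z.1 : OnePoint ℂ), (z.2 : OnePoint ℂ))
  have hg : Continuous g :=
    (OnePoint.continuous_coe.comp continuous_fst).prodMk (OnePoint.continuous_coe.comp continuous_snd)
  have hW : g ⁻¹' (G '' U'ᶜ)ᶜ ∈ 𝓝 (value P f, (0 : ℂ)) :=
    (hGK.isOpen_compl.preimage hg).mem_nhds hnot
  obtain ⟨ε, hε, hball⟩ := Metric.mem_nhds_iff.1 hW
  filter_upwards [hsmall ε hε, Metric.ball_mem_nhds _ hε] with c hc hc'
  obtain ⟨Q, hfQ, hhQ, hQc, hQl⟩ := hc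
  refine ⟨Q, hU' ?_, hfQ, hQc⟩
  by_contra hQU
  have h1 : (c, value Q h) ∈ Metric.ball (value P f, (0 : ℂ)) ε := by
    rw [Metric.mem_ball, Prod.dist_eq, max_lt_iff]
    exact ⟨hc', by rw [dist_zero_right]; exact hQl⟩
  refine hball h1 ⟨Q, hQU, ?_⟩
  change (ev Q f, ev Q h) = _
  rw [ev_of_mem hfQ, ev_of_mem hhQ, hQc]

theorem value_continuousAt {P : Place ℂ F} {f : F} (hf : f ∈ P.toValuationSubring) :
    (∀ᶠ Q in 𝓝 P, f ∈ Q.toValuationSubring) ∧ ContinuousAt (fun Q => value Q f) P := by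
  have h := (continuous_ev f).continuousAt (x := P)
  rw [ContinuousAt, ev_of_mem hf] at h
  exact tendsto_ev_coe.1 h

open Fermat.Agent.PicFlat in
/-- **the places form a connected space** -/
theorem preconnected {g c : ℤ} (rr : RR ℂ F g c) : PreconnectedSpace (Place ℂ F) := by
  rw [preconnectedSpace_iff_clopen]
  intro A hA
  by_contra hcon
  push Not at hcon
  obtain ⟨⟨P, hP⟩, hAu⟩ := hcon
  obtain ⟨Q₀, hQ₀⟩ : ∃ Q, Q ∉ A := by
    by_contra h
    push Not at h
    exact hAu (Set.eq_univ_of_forall h)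
  -- a function with its only pole at `P`
  obtain ⟨f, hf, hf0, hfo⟩ := Fermat.Agent.MWH.exists_pole_order rr P
    (n := max (c + 1) 1) (le_max_left _ _)
  have hn : (1 : ℤ) ≤ max (c + 1) 1 := le_max_right _ _
  have hreg : ∀ Q : Place ℂ F, Q ≠ P → f ∈ Q.toValuationSubring := fun Q hQ => by
    rw [mem_iff_ord Q hf0]
    exact ((Fermat.Agent.MWH.mem_Ln hf0).1 hf).2 Q hQ
  have htr : Transcendental ℂ f := transcendental_of_ord_ne_zero (v := P) (by rw [hfo]; omega)
  have hB : IsClopen Aᶜ := hA.compl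
  have hreg' : ∀ Q ∈ Aᶜ, f ∈ Q.toValuationSubring := fun Q hQ => hreg Q fun h => hQ (h ▸ hP)
  have hcont : ContinuousOn (fun Q : Place ℂ F => ‖value Q f‖) Aᶜ := fun Q hQ =>
    (value_continuousAt (hreg' Q hQ)).2.norm.continuousWithinAt
  obtain ⟨Q₁, hQ₁, hmax⟩ := hB.isClosed.isCompact.exists_isMaxOn ⟨Q₀, hQ₀⟩ hcont
  have h1 := open_value htr (hreg' Q₁ hQ₁) (hB.isOpen.mem_nhds hQ₁)
  have h2 : {c : ℂ | ∃ Q ∈ Aᶜ, f ∈ Q.toValuationSubring ∧ value Q f = c} ⊆
      Metric.closedBall 0 ‖value Q₁ f‖ := by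
    rintro c ⟨Q, hQ, -, rfl⟩
    rw [Metric.mem_closedBall, dist_zero_right]
    exact hmax hQ
  have h3 : value Q₁ f ∈ interior (Metric.closedBall (0 : ℂ) ‖value Q₁ f‖) :=
    mem_interior_iff_mem_nhds.2 (Filter.mem_of_superset h1 h2)
  rw [interior_closedBall', Metric.mem_ball, dist_zero_right] at h3
  exact lt_irrefl _ h3

end Fermat.Agent.Tor27
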