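import Fermat.Agent.Tor27.Defs

/-!
# Choice of generic places
-/

set_option autoImplicit false

noncomputable section

namespace Fermat.Agent.Tor27

open AlgebraicCurve Fermat.Agent.Curves Fermat.Agent.PicFlat Fermat.Agent.GoodRed

variable {k F : Type*} [Field k] [Field F] [Algebra k F] [IsFunctionField k F] [IsAlgClosed k]

/-- the divisor of a finite set of places -/
def dv (T : Finset (Place k F)) : Divisor k F := ∑ P ∈ T, Finsupp.single P 1

theorem dv_apply [DecidableEq (Place k F)] (T : Finset (Place k F)) (v : Place k F) :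
    dv T v = if v ∈ T then 1 else 0 := by
  rw [dv, Finsupp.finset_sum_apply]
  simp only [Finsupp.single_apply]
  rw [Finset.sum_ite_eq']

theorem degree_dv (T : Finset (Place k F)) : Divisor.degree (dv T) = T.card := by
  rw [dv, map_sum]
  rw [Finset.sum_congr rfl fun P _ => degree_single_one P 1]
  simp

theorem dv_nonneg (T : Finset (Place k F)) : 0 ≤ dv T := by
  classical
  intro v
  rw [dv_apply]
  split_ifs <;> simp

/-- a function gained by allowing a pole at `P` -/
theorem exists_gain {D : Divisor k F} {P : Place k F}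
    (h : ell (D + Finsupp.single P 1) ≠ ell D) :
    ∃ f ∈ riemannRochSpace (D + Finsupp.single P 1), f ≠ 0 ∧ P.ord f = -D P - 1 := by
  classical
  by_contra hcon
  push Not at hcon
  apply h
  have hle : riemannRochSpace (D + Finsupp.single P 1) = riemannRochSpace D := by
    apply le_antisymm
    · intro f hf
      rcases eq_or_ne f 0 with rfl | hf0
      · exact Submodule.zero_mem _
      rw [mem_iff_of_ne hf0]
      intro v
      have h3 := (mem_iff_of_ne hf0).1 hf v
      rw [Finsupp.add_apply] at h3
      by_cases hv : v = P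
      · subst hv
        have h4 := hcon f hf hf0
        rw [Finsupp.single_eq_same] at h3
        omega
      · rw [Finsupp.single_eq_of_ne hv] at h3
        omega
    · refine riemannRochSpace_mono ?_
      intro v
      rw [Finsupp.add_apply]
      have : (0 : ℤ) ≤ (Finsupp.single P (1 : ℤ) : Place k F →₀ ℤ) v := by
        by_cases hv : v = P
        · subst hv; rw [Finsupp.single_eq_same]; norm_num
        · rw [Finsupp.single_eq_of_ne hv]
      omega
  unfold ell
  rw [hle]

theorem ell_lt_of_gain {D : Divisor k F} {P : Place k F} {f : F}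
    (hf : f ∈ riemannRochSpace (D + Finsupp.single P 1)) (hf0 : f ≠ 0) (h : P.ord f = -D P - 1) :
    ell D + 1 ≤ ell (D + Finsupp.single P 1) := by
  have := ell_sub_single (D := D + Finsupp.single P 1) (P := P) hf0 hf (by
    rw [h, Finsupp.add_apply, Finsupp.single_eq_same]; ring)
  rw [add_sub_cancel_right] at this
  omega

/-- in an infinite set there is a place not adding a section to a special divisor -/
theorem exists_noGain {g c : ℤ} (hRR : RR k F g c) {S : Set (Place k F)} (hS : S.Infinite)
    (D : Divisor k F) (hD : Divisor.degree D + 1 - g < ell D) :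
    ∃ P ∈ S, ell (D + Finsupp.single P 1) = ell D := by
  classical
  by_contra! hcon
  have key : ∀ T : Finset (Place k F), (T : Set (Place k F)) ⊆ S →
      ell D + T.card ≤ ell (D + dv T) := by
    intro T
    induction T using Finset.induction_on with
    | empty => intro _; simp [dv]
    | insert P T hPT ih =>
      intro hT
      have hPS : P ∈ S := hT (by simp)
      have h1 := ih (fun x hx => hT (by simp [Finset.mem_coe.1 hx]))
      obtain ⟨f, hf, hf0, hP⟩ := exists_gain (hcon P hPS)
      have e1 : D + dv (insert P T) = (D + dv T) + Finsupp.single P 1 := by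
        rw [dv, Finset.sum_insert hPT, dv]
        abel
      have hf' : f ∈ riemannRochSpace ((D + dv T) + Finsupp.single P 1) := by
        refine riemannRochSpace_mono ?_ hf
        have := dv_nonneg T
        calc D + Finsupp.single P 1 = D + 0 + Finsupp.single P 1 := by rw [add_zero]
          _ ≤ D + dv T + Finsupp.single P 1 := by gcongr
      have h2 := ell_lt_of_gain hf' hf0 (by
        rw [hP, Finsupp.add_apply, dv_apply, if_neg hPT]; ring)
      rw [e1, Finset.card_insert_of_notMem hPT]
      omega
  obtain ⟨T, hT, hTc⟩ := hS.exists_subset_card_eq ((c - Divisor.degree D).toNat)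
  have h1 := key T hT
  have h2 := hRR.eq (D + dv T) (by rw [map_add, degree_dv, hTc]; omega)
  rw [map_add, degree_dv] at h2
  omega

theorem g_nonneg {g c : ℤ} (hRR : RR k F g c) : 0 ≤ g := by
  have h1 := hRR.le 0
  have h2 : ell (0 : Divisor k F) ≤ 1 := by
    unfold ell
    refine (Submodule.finrank_mono riemannRochSpace_zero_le).trans ?_
    exact (finrank_span_le_card _).trans (by simp)
  rw [map_zero] at h1
  omega

theorem one_mem {D : Divisor k F} (hD : 0 ≤ D) : (1 : F) ∈ riemannRochSpace D := by
  rw [mem_iff_of_ne one_ne_zero]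
  intro v
  have := hD v
  rw [v.ord_one]
  simpa using this

theorem one_le_ell {D : Divisor k F} (hD : 0 ≤ D) : 1 ≤ ell D := by
  haveI : Nontrivial (riemannRochSpace D) :=
    ⟨⟨⟨1, one_mem hD⟩, 0, fun h => one_ne_zero (congrArg Subtype.val h)⟩⟩
  exact Module.finrank_pos

theorem ell_zero : ell (0 : Divisor k F) = 1 := by
  refine le_antisymm ?_ (one_le_ell le_rfl)
  unfold ell
  refine (Submodule.finrank_mono riemannRochSpace_zero_le).trans ?_
  exact (finrank_span_le_card _).trans (by simp)

/-- `g` distinct places of an infinite set with `ell = 1` -/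
theorem exists_set {g c : ℤ} (hRR : RR k F g c) {S : Set (Place k F)} (hS : S.Infinite) (n : ℕ)
    (hn : (n : ℤ) ≤ g) :
    ∃ T : Finset (Place k F), (T : Set (Place k F)) ⊆ S ∧ T.card = n ∧ ell (dv T) = 1 := by
  classical
  induction n with
  | zero => exact ⟨∅, by simp, by simp, by simp [dv, ell_zero]⟩
  | succ n ih =>
    obtain ⟨T, hT, hc, he⟩ := ih (by push_cast at hn; omega)
    obtain ⟨P, hP, hPe⟩ := exists_noGain hRR (hS.sdiff T.finite_toSet) (dv T) (by
      rw [degree_dv, hc, he]
      push_cast at hn ⊢
      omega)
    have hPT : P ∉ T := fun h => hP.2 h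
    refine ⟨insert P T, ?_, ?_, ?_⟩
    · intro x hx
      rcases Finset.mem_insert.1 (Finset.mem_coe.1 hx) with rfl | h
      · exact hP.1
      · exact hT h
    · rw [Finset.card_insert_of_notMem hPT, hc]
    · rw [dv, Finset.sum_insert hPT, add_comm]
      exact hPe.trans he

/-- three disjoint nonspecial families of `g` places each -/
theorem exists_triple {g c : ℤ} (hRR : RR k F g c) {S : Set (Place k F)} (hS : S.Infinite) :
    ∃ P : Fin 3 → Fin g.toNat → Place k F,
      (∀ j j' i i', P j i = P j' i' → j = j' ∧ i = i') ∧ (∀ j i, P j i ∈ S) ∧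
      ∀ j, ell (∑ i, Finsupp.single (P j i) 1 : Divisor k F) = 1 := by
  classical
  have hg := g_nonneg hRR
  have hg' : (g.toNat : ℤ) ≤ g := by omega
  obtain ⟨T0, h0, c0, e0⟩ := exists_set hRR hS g.toNat hg'
  obtain ⟨T1, h1, c1, e1⟩ := exists_set hRR (hS.sdiff T0.finite_toSet) g.toNat hg'
  obtain ⟨T2, h2, c2, e2⟩ := exists_set hRR (hS.sdiff (T0 ∪ T1).finite_toSet) g.toNat hg'
  let T : Fin 3 → Finset (Place k F) := ![T0, T1, T2]
  have hc : ∀ j, (T j).card = g.toNat := by
    intro j
    fin_cases j
    · exact c0
    · exact c1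
    · exact c2
  have hdis : ∀ j j', j ≠ j' → Disjoint (T j) (T j') := by
    have a1 : Disjoint T0 T1 := by
      rw [Finset.disjoint_left]
      intro x hx hx'
      exact (h1 hx').2 hx
    have a2 : Disjoint T0 T2 := by
      rw [Finset.disjoint_left]
      intro x hx hx'
      exact (h2 hx').2 (by simp [hx])
    have a3 : Disjoint T1 T2 := by
      rw [Finset.disjoint_left]
      intro x hx hx'
      exact (h2 hx').2 (by simp [hx])
    intro j j' hjj
    fin_cases j <;> fin_cases j' <;> simp_all [T, disjoint_comm]
  have hTS : ∀ j, ∀ x ∈ T j, x ∈ S := by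
    intro j
    fin_cases j
    · exact fun x hx => h0 hx
    · exact fun x hx => (h1 hx).1
    · exact fun x hx => (h2 hx).1
  have hTe : ∀ j, ell (dv (T j)) = 1 := by
    intro j
    fin_cases j
    · exact e0
    · exact e1
    · exact e2
  let e : ∀ j, Fin g.toNat ≃ T j := fun j => (Fin.castOrderIso (hc j).symm).toEquiv.trans
    (T j).equivFin.symm
  refine ⟨fun j i => (e j i : Place k F), ?_, fun j i => hTS j _ (e j i).2, fun j => ?_⟩
  · intro j j' i i' h
    have hj : j = j' := by
      by_contra hne
      have h1 : (e j i : Place k F) = (e j' i' : Place k F) := h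
      have h2 := (e j' i').2
      rw [← h1] at h2
      exact Finset.disjoint_left.1 (hdis j j' hne) (e j i).2 h2
    subst hj
    exact ⟨rfl, (e j).injective (Subtype.ext h)⟩
  · rw [← hTe j]
    congr 1
    rw [dv, ← Finset.sum_coe_sort (T j) (fun P => (Finsupp.single P 1 : Divisor k F))]
    exact Fintype.sum_equiv (e j) _ _ fun i => rfl

end Fermat.Agent.Tor27
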