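import Fermat.Agent.Tor27.Pick

/-!
# The three families of charts
-/

set_option autoImplicit false

noncomputable section

namespace Fermat.Agent.Tor27

open AlgebraicCurve Fermat.Agent.Curves Fermat.Agent.PicFlat Fermat.Agent.GoodRed

section Cls

variable {k F : Type*} [Field k] [Field F] [Algebra k F] [IsFunctionField k F] [IsAlgClosed k]

/-- The class of `P - Q`. -/
def pcls (P Q : Place k F) : Pic0 k F :=
  Pic0.mk ⟨Finsupp.single P 1 - Finsupp.single Q 1, by
    rw [Divisor.mem_degZero, map_sub, degree_single_one, degree_single_one, sub_self]⟩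

theorem mk_eq_zero {D : Divisor.degZero (K := k) (F := F)} :
    Pic0.mk D = 0 ↔ ∃ f : F, f ≠ 0 ∧ divisorOf f = (D : Divisor k F) := by
  unfold Pic0.mk
  rw [QuotientAddGroup.eq_zero_iff, AddSubgroup.mem_addSubgroupOf]
  constructor
  · rintro ⟨f, hf, h⟩
    exact ⟨f, hf, Finsupp.ext fun v => (h v).symm⟩
  · rintro ⟨f, hf, h⟩
    exact ⟨f, hf, fun v => by rw [← h]; rfl⟩

theorem mk_sum3 {ι : Type*} (s : Finset ι) (D : ι → Divisor.degZero (K := k) (F := F)) :
    Pic0.mk (∑ i ∈ s, D i) = ∑ i ∈ s, Pic0.mk (D i) :=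
  map_sum (QuotientAddGroup.mk' _) D s

theorem pcls_self (P : Place k F) : pcls P P = 0 := by
  unfold pcls
  rw [mk_eq_zero]
  refine ⟨1, one_ne_zero, ?_⟩
  ext v
  simp

theorem sum_pcls {ι : Type*} (s : Finset ι) (A B : ι → Place k F) :
    ∑ i ∈ s, pcls (A i) (B i) = 0 ↔ ∃ f : F, f ≠ 0 ∧ divisorOf f =
      ∑ i ∈ s, Finsupp.single (A i) (1 : ℤ) - ∑ i ∈ s, Finsupp.single (B i) 1 := by
  unfold pcls
  rw [← mk_sum3, mk_eq_zero]
  have : ((∑ i ∈ s, (⟨Finsupp.single (A i) 1 - Finsupp.single (B i) 1, by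
      rw [Divisor.mem_degZero, map_sub, degree_single_one, degree_single_one, sub_self]⟩ :
      Divisor.degZero (K := k) (F := F))) : Divisor.degZero (K := k) (F := F)) =
      (⟨∑ i ∈ s, Finsupp.single (A i) (1 : ℤ) - ∑ i ∈ s, Finsupp.single (B i) 1, by
        rw [Divisor.mem_degZero, map_sub, map_sum, map_sum]
        simp only [degree_single_one, sub_self]⟩ : Divisor.degZero (K := k) (F := F)) := by
    apply Subtype.ext
    rw [AddSubgroup.val_finset_sum]
    exact Finset.sum_sub_distrib _ _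
  rw [this]

theorem pcls_add (P Q R : Place k F) : pcls P Q + pcls Q R = pcls P R := by
  unfold pcls
  rw [← Pic0.mk_add]
  congr 1
  apply Subtype.ext
  change _ - _ + (_ - _) = _ - _
  abel

end Cls

variable {F : Type*} [Field F] [Algebra ℂ F] [IsFunctionField ℂ F]

/-- three disjoint nonspecial families of `n` charted places, together with a basis of
`L(D₀ + D₁ + D₂)`. -/
structure Tri (F : Type*) [Field F] [Algebra ℂ F] [IsFunctionField ℂ F] (n : ℕ) where
  /-- the places -/
  P : Fin 3 → Fin n → Place ℂ F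
  inj : ∀ j j' i i', P j i = P j' i' → j = j' ∧ i = i'
  /-- the charts -/
  ch : ∀ j i, Chart (P j i)
  ell1 : ∀ j, ell (∑ i, Finsupp.single (P j i) 1 : Divisor ℂ F) = 1
  /-- the functions -/
  h : Fin (2 * n) → F
  h_mem : ∀ k, h k ∈ riemannRochSpace (∑ j, ∑ i, Finsupp.single (P j i) 1 : Divisor ℂ F)
  h_indep : ∀ (c₀ : ℂ) (c : Fin (2 * n) → ℂ), c₀ • (1 : F) + ∑ k, c k • h k = 0 →
    c₀ = 0 ∧ c = 0
  h_span : ∀ f ∈ riemannRochSpace (∑ j, ∑ i, Finsupp.single (P j i) 1 : Divisor ℂ F),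
    ∃ (c₀ : ℂ) (c : Fin (2 * n) → ℂ), f = c₀ • (1 : F) + ∑ k, c k • h k

theorem infinite_places {k F : Type*} [Field k] [Field F] [Algebra k F] [IsFunctionField k F]
    [IsAlgClosed k] : (Set.univ : Set (Place k F)).Infinite := by
  obtain ⟨t, ht, -⟩ := IsFunctionField.exists_transcendental (k := k) (F := F)
  have h1 : ∀ c : k, ∃ w : Place k F, 0 < w.ord (t - algebraMap k F c) := fun c =>
    exists_ord_pos_of_transcendental (by
      intro h
      apply ht
      have : IsAlgebraic k (t - algebraMap k F c + algebraMap k F c) :=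
        h.add (isAlgebraic_algebraMap c)
      rwa [sub_add_cancel] at this)
  choose w hw using h1
  have hinj : Function.Injective w := by
    intro c c' h
    by_contra hne
    have h1 := hw c
    have h2 := hw c'
    rw [← h] at h2
    have h3 : algebraMap k F (c' - c) ≠ 0 := by
      rw [Ne, FaithfulSMul.algebraMap_eq_zero_iff]
      exact sub_ne_zero.2 (Ne.symm hne)
    have e : algebraMap k F (c' - c) = (t - algebraMap k F c) + -(t - algebraMap k F c') := by
      rw [map_sub]; ring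
    have ht1 : t - algebraMap k F c ≠ 0 := fun h0 => by rw [h0] at h1; simp at h1
    have ht2 : -(t - algebraMap k F c') ≠ 0 := fun h0 => by
      rw [neg_eq_zero] at h0; rw [h0] at h2; simp at h2
    have h4 := ord_add (w c) (f := t - algebraMap k F c) (g := -(t - algebraMap k F c'))
      (by rw [← e]; exact h3) ht1 ht2
    rw [← e, ord_algebraMap, ord_neg] at h4
    rcases min_le_iff.1 h4 with h5 | h5 <;> omega
  haveI : Infinite k := inferInstance
  exact Set.infinite_univ_iff.2 (Infinite.of_injective w hinj)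

theorem ell_triple {n : ℕ} {g c : ℤ} (hRR : RR ℂ F g c) (hn : (n : ℤ) = g)
    (P : Fin 3 → Fin n → Place ℂ F)
    (h1 : ∀ j, ell (∑ i, Finsupp.single (P j i) 1 : Divisor ℂ F) = 1) :
    ell (∑ j, ∑ i, Finsupp.single (P j i) 1 : Divisor ℂ F) = 2 * n + 1 := by
  have hdeg : ∀ j, Divisor.degree (∑ i, Finsupp.single (P j i) 1 : Divisor ℂ F) = n := by
    intro j
    rw [map_sum]
    rw [Finset.sum_congr rfl fun i _ => degree_single_one (P j i) 1]
    simp
  have hnn : ∀ j, (0 : Divisor ℂ F) ≤ ∑ i, Finsupp.single (P j i) 1 := fun j =>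
    Finset.sum_nonneg fun i _ => Finsupp.single_nonneg.2 zero_le_one
  have h2 := hRR.le (∑ j, ∑ i, Finsupp.single (P j i) 1 : Divisor ℂ F)
  have e : (∑ j, ∑ i, Finsupp.single (P j i) 1 : Divisor ℂ F) =
      (∑ i, Finsupp.single (P 0 i) 1) + ((∑ i, Finsupp.single (P 1 i) 1) +
        ∑ i, Finsupp.single (P 2 i) 1) := by
    rw [Fin.sum_univ_three, add_assoc]
  have h3 := ell_add_le (∑ i, Finsupp.single (P 0 i) 1 : Divisor ℂ F)
    ((∑ i, Finsupp.single (P 1 i) 1) + ∑ i, Finsupp.single (P 2 i) 1) (add_nonneg (hnn 1) (hnn 2))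
  rw [← e, h1 0, map_add, hdeg, hdeg] at h3
  rw [e, map_add, map_add, hdeg, hdeg, hdeg, ← e] at h2
  omega

theorem exists_basis_one {K V : Type*} [Field K] [AddCommGroup V] [Module K V]
    [Module.Finite K V] {v : V} (hv : v ≠ 0) {m : ℕ} (hm : Module.finrank K V = m + 1) :
    ∃ h : Fin m → V, (∀ (c₀ : K) (c : Fin m → K), c₀ • v + ∑ k, c k • h k = 0 →
      c₀ = 0 ∧ c = 0) ∧ ∀ f : V, ∃ (c₀ : K) (c : Fin m → K), f = c₀ • v + ∑ k, c k • h k := by
  obtain ⟨W, hW⟩ := Submodule.exists_isCompl (Submodule.span K {v})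
  have hWr : Module.finrank K W = m := by
    have h2 := Submodule.finrank_add_eq_of_isCompl hW
    rw [finrank_span_singleton hv] at h2
    omega
  let b := Module.finBasisOfFinrankEq K W hWr
  refine ⟨fun k => (b k : V), ?_, ?_⟩
  · intro c₀ c h
    have h2 : c₀ • v + ((∑ k, c k • b k : W) : V) = 0 := by
      rw [Submodule.coe_sum]
      simpa using h
    have h3 : c₀ • v ∈ Submodule.span K {v} ⊓ W := by
      refine ⟨Submodule.smul_mem _ _ (Submodule.mem_span_singleton_self v), ?_⟩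
      rw [eq_neg_of_add_eq_zero_left h2]
      exact W.neg_mem (Subtype.prop _)
    rw [hW.inf_eq_bot, Submodule.mem_bot] at h3
    have hc0 : c₀ = 0 := (smul_eq_zero.1 h3).resolve_right hv
    refine ⟨hc0, ?_⟩
    rw [h3, zero_add] at h2
    have h4 : (∑ k, c k • b k : W) = 0 := Subtype.ext h2
    funext k
    exact (Fintype.linearIndependent_iff.1 b.linearIndependent) c h4 k
  · intro f
    have h2 : f ∈ Submodule.span K {v} ⊔ W := by
      rw [hW.sup_eq_top]; trivial
    obtain ⟨a, ha, w, hw, haw⟩ := Submodule.mem_sup.1 h2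
    obtain ⟨c₀, rfl⟩ := Submodule.mem_span_singleton.1 ha
    refine ⟨c₀, fun k => b.repr ⟨w, hw⟩ k, ?_⟩
    have h3 := b.sum_repr ⟨w, hw⟩
    have h4 := congrArg (fun z : W => (z : V)) h3
    simp only [Submodule.coe_sum, Submodule.coe_smul] at h4
    rw [h4, haw]

theorem exists_tri {g c : ℤ} (hRR : RR ℂ F g c) (hC : ChartSt F) :
    Nonempty (Tri F g.toNat) := by
  classical
  have hS : {P : Place ℂ F | Nonempty (Chart P)}.Infinite := by
    have := (infinite_places (k := ℂ) (F := F)).sdiff hC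
    refine this.mono ?_
    rintro P ⟨-, hP⟩
    exact not_not.1 hP
  obtain ⟨P, hinj, hch, h1⟩ := exists_triple hRR hS
  have hn : ((g.toNat : ℕ) : ℤ) = g := Int.toNat_of_nonneg (g_nonneg hRR)
  have hell := ell_triple hRR hn P h1
  have hDD0 : 0 ≤ (∑ j, ∑ i, Finsupp.single (P j i) 1 : Divisor ℂ F) :=
    Finset.sum_nonneg fun j _ =>
      Finset.sum_nonneg fun i _ => Finsupp.single_nonneg.2 zero_le_one
  generalize hDD : (∑ j, ∑ i, Finsupp.single (P j i) 1 : Divisor ℂ F) = DD at hell hDD0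
  have hv : (⟨1, one_mem hDD0⟩ : riemannRochSpace DD) ≠ 0 :=
    fun h => one_ne_zero (congrArg Subtype.val h)
  haveI hfin : Module.Finite ℂ (riemannRochSpace DD) := by
    refine Module.finite_of_finrank_pos ?_
    change 0 < ell DD
    omega
  obtain ⟨h, hi, hs⟩ := exists_basis_one (K := ℂ) hv hell
  subst hDD
  refine ⟨⟨P, hinj, fun j i => (hch j i).some, h1, fun k => ((h k : F)),
    fun k => (h k).2, ?_, ?_⟩⟩
  · intro c₀ c h0
    refine hi c₀ c (Subtype.ext ?_)
    rw [Submodule.coe_add, Submodule.coe_smul, Submodule.coe_sum]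
    exact h0
  · intro f hf
    obtain ⟨c₀, c, e⟩ := hs ⟨f, hf⟩
    refine ⟨c₀, c, ?_⟩
    have := congrArg Subtype.val e
    rw [Submodule.coe_add, Submodule.coe_smul, Submodule.coe_sum] at this
    exact this

namespace Tri

variable {n : ℕ} (T : Tri F n)

/-- the divisor `D₀ + D₁ + D₂` -/
def DD : Divisor ℂ F := ∑ j, ∑ i, Finsupp.single (T.P j i) 1

/-- the parametrization of the Jacobian -/
def psi (j : Fin 3) (x : Fin n → ℂ) : Pic0 ℂ F := ∑ i, pcls ((T.ch j i).Q (x i)) (T.P j i)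

theorem psi_zero (j : Fin 3) : T.psi j 0 = 0 := by
  unfold psi
  refine Finset.sum_eq_zero fun i _ => ?_
  rw [Pi.zero_apply, (T.ch j i).Q_zero, pcls_self]

end Tri

end Fermat.Agent.Tor27
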