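import Fermat.Agent.Tor27.Tri
import Fermat.Agent.Tor27.Track

/-!
# (H1) and (H2) from zero tracking
-/

set_option autoImplicit false

noncomputable section

namespace Fermat.Agent.Tor27

open AlgebraicCurve Fermat.Agent.Curves Fermat.Agent.PicFlat Fermat.Agent.GoodRed Filter Topology

variable {F : Type*} [Field F] [Algebra ℂ F] [IsFunctionField ℂ F]

theorem exists_const {D : Divisor ℂ F} (hD : 0 ≤ D) (h : ell D = 1) {f : F}
    (hf : f ∈ riemannRochSpace D) : ∃ c : ℂ, f = c • (1 : F) := by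
  have h1 : (⟨1, one_mem hD⟩ : riemannRochSpace D) ≠ 0 :=
    fun h => one_ne_zero (congrArg Subtype.val h)
  obtain ⟨c, hc⟩ := exists_smul_eq_of_finrank_eq_one h h1 ⟨f, hf⟩
  exact ⟨c, (congrArg Subtype.val hc).symm⟩

theorem Chart.u_mul_mem' {P : Place ℂ F} (ch : Chart P) {f : F} (hf : f = 0 ∨ -1 ≤ P.ord f) :
    ch.u * f ∈ P.toValuationSubring := by
  rcases eq_or_ne f 0 with rfl | h0
  · rw [mul_zero]; exact zero_mem _
  rw [mem_iff_ord P (mul_ne_zero ch.u_ne h0), P.ord_mul ch.u_ne h0, ch.ord_u]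
  have := hf.resolve_left h0
  omega

theorem Chart.regular_of_value {P : Place ℂ F} (ch : Chart P) {f : F}
    (hf : f = 0 ∨ -1 ≤ P.ord f) (h : value P (ch.u * f) = 0) : f = 0 ∨ 0 ≤ P.ord f := by
  rcases eq_or_ne f 0 with rfl | h0
  · left; rfl
  right
  rw [value_eq_zero_iff P (ch.u_mul_mem' hf), val_lt_one_iff] at h
  have h1 := h.resolve_left (mul_ne_zero ch.u_ne h0)
  rw [P.ord_mul ch.u_ne h0, ch.ord_u] at h1
  omega

namespace Tri

variable {n : ℕ} (T : Tri F n)

/-- the family of functions -/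
def fn (c : Fin (2 * n) → ℂ) : F := 1 + ∑ k, c k • T.h k

/-- the principal part -/
def res (j : Fin 3) (i : Fin n) (k : Fin (2 * n)) : ℂ := value (T.P j i) ((T.ch j i).u * T.h k)

theorem DD_apply [DecidableEq (Place ℂ F)] (v : Place ℂ F) :
    T.DD v = ∑ j, ∑ i, if T.P j i = v then 1 else 0 := by
  unfold DD
  rw [Finsupp.finsetSum_apply]
  refine Finset.sum_congr rfl fun j _ => ?_
  rw [Finsupp.finsetSum_apply]
  refine Finset.sum_congr rfl fun i _ => ?_
  rw [Finsupp.single_apply]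

theorem DD_P (j : Fin 3) (i : Fin n) : T.DD (T.P j i) = 1 := by
  classical
  rw [DD_apply, Finset.sum_eq_single j, Finset.sum_eq_single i]
  · simp
  · intro i' _ h
    rw [if_neg]
    intro e
    exact h (T.inj _ _ _ _ e).2
  · simp
  · intro j' _ h
    refine Finset.sum_eq_zero fun i' _ => ?_
    rw [if_neg]
    intro e
    exact h (T.inj _ _ _ _ e).1
  · simp

theorem DD_eq_zero {v : Place ℂ F} (hv : ∀ j i, v ≠ T.P j i) : T.DD v = 0 := by
  classical
  rw [DD_apply]
  refine Finset.sum_eq_zero fun j _ => Finset.sum_eq_zero fun i _ => ?_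
  rw [if_neg (hv j i).symm]

theorem DD_nonneg : 0 ≤ T.DD := Finset.sum_nonneg fun j _ =>
  Finset.sum_nonneg fun i _ => Finsupp.single_nonneg.2 zero_le_one

theorem h_ord (j : Fin 3) (i : Fin n) (k : Fin (2 * n)) :
    T.h k = 0 ∨ -1 ≤ (T.P j i).ord (T.h k) := by
  have := mem_riemannRochSpace_iff.1 (T.h_mem k) (T.P j i)
  change T.h k = 0 ∨ -T.DD (T.P j i) ≤ _ at this
  rwa [DD_P] at this

theorem u_h_mem (j : Fin 3) (i : Fin n) (k : Fin (2 * n)) :
    (T.ch j i).u * T.h k ∈ (T.P j i).toValuationSubring := (T.ch j i).u_mul_mem' (T.h_ord j i k)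

/-- linear combination -/
theorem sum_mem (c : Fin (2 * n) → ℂ) : ∑ k, c k • T.h k ∈ riemannRochSpace T.DD :=
  Submodule.sum_mem _ fun k _ => Submodule.smul_mem _ _ (T.h_mem k)

theorem sum_ord (c : Fin (2 * n) → ℂ) (j : Fin 3) (i : Fin n) :
    ∑ k, c k • T.h k = 0 ∨ -1 ≤ (T.P j i).ord (∑ k, c k • T.h k) := by
  have := mem_riemannRochSpace_iff.1 (T.sum_mem c) (T.P j i)
  rwa [DD_P] at this

theorem value_sum_h (c : Fin (2 * n) → ℂ) (j : Fin 3) (i : Fin n) :
    value (T.P j i) ((T.ch j i).u * ∑ k, c k • T.h k) = ∑ k, c k * T.res j i k := by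
  rw [Finset.mul_sum]
  simp only [mul_smul_comm]
  exact (value_sum (T.P j i) Finset.univ c _ fun k _ => T.u_h_mem j i k).2

/-- a combination without principal parts outside one block vanishes -/
theorem eq_zero_of_res (j : Fin 3) (c : Fin (2 * n) → ℂ)
    (h : ∀ j', j' ≠ j → ∀ i, ∑ k, c k * T.res j' i k = 0) : c = 0 := by
  classical
  have hmem : ∑ k, c k • T.h k ∈ riemannRochSpace (∑ i, Finsupp.single (T.P j i) 1 :
      Divisor ℂ F) := by
    rw [mem_riemannRochSpace_iff]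
    intro v
    rcases eq_or_ne (∑ k, c k • T.h k) 0 with h0 | h0
    · left; exact h0
    right
    have h1 := (mem_riemannRochSpace_iff.1 (T.sum_mem c) v).resolve_left h0
    have hnn : (0 : ℤ) ≤ (∑ i, Finsupp.single (T.P j i) 1 : Divisor ℂ F) v :=
      (Finset.sum_nonneg fun i _ => Finsupp.single_nonneg.2 zero_le_one :
        (0 : Divisor ℂ F) ≤ ∑ i, Finsupp.single (T.P j i) 1) v
    by_cases hv : ∀ j' i, v ≠ T.P j' i
    · rw [T.DD_eq_zero hv] at h1
      omega
    push Not at hv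
    obtain ⟨j', i, rfl⟩ := hv
    by_cases hj : j' = j
    · subst hj
      rw [T.DD_P] at h1
      have : (∑ i, Finsupp.single (T.P j' i) 1 : Divisor ℂ F) (T.P j' i) = 1 := by
        rw [Finsupp.finsetSum_apply, Finset.sum_eq_single i]
        · simp
        · intro i' _ h
          rw [Finsupp.single_apply, if_neg]
          intro e
          exact h (T.inj _ _ _ _ e).2
        · simp
      omega
    · have h2 := ((T.ch j' i).regular_of_value (T.sum_ord c j' i)
        (by rw [T.value_sum_h]; exact h j' hj i)).resolve_left h0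
      omega
  obtain ⟨c₀, hc₀⟩ := exists_const (Finset.sum_nonneg fun i _ =>
    Finsupp.single_nonneg.2 zero_le_one) (T.ell1 j) hmem
  refine (T.h_indep (-c₀) c ?_).2
  rw [hc₀, neg_smul, neg_add_cancel]

/-- the derivative of the tracking map -/
def dtau : (Fin (2 * n) → ℂ) →L[ℂ] (Fin 3 → Fin n → ℂ) :=
  ContinuousLinearMap.pi fun j => ContinuousLinearMap.pi fun i =>
    -∑ k, T.res j i k • ContinuousLinearMap.proj (R := ℂ) (φ := fun _ : Fin (2 * n) => ℂ) k

theorem dtau_apply (c : Fin (2 * n) → ℂ) (j : Fin 3) (i : Fin n) :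
    T.dtau c j i = -∑ k, c k * T.res j i k := by
  simp only [dtau, ContinuousLinearMap.coe_pi', ContinuousLinearMap.neg_apply,
    ContinuousLinearMap.sum_apply, ContinuousLinearMap.smul_apply, ContinuousLinearMap.proj_apply,
    smul_eq_mul]
  congr 1
  exact Finset.sum_congr rfl fun k _ => mul_comm _ _

theorem dtau_inj (j : Fin 3) (c : Fin (2 * n) → ℂ) (h : ∀ j', j' ≠ j → T.dtau c j' = 0) :
    c = 0 := by
  refine T.eq_zero_of_res j c fun j' hj' i => ?_
  have := congrFun (h j' hj') i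
  rw [dtau_apply] at this
  simpa using this

end Tri

/-- the tracking data -/
structure Trk {n : ℕ} (T : Tri F n) where
  /-- the zeros -/
  τ : (Fin (2 * n) → ℂ) → Fin 3 → Fin n → ℂ
  τ_zero : τ 0 = 0
  smooth : ContDiffAt ℂ 2 τ 0
  deriv : HasFDerivAt τ T.dtau 0
  /-- the radius -/
  ρ : ℝ
  ρ_pos : 0 < ρ
  fn_ne : ∀ c, ‖c‖ < ρ → T.fn c ≠ 0
  div : ∀ c, ‖c‖ < ρ → divisorOf (T.fn c) =
    ∑ j, ∑ i, Finsupp.single ((T.ch j i).Q (τ c j i)) 1 - T.DD
  uniq : ∀ c j i t, ‖c‖ < ρ → ‖t‖ < ρ →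
    value ((T.ch j i).Q t) ((T.ch j i).u * T.fn c) = 0 → t = τ c j i
  sep : ∀ j i t, ‖t‖ < ρ → t ≠ 0 → ∀ j' i', (T.ch j i).Q t ≠ T.P j' i'

end Fermat.Agent.Tor27
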